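import Fermat.Agent.Tate.Component

/-!
Inertia on the odd prime torsion of `y² + xy = x³ + t`: it preserves each component, and it fixes
everything when `|t|` is a `p`th power of the value of a fixed element and `p` is a unit. It is
the normal form case of the inertia action at a multiplicative prime.
-/

namespace Fermat.Agent.Tate

open WeierstrassCurve

variable {K : Type*} [Field K] [DecidableEq K] {A : ValuationSubring K} {t : K}
  {F : Type*} [Field F] [Algebra F K] {σ : K ≃ₐ[F] K} {p : ℕ} [Fact p.Prime]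

local notation "v" => A.valuation

/-- An automorphism preserving the valuation and fixing `t` preserves components. -/
theorem val_apply_x_eq (ht : v t < 1) (ht0 : t ≠ 0) (hp2 : p ≠ 2)
    (hd : σ ∈ A.decompositionSubgroup F) (htσ : σ t = t) {x y : K}
    {h : (nodeCurve t).Nonsingular x y} (hx : v x < 1) (htor : p • Affine.Point.some x y h = 0) :
    v (σ x) = v x ∧ v t < v x ^ 2 ∧
      ((v y < v x ∧ v (σ y) < v x) ∨ (v (-y - x) < v x ∧ v (-σ y - σ x) < v x)) := by
  obtain ⟨i, hi, hxt, hbr⟩ := exists_pow_val_eq ht ht0 hp2 hx htor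
  have he : v (σ x) = v x := by
    refine pow_left_inj_val A (Fact.out : p.Prime).ne_zero ?_
    have h2 : v (σ (x ^ p)) = v (σ (t ^ i)) :=
      (val_eq_val_iff hd _ _).2 (by rw [map_pow, map_pow, hi])
    rw [map_pow σ, map_pow σ, htσ, map_pow, map_pow] at h2
    rw [h2, hi]
  refine ⟨he, hxt, ?_⟩
  rcases hbr with hy | hy
  · exact Or.inl ⟨hy, he ▸ (val_lt_val_iff hd y x).2 hy⟩
  · refine Or.inr ⟨hy, ?_⟩
    have := (val_lt_val_iff hd (-y - x) x).2 hy
    rwa [map_sub σ, map_neg σ, he] at this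

/-- Inertia moves `p`-torsion only by points off the node (any residue characteristic). -/
theorem not_deep_sub_apply (ht : v t < 1) (ht0 : t ≠ 0) (hp2 : p ≠ 2)
    (hd : σ ∈ A.decompositionSubgroup F) (htσ : σ t = t) {x y : K}
    {h : (nodeCurve t).Nonsingular x y} {h' : (nodeCurve t).Nonsingular (σ x) (σ y)}
    (htor : p • Affine.Point.some x y h = 0) :
    ¬ Deep A (Affine.Point.some x y h - Affine.Point.some (σ x) (σ y) h') := by
  by_cases hx : v x < 1
  · obtain ⟨he, hxt, hbr⟩ := val_apply_x_eq ht ht0 hp2 hd htσ hx htor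
    rcases hbr with ⟨hy, hy'⟩ | ⟨hy, hy'⟩
    · exact not_deep_sub_of_isPlus ⟨x, y, h, rfl, rfl, hx, hxt, hy⟩
        ⟨_, _, h', rfl, he, hx, hxt, hy'⟩
    · have := not_deep_sub_of_isPlus (A := A) (g := v x)
        (P := -Affine.Point.some x y h) (Q := -Affine.Point.some (σ x) (σ y) h')
        ⟨x, _, _, Affine.Point.neg_some h, rfl, hx, hxt, by rw [nodeCurve_negY]; exact hy⟩
        ⟨_, _, _, Affine.Point.neg_some h', he, hx, hxt, by rw [nodeCurve_negY]; exact hy'⟩
      rwa [← deep_neg_iff, neg_sub, sub_neg_eq_add, add_comm, ← sub_eq_add_neg] at this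
  · have hx' : ¬ v (σ x) < 1 := fun hlt =>
      hx (by
        have := (val_lt_val_iff hd x 1).1 (by rwa [map_one σ, map_one])
        rwa [map_one] at this)
    rw [sub_eq_add_neg]
    exact not_deep_add ht (by rwa [deep_some]) (by rwa [deep_neg_iff, deep_some])

/-- Inertia fixes the `p`-torsion when `p` is a unit and `|t| = |c| ^ p` for a fixed `c`. -/
theorem fixed_of_nodeCurve (ht : v t < 1) (ht0 : t ≠ 0) (hp2 : p ≠ 2) (hpu : v (p : K) = 1)
    (hσ : σ ∈ A.inertiaSubgroupIn F) (htσ : σ t = t) {x y : K}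
    {h : (nodeCurve t).Nonsingular x y} {h' : (nodeCurve t).Nonsingular (σ x) (σ y)}
    (htor : p • Affine.Point.some x y h = 0) (htor' : p • Affine.Point.some (σ x) (σ y) h' = 0)
    (hc : v x < 1 → ∃ c : K, σ c = c ∧ v c ^ p = v t) :
    σ x = x ∧ σ y = y := by
  have hd := mem_decomposition_of_mem_inertia hσ
  have hint := isInt_nodeCurve (A := A) ht
  by_cases hx : v x < 1
  swap
  · exact fixed_of_inE0 hint hσ ((inE0_iff_not_deep ht _).2 (by rwa [deep_some])) hpu
      ((Fact.out : p.Prime).odd_of_ne_two hp2) htor htor'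
  obtain ⟨c, hcσ, hct⟩ := hc hx
  obtain ⟨i, hi, -⟩ := exists_pow_val_eq ht ht0 hp2 hx htor
  have hxc : v x = v (c ^ i) := by
    refine pow_left_inj_val A (Fact.out : p.Prime).ne_zero ?_
    rw [hi, ← hct, map_pow, ← pow_mul, ← pow_mul, mul_comm]
  obtain ⟨he, hxt, hbr⟩ := val_apply_x_eq ht ht0 hp2 hd htσ hx htor
  have hx0 : v x ≠ 0 := by
    intro h0
    rw [h0, zero_pow two_ne_zero] at hxt
    exact not_lt_zero hxt
  have hu : v (x / c ^ i) = 1 := by rw [map_div₀, ← hxc, div_self hx0]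
  have hc0 : c ^ i ≠ 0 := fun h0 => hx0 (by rw [hxc, h0, map_zero])
  have hdx : v (σ x - x) < v x := by
    have hlt := val_sub_lt_one_of_mem_inertia hσ ((mem_iff A).2 hu.le)
    rw [map_div₀ σ, map_pow σ, hcσ, ← sub_div, map_div₀, ← hxc,
      div_lt_one₀ (zero_lt_iff.2 hx0)] at hlt
    exact hlt
  rcases hbr with ⟨hy, hy'⟩ | ⟨hy, hy'⟩
  · have hE1 := inE1_sub_of_isPlus ht (h₁ := h) (h₂ := h') hx he hy hy' hdx
    have h0 := eq_zero_of_inE1_of_nsmul hint hE1 hpu
      (by rw [nsmul_sub, htor, htor', sub_zero])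
    rw [sub_eq_zero, Affine.Point.some.injEq] at h0
    exact ⟨h0.1.symm, h0.2.symm⟩
  · have hn : v ((nodeCurve t).negY x y) < v x := by rwa [nodeCurve_negY]
    have hn' : v ((nodeCurve t).negY (σ x) (σ y)) < v x := by rwa [nodeCurve_negY]
    have hE1 := inE1_sub_of_isPlus ht (h₁ := (Affine.nonsingular_neg ..).2 h)
      (h₂ := (Affine.nonsingular_neg ..).2 h') hx he hn hn' hdx
    have h0 := eq_zero_of_inE1_of_nsmul hint hE1 hpu (by
      rw [← Affine.Point.neg_some h, ← Affine.Point.neg_some h', nsmul_sub, neg_nsmul, neg_nsmul,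
        htor, htor', neg_zero, sub_zero])
    rw [← Affine.Point.neg_some h, ← Affine.Point.neg_some h', sub_eq_zero, neg_inj,
      Affine.Point.some.injEq] at h0
    exact ⟨h0.1.symm, h0.2.symm⟩

end Fermat.Agent.Tate
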