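import Fermat.Agent.Tate.Smooth

/-!
The curve `y² + xy = x³ + t` over a valued field with `|t| < 1`: the points reducing to the node.
It is the normal form for multiplicative reduction.
-/

namespace Fermat.Agent.Tate

open WeierstrassCurve

variable {K : Type*} [Field K] {A : ValuationSubring K}

local notation "v" => A.valuation

/-- The curve `y² + xy = x³ + t`. -/
def nodeCurve (t : K) : WeierstrassCurve.Affine K :=
  ⟨1, 0, 0, 0, t⟩

variable {t : K}

@[simp] lemma nodeCurve_a₁ : (nodeCurve t).a₁ = 1 := rfl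
@[simp] lemma nodeCurve_a₂ : (nodeCurve t).a₂ = 0 := rfl
@[simp] lemma nodeCurve_a₃ : (nodeCurve t).a₃ = 0 := rfl
@[simp] lemma nodeCurve_a₄ : (nodeCurve t).a₄ = 0 := rfl
@[simp] lemma nodeCurve_a₆ : (nodeCurve t).a₆ = t := rfl

lemma nodeCurve_negY (x y : K) : (nodeCurve t).negY x y = -y - x := by
  simp [Affine.negY]

lemma nodeCurve_eq {x y : K} (h : (nodeCurve t).Equation x y) : y * (y + x) = x ^ 3 + t := by
  rw [Affine.equation_iff] at h
  simp only [nodeCurve_a₁, nodeCurve_a₂, nodeCurve_a₃, nodeCurve_a₄, nodeCurve_a₆] at h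
  linear_combination h

lemma isInt_nodeCurve (ht : v t < 1) : IsInt A (nodeCurve t) :=
  ⟨by simp, by simp, by simp, by simp, ht.le⟩

variable (A) in
/-- `P` reduces to the node. -/
def Deep (P : (nodeCurve t).Point) : Prop :=
  ∃ (x y : K) (h : (nodeCurve t).Nonsingular x y), P = .some x y h ∧ A.valuation x < 1

lemma deep_some {x y : K} {h : (nodeCurve t).Nonsingular x y} :
    Deep A (Affine.Point.some x y h) ↔ v x < 1 :=
  ⟨fun ⟨_, _, _, he, hx⟩ => by cases he; exact hx, fun hx => ⟨x, y, h, rfl, hx⟩⟩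

lemma not_deep_zero : ¬ Deep A (0 : (nodeCurve t).Point) :=
  fun ⟨_, _, _, he, _⟩ => Affine.Point.some_ne_zero _ he.symm

lemma deep_neg_iff {P : (nodeCurve t).Point} : Deep A (-P) ↔ Deep A P := by
  rcases P with _ | ⟨x, y, h⟩
  · exact Iff.rfl
  · rw [Affine.Point.neg_some, deep_some, deep_some]

lemma deep_val_y (ht : v t < 1) {x y : K} (h : (nodeCurve t).Equation x y) (hx : v x < 1) :
    v y < 1 := by
  refine (val_y_le_one (isInt_nodeCurve ht) h hx.le).lt_of_ne fun hy => ?_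
  have h1 : v (y + x) = 1 := by rw [Valuation.map_add_eq_of_lt_left _ (hy ▸ hx), hy]
  have h2 : v (x ^ 3 + t) < 1 :=
    Valuation.map_add_lt _ (by rw [map_pow]; exact pow_lt_one₀ zero_le hx (by norm_num)) ht
  rw [← nodeCurve_eq h, map_mul, hy, h1, one_mul] at h2
  exact lt_irrefl _ h2

/-- A point has nonsingular reduction iff it does not reduce to the node. -/
lemma inE0_iff_not_deep (ht : v t < 1) (P : (nodeCurve t).Point) :
    InE0 A P ↔ ¬ Deep A P := by
  rcases P with _ | ⟨x, y, h⟩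
  · exact iff_of_true inE0_zero not_deep_zero
  rw [inE0_some, deep_some, not_lt]
  simp only [nodeCurve_a₁, nodeCurve_a₂, nodeCurve_a₃, nodeCurve_a₄]
  constructor
  · rintro (hx | hx | hx)
    · exact hx.le
    all_goals
      by_contra hlt
      rw [not_le] at hlt
      have hy := deep_val_y ht h.1 hlt
      refine absurd hx (ne_of_lt ?_)
    · refine Valuation.map_sub_lt _ (val_mul_lt_of_lt A (by simp) hy) ?_
      rw [mul_zero, zero_mul, add_zero, add_zero]
      refine val_mul_lt_of_lt A (val_ofNat_le A 3) ?_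
      rw [map_pow]; exact pow_lt_one₀ zero_le hlt two_ne_zero
    · rw [add_zero, one_mul]
      exact Valuation.map_add_lt _ (val_mul_lt_of_lt A (val_ofNat_le A 2) hy) hlt
  · intro hx
    rcases hx.lt_or_eq with hx | hx
    · exact Or.inl hx
    · right
      by_contra hne
      rw [not_or] at hne
      have hint := isInt_nodeCurve (A := A) ht
      have hy := val_y_le_one hint h.1 hx.ge
      have hX := (val_polyX_le_one hint hx.ge hy).lt_of_ne (by simpa using hne.1)
      have hY := (val_polyY_le_one hint hx.ge hy).lt_of_ne (by simpa using hne.2)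
      simp only [nodeCurve_a₁, nodeCurve_a₂, nodeCurve_a₃, nodeCurve_a₄] at hX hY
      have hid : x ^ 3
          = 2 * ((9 * x ^ 4 + 2 * x ^ 3 - (y * (y + x) - x ^ 3)) + (y * (y + x) - x ^ 3))
          - x ^ 2 * (3 * (-2 * (1 * y - (3 * x ^ 2 + 2 * 0 * x + 0))
            + (2 * y + 1 * x + 0))) := by
        ring
      have hlt : v (x ^ 3) < 1 := by
        rw [hid]
        refine Valuation.map_sub_lt _
          (val_mul_lt_of_lt A (val_ofNat_le A 2) (Valuation.map_add_lt _ ?_ ?_))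
          (val_mul_lt_of_lt A ?_ (val_mul_lt_of_lt A (val_ofNat_le A 3)
          (Valuation.map_add_lt _ (val_mul_lt_of_lt A ?_ hX) hY)))
        · rw [show 9 * x ^ 4 + 2 * x ^ 3 - (y * (y + x) - x ^ 3)
            = (-(1 * y - (3 * x ^ 2 + 2 * 0 * x + 0))) * (y + x + 3 * x ^ 2) by ring, mul_comm]
          refine val_mul_lt_of_lt A (Valuation.map_add_le _ (Valuation.map_add_le _ hy hx.ge)
            (val_mul_le_of_le A (val_ofNat_le A 3) ?_)) ?_
          · rw [map_pow]; exact pow_le_one' hx.ge 2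
          · rw [Valuation.map_neg]; exact hX
        · rw [nodeCurve_eq h.1, add_sub_cancel_left]; exact ht
        · rw [map_pow]; exact pow_le_one' hx.ge 2
        · rw [Valuation.map_neg]; exact val_ofNat_le A 2
      rw [map_pow, ← hx, one_pow] at hlt
      exact lt_irrefl _ hlt

/-- For `|t| < |x|²` exactly one of `y`, `y + x` is smaller than `x`. -/
lemma side_cases {x y : K} (h : (nodeCurve t).Equation x y) (hx : v x < 1)
    (hxt : v t < v x ^ 2) : v y < v x ∨ v (-y - x) < v x := by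
  by_contra hne
  rw [not_or, not_lt, not_lt] at hne
  have h0 : (0 : A.ValueGroup) < v x := by
    rcases eq_or_ne (v x) 0 with h0 | h0
    · rw [h0, zero_pow two_ne_zero] at hxt; exact absurd hxt not_lt_zero
    · exact zero_lt_iff.2 h0
  have h2 : v x ^ 2 ≤ v (x ^ 3 + t) := by
    rw [← nodeCurve_eq h, map_mul, pow_two, ← Valuation.map_neg _ (y + x),
      show -(y + x) = -y - x by ring]
    exact mul_le_mul' hne.1 hne.2
  refine absurd h2 (not_le.2 (Valuation.map_add_lt _ ?_ hxt))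
  rw [map_pow]
  exact pow_lt_pow_right_of_lt_one₀ h0 hx (by norm_num)

variable (A) in
/-- `P` lies in the component of abscissa valuation `g`, on the branch `y = 0`. -/
def IsPlus (P : (nodeCurve t).Point) (g : A.ValueGroup) : Prop :=
  ∃ (x y : K) (h : (nodeCurve t).Nonsingular x y), P = .some x y h ∧ A.valuation x = g ∧ g < 1 ∧
    A.valuation t < g ^ 2 ∧ A.valuation y < g

lemma IsPlus.deep {P : (nodeCurve t).Point} {g : A.ValueGroup} (h : IsPlus A P g) : Deep A P := by
  obtain ⟨x, y, h, rfl, rfl, hg, -⟩ := h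
  exact deep_some.2 hg

lemma IsPlus.not_neg {P : (nodeCurve t).Point} {g g' : A.ValueGroup} (h : IsPlus A P g) :
    ¬ IsPlus A (-P) g' := by
  rintro ⟨x', y', h', he, rfl, -, -, hy'⟩
  obtain ⟨x, y, h, rfl, rfl, -, -, hy⟩ := h
  rw [Affine.Point.neg_some, Affine.Point.some.injEq, nodeCurve_negY] at he
  obtain ⟨rfl, rfl⟩ := he
  rw [show -y - x = -(y + x) by ring, Valuation.map_neg,
    Valuation.map_add_eq_of_lt_right _ hy] at hy'
  exact lt_irrefl _ hy'

lemma IsPlus.val_unique {P : (nodeCurve t).Point} {g g' : A.ValueGroup} (h : IsPlus A P g)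
    (h' : IsPlus A P g') : g = g' := by
  obtain ⟨x, y, _, rfl, rfl, -⟩ := h
  obtain ⟨_, _, _, he, rfl, -⟩ := h'
  cases he; rfl

lemma isPlus_or_isPlus_neg {x y : K} {h : (nodeCurve t).Nonsingular x y}
    (hx : v x < 1) (hxt : v t < v x ^ 2) :
    IsPlus A (Affine.Point.some x y h) (v x) ∨ IsPlus A (-Affine.Point.some x y h) (v x) := by
  rcases side_cases h.1 hx hxt with hy | hy
  · exact Or.inl ⟨x, y, h, rfl, rfl, hx, hxt, hy⟩
  · exact Or.inr ⟨x, _, _, Affine.Point.neg_some h, rfl, hx, hxt,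
      by rw [nodeCurve_negY]; exact hy⟩

variable [DecidableEq K]

omit [DecidableEq K] in
lemma nodeChord {x₁ x₂ x₃ y₁ y₂ y₃ l m : K}
    (hc : IsChord (nodeCurve t) x₁ x₂ x₃ y₁ y₂ y₃ l m) :
    x₃ = l * (l + 1) - x₁ - x₂ ∧ x₁ * x₂ + x₃ * (x₁ + x₂) = -((2 * l + 1) * m) ∧
      x₁ * x₂ * x₃ = m ^ 2 - t := by
  obtain ⟨-, -, -, h1, h2, h3⟩ := hc
  simp only [nodeCurve_a₁, nodeCurve_a₂, nodeCurve_a₃, nodeCurve_a₄, nodeCurve_a₆] at h1 h2 h3
  exact ⟨by linear_combination h1, by linear_combination h2, by linear_combination h3⟩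

/-- The points not reducing to the node form a subgroup. -/
theorem not_deep_add (ht : v t < 1) {P Q : (nodeCurve t).Point} (hP : ¬ Deep A P)
    (hQ : ¬ Deep A Q) : ¬ Deep A (P + Q) := by
  rcases P with _ | ⟨x₁, y₁, h₁⟩
  · rwa [show (Affine.Point.zero : (nodeCurve t).Point) + Q = Q from zero_add Q]
  rcases Q with _ | ⟨x₂, y₂, h₂⟩
  · change ¬ Deep A (_ + 0); rwa [add_zero]
  rw [deep_some, not_lt] at hP hQ
  rcases add_cases h₁ h₂ with ⟨-, -, hs⟩ | ⟨x₃, y₃, l, m, h₃, -, -, heq, hc, hs⟩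
  · rw [hs]; exact not_deep_zero
  rw [hs, deep_some, not_lt]
  by_contra hx
  rw [not_le] at hx
  have hy := deep_val_y ht heq hx
  obtain ⟨he1, he2, -⟩ := nodeChord hc
  set G := max (v x₁) (v x₂) with hG
  have hG1 : 1 ≤ G := hP.trans (le_max_left _ _)
  set L := max 1 (v l) with hL
  have hL2 : L ^ 2 ≤ G := chord_slope_bound (isInt_nodeCurve ht) hc hG1 (le_max_left _ _)
    (le_max_right _ _) (hx.le.trans hG1)
  have hL1 : 1 ≤ L := le_max_left _ _
  have hm : v m < L := by
    rw [show m = y₃ - l * x₃ by linear_combination -hc.eq3]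
    refine Valuation.map_sub_lt _ (hy.trans_le hL1) ?_
    rw [map_mul]
    exact lt_of_le_of_lt (mul_le_mul_left (le_max_right 1 (v l)) _)
      (mul_lt_of_lt_one_right (zero_lt_one.trans_le hL1) hx)
  have hr : v (-((2 * l + 1) * m)) < G := by
    rw [Valuation.map_neg, map_mul]
    refine lt_of_lt_of_le ?_ hL2
    rw [pow_two]
    refine lt_of_le_of_lt (mul_le_mul_left (Valuation.map_add_le _
      ((val_mul_le_of_le A (val_ofNat_le A 2) le_rfl).trans (le_max_right _ _))
      ((map_one _).trans_le hL1)) _) ?_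
    exact mul_lt_mul_of_pos_left hm (zero_lt_one.trans_le hL1)
  have h3 : v (x₃ * (x₁ + x₂)) < G := by
    rw [map_mul]
    exact lt_of_le_of_lt (mul_le_mul_right (Valuation.map_add (A.valuation) x₁ x₂) _)
      (mul_lt_of_lt_one_left (zero_lt_one.trans_le hG1) hx)
  have h12 : v (x₁ * x₂) < G := by
    rw [show x₁ * x₂ = -((2 * l + 1) * m) - x₃ * (x₁ + x₂) by linear_combination he2]
    exact Valuation.map_sub_lt _ hr h3
  rw [map_mul] at h12
  exact absurd h12 (not_lt.2 (max_le (le_mul_of_one_le_right zero_le hQ)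
    (le_mul_of_one_le_left zero_le hP)))

/-- A point of the middle component doubles out of the node. -/
theorem not_deep_add_self_of_mid (ht : v t < 1) (ht0 : t ≠ 0) {x y : K}
    {h : (nodeCurve t).Nonsingular x y} (hx : v x < 1) (hxt : v x ^ 2 ≤ v t) :
    ¬ Deep A (Affine.Point.some x y h + Affine.Point.some x y h) := by
  rcases add_cases h h with ⟨-, -, hs⟩ | ⟨x₃, y₃, l, m, h₃, hne, hl, -, hc, hs⟩
  · rw [hs]; exact not_deep_zero
  rw [hs, deep_some]
  have hy0 : y ≠ (nodeCurve t).negY x y := fun h => hne ⟨rfl, h⟩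
  rw [nodeCurve_negY] at hy0
  have htpos : 0 < v t := zero_lt_iff.2 ((Valuation.ne_zero_iff _).2 ht0)
  have hx3 : v (x ^ 3) < v t := by
    rw [map_pow, show v x ^ 3 = v x * v x ^ 2 from pow_succ' _ 2]
    exact lt_of_le_of_lt (mul_le_mul_right hxt _) (mul_lt_of_lt_one_left htpos hx)
  have hprod : v y * v (y + x) = v t := by
    rw [← map_mul, nodeCurve_eq h.1, Valuation.map_add_eq_of_lt_right _ hx3]
  have hy2 : v y ^ 2 = v t ∧ v (y + x) = v y := by
    rcases lt_trichotomy (v x) (v y) with hlt | heq | hlt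
    · have := Valuation.map_add_eq_of_lt_left (A.valuation) hlt
      rw [this, ← pow_two] at hprod
      exact ⟨hprod, this⟩
    · have hle : v (y + x) ≤ v y := Valuation.map_add_le _ le_rfl heq.le
      have h1 : v t ≤ v y ^ 2 := by
        rw [← hprod, pow_two]; exact mul_le_mul_right hle _
      have h2 : v y ^ 2 = v t := le_antisymm (heq ▸ hxt) h1
      refine ⟨h2, ?_⟩
      rw [← h2, pow_two] at hprod
      exact mul_left_cancel₀ (fun h0 => by rw [h0] at h2; simp at h2; exact htpos.ne h2) hprod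
    · exfalso
      have h1 : v y * v (y + x) < v x ^ 2 := by
        rw [Valuation.map_add_eq_of_lt_right _ hlt, pow_two]
        exact mul_lt_mul_of_pos_right hlt (lt_of_le_of_lt zero_le hlt)
      rw [hprod] at h1
      exact absurd hxt (not_le.2 h1)
  obtain ⟨hy2, hyx⟩ := hy2
  have hypos : 0 < v y := zero_lt_iff.2 fun h0 => by
    rw [h0, zero_pow two_ne_zero] at hy2; exact htpos.ne hy2
  have hxy : v x ≤ v y := (pow_le_pow_iff_left₀ zero_le zero_le two_ne_zero).1 (hxt.trans hy2.ge)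
  have hden : v (2 * y + x) ≤ v y := by
    rw [show 2 * y + x = y + (y + x) by ring]
    exact Valuation.map_add_le _ le_rfl hyx.le
  have hd0 : 2 * y + x ≠ 0 := fun h0 => hy0 (by linear_combination h0)
  have hsq : v (3 * x ^ 2) < v y := by
    refine val_mul_lt_of_lt A (val_ofNat_le A 3) ?_
    rw [map_pow]
    refine lt_of_le_of_lt hxt ?_
    rw [← hy2, pow_two]
    exact mul_lt_of_lt_one_left hypos (deep_val_y ht h.1 hx)
  have hl' : l = (3 * x ^ 2 - y) / (2 * y + x) := by
    rw [hl, Affine.slope_of_Y_ne rfl (by rw [nodeCurve_negY]; exact hy0), nodeCurve_negY]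
    simp only [nodeCurve_a₁, nodeCurve_a₂, nodeCurve_a₄]
    ring_nf
  have hnum : v y = v (3 * x ^ 2 - y) := (Valuation.map_sub_eq_of_lt_right _ hsq).symm
  have h1 : 1 ≤ v l := by
    rw [hl', map_div₀, one_le_div₀ (zero_lt_iff.2 ((Valuation.ne_zero_iff _).2 hd0)), ← hnum]
    exact hden
  have h2 : 1 ≤ v (l + 1) := by
    rw [hl', div_add_one hd0, map_div₀,
      one_le_div₀ (zero_lt_iff.2 ((Valuation.ne_zero_iff _).2 hd0)),
      show 3 * x ^ 2 - y + (2 * y + x) = (y + x) + 3 * x ^ 2 by ring,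
      Valuation.map_add_eq_of_lt_left _ (lt_of_lt_of_eq hsq hyx.symm), hyx]
    exact hden
  obtain ⟨he1, -, -⟩ := nodeChord hc
  rw [not_lt, he1, sub_sub]
  have h12 : v (x + x) < v (l * (l + 1)) := by
    refine lt_of_lt_of_le (Valuation.map_add_lt _ hx hx) ?_
    rw [map_mul]; exact one_le_mul h1 h2
  rw [Valuation.map_sub_eq_of_lt_left _ h12, map_mul]
  exact one_le_mul h1 h2

/-- Two points in the same component differ by a point outside the node. -/
theorem not_deep_sub_of_isPlus {P Q : (nodeCurve t).Point} {g : A.ValueGroup}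
    (hP : IsPlus A P g) (hQ : IsPlus A Q g) : ¬ Deep A (P - Q) := by
  obtain ⟨x₁, y₁, h₁, rfl, hxg, hg, -, hy₁⟩ := hP
  obtain ⟨x₂, y₂, h₂, rfl, hxg₂, -, -, hy₂⟩ := hQ
  rw [sub_eq_add_neg, Affine.Point.neg_some]
  rcases add_cases h₁ ((Affine.nonsingular_neg ..).2 h₂) with
    ⟨-, -, hs⟩ | ⟨x₃, y₃, l, m, h₃, hne, hl, -, hc, hs⟩
  · rw [hs]; exact not_deep_zero
  rw [hs, deep_some, not_lt]
  have hnum : v (y₁ - (-y₂ - x₂)) = g := by
    rw [show y₁ - (-y₂ - x₂) = x₂ + (y₁ + y₂) by ring, Valuation.map_add_eq_of_lt_left _ ?_, hxg₂]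
    rw [hxg₂]; exact Valuation.map_add_lt _ hy₁ hy₂
  have hgpos : 0 < g := lt_of_le_of_lt zero_le hy₁
  have hx12 : x₁ ≠ x₂ := fun he => by
    have h := Affine.Y_eq_of_Y_ne h₁.1 ((Affine.equation_neg ..).2 h₂.1) he
      (fun h => hne ⟨he, h⟩)
    rw [nodeCurve_negY] at h
    rw [← h, sub_self, map_zero] at hnum
    exact hgpos.ne hnum
  have hd0 := sub_ne_zero.2 hx12
  have hpos : 0 < v (x₁ - x₂) := zero_lt_iff.2 ((Valuation.ne_zero_iff _).2 hd0)
  have hd : v (x₁ - x₂) ≤ g := Valuation.map_sub_le _ hxg.le hxg₂.le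
  rw [nodeCurve_negY, Affine.slope_of_X_ne hx12] at hl
  have h1 : 1 ≤ v l := by
    rw [hl, map_div₀, hnum, one_le_div₀ hpos]; exact hd
  have h2 : 1 ≤ v (l + 1) := by
    rw [hl, div_add_one hd0, map_div₀, one_le_div₀ hpos,
      show y₁ - (-y₂ - x₂) + (x₁ - x₂) = x₁ + (y₁ + y₂) by ring,
      Valuation.map_add_eq_of_lt_left _ ?_, hxg]
    · exact hd
    · rw [hxg]; exact Valuation.map_add_lt _ hy₁ hy₂
  obtain ⟨he1, -, -⟩ := nodeChord hc
  rw [he1, sub_sub]
  have h12 : v (x₁ + x₂) < v (l * (l + 1)) := by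
    refine lt_of_lt_of_le (Valuation.map_add_lt _ (hxg.trans_lt hg) (hxg₂.trans_lt hg)) ?_
    rw [map_mul]; exact one_le_mul h1 h2
  rw [Valuation.map_sub_eq_of_lt_left _ h12, map_mul]
  exact one_le_mul h1 h2

/-- Two points in the same component with congruent scaled abscissae differ by
an element of `E₁`. -/
theorem inE1_sub_of_isPlus (ht : v t < 1) {x₁ x₂ y₁ y₂ : K}
    {h₁ : (nodeCurve t).Nonsingular x₁ y₁} {h₂ : (nodeCurve t).Nonsingular x₂ y₂}
    (hx : v x₁ < 1) (he : v x₂ = v x₁) (hy₁ : v y₁ < v x₁) (hy₂ : v y₂ < v x₁)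
    (hd : v (x₂ - x₁) < v x₁) :
    InE1 A (Affine.Point.some x₁ y₁ h₁ - Affine.Point.some x₂ y₂ h₂) := by
  rw [sub_eq_add_neg, Affine.Point.neg_some]
  rcases add_cases h₁ ((Affine.nonsingular_neg ..).2 h₂) with
    ⟨-, -, hs⟩ | ⟨x₃, y₃, l, m, h₃, hne, hl, -, hc, hs⟩
  · rw [hs]; exact inE1_zero
  rw [hs, inE1_some]
  have hnum : v (y₁ - (-y₂ - x₂)) = v x₁ := by
    rw [show y₁ - (-y₂ - x₂) = x₂ + (y₁ + y₂) by ring, Valuation.map_add_eq_of_lt_left _ ?_, he]
    rw [he]; exact Valuation.map_add_lt _ hy₁ hy₂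
  refine one_lt_val_of_slope (isInt_nodeCurve ht) hc hx.le (he.trans_le hx.le) ?_
  have hx12 : x₁ ≠ x₂ := fun he' => by
    have h := Affine.Y_eq_of_Y_ne h₁.1 ((Affine.equation_neg ..).2 h₂.1) he'
      (fun h => hne ⟨he', h⟩)
    rw [nodeCurve_negY] at h
    rw [← h, sub_self, map_zero] at hnum
    exact (lt_of_le_of_lt zero_le hy₁).ne hnum
  rw [hl, nodeCurve_negY, Affine.slope_of_X_ne hx12, map_div₀, hnum,
    one_lt_div₀ (zero_lt_iff.2 ((Valuation.ne_zero_iff _).2 (sub_ne_zero.2 hx12))),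
    show x₁ - x₂ = -(x₂ - x₁) by ring, Valuation.map_neg]
  exact hd

/-- Subtracting a component of larger valuation lowers the component index. -/
theorem isPlus_sub {P Q : (nodeCurve t).Point} {g g' : A.ValueGroup}
    (hP : IsPlus A P g) (hQ : IsPlus A Q g') (hgg : g < g') : IsPlus A (P - Q) (g / g') := by
  obtain ⟨x₁, y₁, h₁, rfl, hxg, hg, htg, hy₁⟩ := hP
  obtain ⟨x₂, y₂, h₂, rfl, hxg₂, hg', -, hy₂⟩ := hQ
  have hgpos : 0 < g := lt_of_le_of_lt zero_le hy₁
  have hg'pos : 0 < g' := hgpos.trans hgg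
  rw [sub_eq_add_neg, Affine.Point.neg_some]
  rcases add_cases h₁ ((Affine.nonsingular_neg ..).2 h₂) with
    ⟨hxx, -, -⟩ | ⟨x₃, y₃, l, m, h₃, hne, hl, -, hc, hs⟩
  · rw [← hxg, ← hxg₂, hxx] at hgg
    exact absurd hgg (lt_irrefl _)
  have hx12 : x₁ ≠ x₂ := fun he => by rw [← hxg, ← hxg₂, he] at hgg; exact lt_irrefl _ hgg
  have hd0 := sub_ne_zero.2 hx12
  have hden : v (x₁ - x₂) = g' := by
    rw [Valuation.map_sub_eq_of_lt_right _ (by rw [hxg, hxg₂]; exact hgg), hxg₂]
  have hyy : v (y₁ + y₂) < g' := Valuation.map_add_lt _ (hy₁.trans hgg) hy₂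
  rw [nodeCurve_negY, Affine.slope_of_X_ne hx12] at hl
  have h1 : v l = 1 := by
    rw [hl, map_div₀, hden, show y₁ - (-y₂ - x₂) = x₂ + (y₁ + y₂) by ring,
      Valuation.map_add_eq_of_lt_left _ (by rw [hxg₂]; exact hyy), hxg₂, div_self hg'pos.ne']
  have h2 : v (l + 1) < 1 := by
    rw [hl, div_add_one hd0, map_div₀, hden, div_lt_one₀ hg'pos,
      show y₁ - (-y₂ - x₂) + (x₁ - x₂) = x₁ + (y₁ + y₂) by ring]
    exact Valuation.map_add_lt _ (by rw [hxg]; exact hgg) hyy
  have hm : v m = g := by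
    have hlx : v (l * x₁) = g := by rw [map_mul, h1, one_mul, hxg]
    rw [show m = y₁ - l * x₁ by linear_combination -hc.eq1,
      Valuation.map_sub_eq_of_lt_right _ (by rw [hlx]; exact hy₁), hlx]
  obtain ⟨-, -, he3⟩ := nodeChord hc
  have hx3 : v x₃ = g / g' := by
    have := congrArg v he3
    rw [Valuation.map_sub_eq_of_lt_left _ (by rw [map_pow, hm]; exact htg), map_mul, map_mul,
      map_pow, hm, hxg, hxg₂, pow_two, mul_assoc] at this
    rw [eq_div_iff hg'pos.ne', mul_comm]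
    exact mul_left_cancel₀ hgpos.ne' this
  have hlt1 : g / g' < 1 := (div_lt_one₀ hg'pos).2 hgg
  have hge : g < g / g' := by
    rw [lt_div_iff₀ hg'pos]; exact mul_lt_of_lt_one_right hgpos hg'
  refine ⟨x₃, _, h₃, hs, hx3, hlt1, htg.trans (pow_lt_pow_left₀ hge zero_le two_ne_zero), ?_⟩
  rw [nodeCurve_negY, show -y₃ - x₃ = -((l + 1) * x₃ + m) by linear_combination -hc.eq3,
    Valuation.map_neg]
  refine Valuation.map_add_lt _ ?_ (hm.trans_lt hge)
  rw [map_mul, hx3]
  exact mul_lt_of_lt_one_left (hgpos.trans hge) h2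

/-- Doubling on the node curve: the levels `g` of `P` and `g'` of `±(P + P)` satisfy `g' = g ^ 2`
or `g' g ^ 2 = v t`. -/
theorem double_cases (ht0 : t ≠ 0) {P R : (nodeCurve t).Point} {g g' : A.ValueGroup}
    (hP : IsPlus A P g) (hR : IsPlus A R g') (h : P + P = R ∨ P + P = -R) :
    g' = g ^ 2 ∨ g' * g ^ 2 = v t := by
  obtain ⟨x, y, hns, rfl, rfl, hg, htg, hy⟩ := hP
  obtain ⟨x', y', h', rfl, rfl, -, htg', -⟩ := hR
  have hgpos : 0 < v x := lt_of_le_of_lt zero_le hy
  have hden : v (2 * y + x) = v x := by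
    rw [Valuation.map_add_eq_of_lt_right _ (val_mul_lt_of_lt A (val_ofNat_le A 2) hy)]
  rcases add_cases hns hns with ⟨-, hyy, -⟩ | ⟨x₃, y₃, l, m, h₃, hne, hl, -, hc, hs⟩
  · exfalso
    rw [nodeCurve_negY] at hyy
    rw [show 2 * y + x = 0 by linear_combination hyy, map_zero] at hden
    exact hgpos.ne hden
  have hxe : x₃ = x' := by
    rcases h with h | h <;> rw [hs] at h
    · injection h with h1 h2
    · rw [Affine.Point.neg_some] at h
      injection h with h1 h2
  subst hxe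
  have hd0 : 2 * y + x ≠ 0 := fun h0 => by rw [h0, map_zero] at hden; exact hgpos.ne hden
  have hl' : l * (2 * y + x) = 3 * x ^ 2 - y := by
    rw [hl, Affine.slope_of_Y_ne rfl (fun h => hne ⟨rfl, h⟩), nodeCurve_negY]
    simp only [nodeCurve_a₁, nodeCurve_a₂, nodeCurve_a₄]
    rw [show y - (-y - x) = 2 * y + x by ring, div_mul_cancel₀ _ hd0]
    ring
  have hmid : m * (2 * y + x) = 2 * t - x ^ 3 := by
    linear_combination (2 : K) * nodeCurve_eq hns.1 - (2 * y + x) * hc.eq1 - x * hl'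
  obtain ⟨-, -, he3⟩ := nodeChord hc
  have hm : v m * v x = v (2 * t - x ^ 3) := by rw [← hden, ← map_mul, hmid]
  have h2t : v (2 * t) ≤ v t := val_mul_le_of_le A (val_ofNat_le A 2) le_rfl
  have he : v x * v x * v x₃ = v (m ^ 2 - t) := by rw [← he3, map_mul, map_mul]
  have hlowt : v (m ^ 2) < v t → v x₃ * v x ^ 2 = v t := fun hlt => by
    rw [Valuation.map_sub_eq_of_lt_right _ hlt] at he
    rw [← he, pow_two, mul_comm]
  rcases le_or_gt (v x ^ 3) (v t) with hc3 | hc3
  · right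
    apply hlowt
    have hle : v m * v x ≤ v t := by
      rw [hm]; exact Valuation.map_sub_le _ h2t (by rw [map_pow]; exact hc3)
    have htpos : 0 < v t := zero_lt_iff.2 ((Valuation.ne_zero_iff _).2 ht0)
    have hmul : v m ^ 2 * v x ^ 2 < v t * v x ^ 2 := by
      rw [← mul_pow]
      refine lt_of_le_of_lt (pow_le_pow_left₀ zero_le hle 2) ?_
      rw [pow_two]
      exact mul_lt_mul_of_pos_left htg htpos
    rw [map_pow]
    exact lt_of_mul_lt_mul_right hmul zero_le
  · have hmx : v m = v x ^ 2 := by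
      rw [Valuation.map_sub_eq_of_lt_right _ (by rw [map_pow]; exact h2t.trans_lt hc3),
        map_pow, pow_succ] at hm
      exact mul_right_cancel₀ hgpos.ne' hm
    rcases lt_trichotomy (v (m ^ 2)) (v t) with hlt | heq | hlt
    · exact Or.inr (hlowt hlt)
    · exfalso
      have hle : v x₃ * v x ^ 2 ≤ v t := by
        rw [mul_comm, pow_two, he]; exact Valuation.map_sub_le _ heq.le le_rfl
      rw [map_pow, hmx] at heq
      rw [← heq, pow_two (v x ^ 2)] at hle
      have hle' := le_of_mul_le_mul_right hle (pow_pos hgpos 2)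
      rw [← heq] at htg'
      exact absurd (pow_le_pow_left₀ zero_le hle' 2) (not_le.2 htg')
    · left
      rw [Valuation.map_sub_eq_of_lt_left _ hlt, map_pow, hmx, pow_two (v x ^ 2),
        ← pow_two (v x)] at he
      exact mul_left_cancel₀ (pow_pos hgpos 2).ne' he

end Fermat.Agent.Tate
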