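import Mathlib.AlgebraicGeometry.EllipticCurve.IsomOfJ
import Mathlib.FieldTheory.IsAlgClosed.Basic
import Fermat.Agent.Tate.Node

/-!
The integral change of variables to `y² + xy = x³ + t` for multiplicative reduction, fixed by
inertia. It reduces questions on multiplicative reduction to that curve.
-/

namespace Fermat.Agent.Tate

open WeierstrassCurve

variable {K : Type*} [Field K] {A : ValuationSubring K}

local notation "v" => A.valuation

lemma nodeCurve_Δ (t : K) : (nodeCurve t).Δ = -t * (1 + 432 * t) := by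
  simp only [WeierstrassCurve.Δ, b₂, b₄, b₆, b₈, nodeCurve_a₁, nodeCurve_a₂, nodeCurve_a₃,
    nodeCurve_a₄, nodeCurve_a₆]
  ring

lemma nodeCurve_c₄ (t : K) : (nodeCurve t).c₄ = 1 := by
  simp only [WeierstrassCurve.c₄, b₂, b₄, nodeCurve_a₁, nodeCurve_a₂, nodeCurve_a₃, nodeCurve_a₄]
  ring

lemma nodeCurve_c₆ (t : K) : (nodeCurve t).c₆ = -1 - 864 * t := by
  simp only [WeierstrassCurve.c₆, b₂, b₄, b₆, nodeCurve_a₁, nodeCurve_a₂, nodeCurve_a₃,
    nodeCurve_a₄, nodeCurve_a₆]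
  ring

lemma val_one_add_of_lt {z : K} (hz : v z < 1) : v (1 + z) = 1 := by
  rw [Valuation.map_add_eq_of_lt_left _ (by rwa [map_one]), map_one]

lemma val_nodeCurve_Δ {t : K} (ht : v t < 1) : v (nodeCurve t).Δ = v t := by
  rw [nodeCurve_Δ, map_mul, Valuation.map_neg,
    val_one_add_of_lt (val_mul_lt_of_lt A (val_ofNat_le A 432) ht), mul_one]

/-- An integral change of variables from `W` to the normal form `y² + x y = x³ + t`
with `v t < 1`. -/
structure NormalData (A : ValuationSubring K) (W : WeierstrassCurve K) where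
  /-- the parameter -/
  t : K
  /-- the change of variables -/
  C : VariableChange K
  ht : A.valuation t < 1
  ht0 : t ≠ 0
  hΔ : A.valuation t = A.valuation W.Δ
  hC : C • W = nodeCurve t
  hu : A.valuation (C.u : K) = 1
  hr : A.valuation C.r ≤ 1
  hs : A.valuation C.s ≤ 1
  hw : A.valuation C.t ≤ 1

/-- The relations satisfied by the change of variables. -/
lemma NormalData.eqns {W : WeierstrassCurve K} (D : NormalData A W) :
    (D.C.u : K) ^ 4 = W.c₄ ∧ (D.C.u : K) ^ 6 * (-1 - 864 * D.t) = W.c₆ ∧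
      (D.C.u : K) ^ 2 = W.b₂ + 12 * D.C.r ∧ (D.C.u : K) = W.a₁ + 2 * D.C.s ∧
      D.C.s ^ 2 + W.a₁ * D.C.s + -(W.a₂ + 3 * D.C.r) = 0 ∧
      W.a₃ + D.C.r * W.a₁ + 2 * D.C.t = 0 := by
  have hu : (D.C.u : K) ≠ 0 := D.C.u.ne_zero
  have h4 := congrArg WeierstrassCurve.c₄ D.hC
  have h6 := congrArg WeierstrassCurve.c₆ D.hC
  have hb := congrArg WeierstrassCurve.b₂ D.hC
  have h1 := congrArg WeierstrassCurve.a₁ D.hC
  have h2 := congrArg WeierstrassCurve.a₂ D.hC
  have h3 := congrArg WeierstrassCurve.a₃ D.hC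
  have hb' : (nodeCurve D.t).b₂ = 1 := by
    simp only [b₂, nodeCurve_a₁, nodeCurve_a₂]; ring
  rw [variableChange_c₄, nodeCurve_c₄, Units.val_inv_eq_inv_val] at h4
  rw [variableChange_c₆, nodeCurve_c₆, Units.val_inv_eq_inv_val] at h6
  rw [variableChange_b₂, hb', Units.val_inv_eq_inv_val] at hb
  rw [variableChange_a₁, nodeCurve_a₁, Units.val_inv_eq_inv_val] at h1
  rw [variableChange_a₂, nodeCurve_a₂, Units.val_inv_eq_inv_val] at h2
  rw [variableChange_a₃, nodeCurve_a₃, Units.val_inv_eq_inv_val] at h3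
  field_simp at h4 h6 hb h1 h2 h3
  refine ⟨?_, ?_, ?_, ?_, ?_, ?_⟩
  · linear_combination -h4
  · linear_combination -h6
  · linear_combination -hb
  · linear_combination -h1
  · linear_combination -h2
  · linear_combination h3

/-- The integrality of the translation part of a change to the normal form. -/
lemma val_r_le_one {W : WeierstrassCurve K} (hW : IsInt A W) {t : K} (ht : v t ≤ 1)
    {C : VariableChange K} (hC : C • W = nodeCurve t) (hu : v (C.u : K) ≤ 1) : v C.r ≤ 1 := by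
  have hu0 : (C.u : K) ≠ 0 := C.u.ne_zero
  have h6 := congrArg WeierstrassCurve.b₆ hC
  have h8 := congrArg WeierstrassCurve.b₈ hC
  rw [variableChange_b₆, Units.val_inv_eq_inv_val] at h6
  rw [variableChange_b₈, Units.val_inv_eq_inv_val] at h8
  rw [show (nodeCurve t).b₆ = 4 * t by simp [b₆]] at h6
  rw [show (nodeCurve t).b₈ = t by simp [b₈]] at h8
  field_simp at h6 h8
  have hb2 : v W.b₂ ≤ 1 := Valuation.map_add_le _
    (by rw [map_pow]; exact pow_le_one' hW.h₁ 2) (val_mul_le_of_le A (val_ofNat_le A 4) hW.h₂)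
  have hb4 : v W.b₄ ≤ 1 := Valuation.map_add_le _ (val_mul_le_of_le A (val_ofNat_le A 2) hW.h₄)
    (val_mul_le_of_le A hW.h₁ hW.h₃)
  have hb6 : v W.b₆ ≤ 1 := Valuation.map_add_le _
    (by rw [map_pow]; exact pow_le_one' hW.h₃ 2) (val_mul_le_of_le A (val_ofNat_le A 4) hW.h₆)
  have hb8 : v W.b₈ ≤ 1 := by
    refine Valuation.map_sub_le _ (Valuation.map_add_le _ (Valuation.map_sub_le _
      (Valuation.map_add_le _
        (val_mul_le_of_le A (by rw [map_pow]; exact pow_le_one' hW.h₁ 2) hW.h₆)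
        (val_mul_le_of_le A ?_ hW.h₆)) (val_mul_le_of_le A ?_ hW.h₄))
      (val_mul_le_of_le A hW.h₂ (by rw [map_pow]; exact pow_le_one' hW.h₃ 2)))
      (by rw [map_pow]; exact pow_le_one' hW.h₄ 2)
    · exact val_mul_le_of_le A (val_ofNat_le A 4) hW.h₂
    · exact val_mul_le_of_le A hW.h₁ hW.h₃
  by_contra hr
  rw [not_le] at hr
  set R := v C.r
  have hR : ∀ {i j : ℕ}, i < j → R ^ i < R ^ j := fun hij => pow_lt_pow_right₀ hr hij
  have hR1 : ∀ j : ℕ, 1 ≤ R ^ j := fun j => one_le_pow₀ hr.le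
  rcases (val_ofNat_le A 2).lt_or_eq with h2 | h2
  · have h3 : v (3 : K) = 1 := by
      rw [show (3 : K) = 1 + 2 by norm_num]; exact val_one_add_of_lt h2
    have hlead : v (3 * C.r ^ 4) = R ^ 4 := by rw [map_mul, h3, one_mul, map_pow]
    have hrest : v (t * (C.u : K) ^ 8 - (W.b₈ + 3 * (C.r * W.b₆) + 3 * (C.r ^ 2 * W.b₄)
        + C.r ^ 3 * W.b₂)) ≤ R ^ 3 := by
      refine Valuation.map_sub_le _ ((val_mul_le_of_le A ht ?_).trans (hR1 3))
        (Valuation.map_add_le _ (Valuation.map_add_le _ (Valuation.map_add_le _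
          (hb8.trans (hR1 3)) ?_) ?_) ?_)
      · rw [map_pow]; exact pow_le_one' hu 8
      · refine val_mul_le_of_le A (val_ofNat_le A 3) ?_
        rw [mul_comm]
        exact (val_mul_le_of_le A hb6 le_rfl).trans
          ((pow_one R).symm.trans_le (hR (by norm_num : 1 < 3)).le)
      · refine val_mul_le_of_le A (val_ofNat_le A 3) ?_
        rw [mul_comm]
        refine (val_mul_le_of_le A hb4 le_rfl).trans ?_
        rw [map_pow]; exact (hR (by norm_num : 2 < 3)).le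
      · rw [mul_comm]
        exact (val_mul_le_of_le A hb2 le_rfl).trans_eq (map_pow _ _ _)
    rw [show t * (C.u : K) ^ 8 - (W.b₈ + 3 * (C.r * W.b₆) + 3 * (C.r ^ 2 * W.b₄)
        + C.r ^ 3 * W.b₂) = 3 * C.r ^ 4 by linear_combination -h8, hlead] at hrest
    exact absurd hrest (not_le.2 (hR (by norm_num)))
  · have h4 : v (4 : K) = 1 := by
      rw [show (4 : K) = 2 * 2 by norm_num, map_mul, h2, one_mul]
    have hlead : v (4 * C.r ^ 3) = R ^ 3 := by rw [map_mul, h4, one_mul, map_pow]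
    have hrest : v (4 * t * (C.u : K) ^ 6 - (W.b₆ + 2 * (C.r * W.b₄) + C.r ^ 2 * W.b₂))
        ≤ R ^ 2 := by
      refine Valuation.map_sub_le _ ((val_mul_le_of_le A
        (val_mul_le_of_le A (val_ofNat_le A 4) ht) ?_).trans (hR1 2))
        (Valuation.map_add_le _ (Valuation.map_add_le _ (hb6.trans (hR1 2)) ?_) ?_)
      · rw [map_pow]; exact pow_le_one' hu 6
      · refine val_mul_le_of_le A (val_ofNat_le A 2) ?_
        rw [mul_comm]
        exact (val_mul_le_of_le A hb4 le_rfl).trans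
          ((pow_one R).symm.trans_le (hR (by norm_num : 1 < 2)).le)
      · rw [mul_comm]
        exact (val_mul_le_of_le A hb2 le_rfl).trans_eq (map_pow _ _ _)
    rw [show 4 * t * (C.u : K) ^ 6 - (W.b₆ + 2 * (C.r * W.b₄) + C.r ^ 2 * W.b₂)
      = 4 * C.r ^ 3 by linear_combination -h6, hlead] at hrest
    exact absurd hrest (not_le.2 (hR (by norm_num)))

variable [IsAlgClosed K]

/-- Multiplicative reduction: an integral change of variables to `y² + xy = x³ + t`. -/
theorem exists_normalData [CharZero K] {W : WeierstrassCurve K} (hW : IsInt A W) (hΔ0 : W.Δ ≠ 0)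
    (hΔ : v W.Δ < 1) (hc₄ : v W.c₄ = 1) :
    ∃ D : NormalData A W, ∀ {F : Type} [Field F] [Algebra F K] (σ : K ≃ₐ[F] K),
      σ ∈ A.inertiaSubgroupIn F → σ W.a₁ = W.a₁ → σ W.a₂ = W.a₂ → σ W.a₃ = W.a₃ →
      σ W.a₄ = W.a₄ → σ W.a₆ = W.a₆ →
      σ D.t = D.t ∧ σ (D.C.u : K) = D.C.u ∧ σ D.C.r = D.C.r ∧ σ D.C.s = D.C.s ∧
        σ D.C.t = D.C.t := by
  classical
  have hc0 : W.c₄ ≠ 0 := fun h => by rw [h, map_zero] at hc₄; exact zero_ne_one hc₄
  set c := W.Δ / W.c₄ ^ 3 with hc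
  have hvc : v c = v W.Δ := by rw [hc, map_div₀, map_pow, hc₄, one_pow, div_one]
  obtain ⟨s₁, hs₁, hvs⟩ : ∃ s : K, s ^ 2 + 1 * s + 432 * c = 0 ∧ v s = 1 := by
    obtain ⟨z, hz⟩ := IsAlgClosed.exists_pow_nat_eq (1 - 4 * (432 * c)) (show 0 < 2 by norm_num)
    have h1 : ((z - 1) / 2) ^ 2 + 1 * ((z - 1) / 2) + 432 * c = 0 := by
      field_simp; linear_combination hz
    have h2 : ((-z - 1) / 2) ^ 2 + 1 * ((-z - 1) / 2) + 432 * c = 0 := by
      field_simp; linear_combination hz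
    have hint : ∀ s : K, s ^ 2 + 1 * s + 432 * c = 0 → v s ≤ 1 := fun s h =>
      val_le_one_of_sq_add A (map_one _).le
        (val_mul_le_of_le A (val_ofNat_le A 432) (hvc ▸ hΔ.le)) h
    rcases (hint _ h1).lt_or_eq with hlt | heq
    · refine ⟨_, h2, (hint _ h2).eq_of_not_lt fun hlt' => ?_⟩
      have h3 := Valuation.map_add_lt (A.valuation) hlt hlt'
      rw [show (z - 1) / 2 + (-z - 1) / 2 = -1 by ring, Valuation.map_neg, map_one] at h3
      exact lt_irrefl _ h3
    · exact ⟨_, h1, heq⟩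
  have hs0 : s₁ ≠ 0 := fun h => by rw [h, map_zero] at hvs; exact zero_ne_one hvs
  set t := c / s₁ with ht'
  have hvt : v t = v W.Δ := by rw [ht', map_div₀, hvs, div_one, hvc]
  have htlt : v t < 1 := hvt ▸ hΔ
  have ht0 : t ≠ 0 := fun h => by
    rw [h, map_zero, eq_comm, Valuation.zero_iff] at hvt; exact hΔ0 hvt
  have hnΔ : (nodeCurve t).Δ ≠ 0 := fun h => by
    have := val_nodeCurve_Δ (A := A) htlt
    rw [h, map_zero, eq_comm, Valuation.zero_iff] at this; exact ht0 this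
  have : W.IsElliptic := ⟨isUnit_iff_ne_zero.2 hΔ0⟩
  have : WeierstrassCurve.IsElliptic (nodeCurve t) := ⟨isUnit_iff_ne_zero.2 hnΔ⟩
  have htc : t * (1 + 432 * t) = -c := by
    rw [ht']; field_simp; linear_combination c * hs₁
  have hj : W.j = WeierstrassCurve.j (nodeCurve t) := by
    rw [WeierstrassCurve.j, WeierstrassCurve.j, Units.val_inv_eq_inv_val,
      Units.val_inv_eq_inv_val, coe_Δ', coe_Δ', nodeCurve_c₄, nodeCurve_Δ, neg_mul, htc, neg_neg,
      hc, inv_div, one_pow, mul_one, div_eq_inv_mul]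
  obtain ⟨C, hC⟩ := exists_variableChange_of_j_eq W (nodeCurve t) hj
  have hu0 : (C.u : K) ≠ 0 := C.u.ne_zero
  have h4 : (C.u : K) ^ 4 = W.c₄ := by
    have h := congrArg WeierstrassCurve.c₄ hC
    rw [variableChange_c₄, nodeCurve_c₄, Units.val_inv_eq_inv_val] at h
    field_simp at h; exact h.symm
  have hu : v (C.u : K) = 1 := by
    have h := congrArg v h4
    rw [map_pow, hc₄] at h
    exact pow_left_inj_val A four_ne_zero (h.trans (one_pow 4).symm)
  have hr := val_r_le_one hW htlt.le hC hu.le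
  have hs : v C.s ≤ 1 := by
    have h := congrArg WeierstrassCurve.a₂ hC
    rw [variableChange_a₂, nodeCurve_a₂, Units.val_inv_eq_inv_val] at h
    field_simp at h
    refine val_le_one_of_sq_add A (b := W.a₁) (c := -(W.a₂ + 3 * C.r)) hW.h₁ ?_
      (by linear_combination -h)
    rw [Valuation.map_neg]
    exact Valuation.map_add_le _ hW.h₂ (val_mul_le_of_le A (val_ofNat_le A 3) hr)
  have hw : v C.t ≤ 1 := by
    have h := congrArg WeierstrassCurve.a₆ hC
    rw [variableChange_a₆, nodeCurve_a₆, Units.val_inv_eq_inv_val] at h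
    field_simp at h
    refine val_le_one_of_sq_add A (b := W.a₃ + C.r * W.a₁)
      (c := t * (C.u : K) ^ 6 - (W.a₆ + C.r * W.a₄ + C.r ^ 2 * W.a₂ + C.r ^ 3))
      (Valuation.map_add_le _ hW.h₃ (val_mul_le_of_le A hr hW.h₁)) ?_
      (by linear_combination -h)
    refine Valuation.map_sub_le _ (val_mul_le_of_le A htlt.le ?_)
      (Valuation.map_add_le _ (Valuation.map_add_le _ (Valuation.map_add_le _ hW.h₆
        (val_mul_le_of_le A hr hW.h₄)) (val_mul_le_of_le A ?_ hW.h₂)) ?_)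
    · rw [map_pow, hu, one_pow]
    · rw [map_pow]; exact pow_le_one' hr 2
    · rw [map_pow]; exact pow_le_one' hr 3
  refine ⟨⟨t, C, htlt, ht0, hvt, hC, hu, hr, hs, hw⟩, ?_⟩
  intro F _ _ σ hσ ha1 ha2 ha3 ha4 ha6
  obtain ⟨e4, e6, eb, e1, e2, e3⟩ := NormalData.eqns (W := W) (A := A)
    ⟨t, C, htlt, ht0, hvt, hC, hu, hr, hs, hw⟩
  simp only at e4 e6 eb e1 e2 e3
  have hb2 : σ W.b₂ = W.b₂ := by simp [b₂, map_ofNat, ha1, ha2]
  have hc4 : σ W.c₄ = W.c₄ := by simp [WeierstrassCurve.c₄, b₂, b₄, map_ofNat, ha1, ha2, ha3, ha4]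
  have hc6 : σ W.c₆ = W.c₆ := by
    simp [WeierstrassCurve.c₆, b₂, b₄, b₆, map_ofNat, ha1, ha2, ha3, ha4, ha6]
  have hΔσ : σ W.Δ = W.Δ := by
    simp [WeierstrassCurve.Δ, b₂, b₄, b₆, b₈, map_ofNat, ha1, ha2, ha3, ha4, ha6]
  have hcσ : σ c = c := by rw [hc, map_div₀, map_pow, hΔσ, hc4]
  have hs₁σ : σ s₁ = s₁ := by
    refine fixed_of_sq_add (b := 1) (c := 432 * c) hσ (map_one _).le
      (val_mul_le_of_le A (val_ofNat_le A 432) (hvc ▸ hΔ.le)) (map_one σ)
      (by rw [map_mul, map_ofNat, hcσ]) hs₁ ?_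
    refine pow_left_inj_val A two_ne_zero ?_
    rw [one_pow, ← map_pow, show (2 * s₁ + 1) ^ 2 = 1 + -(4 * (432 * c)) by
      linear_combination 4 * hs₁]
    refine val_one_add_of_lt ?_
    rw [Valuation.map_neg]
    exact val_mul_lt_of_lt A (val_ofNat_le A 4) (val_mul_lt_of_lt A (val_ofNat_le A 432) (hvc ▸ hΔ))
  have htσ : σ t = t := by rw [ht', map_div₀, hcσ, hs₁σ]
  have hc6' : W.c₄ * (-1 - 864 * t) ≠ 0 := by
    refine mul_ne_zero hc0 fun h => ?_
    have h1 : v (1 + 864 * t) = 1 :=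
        val_one_add_of_lt (val_mul_lt_of_lt A (val_ofNat_le A 864) htlt)
    rw [show 1 + 864 * t = 0 by linear_combination -h, map_zero] at h1
    exact zero_ne_one h1
  have hu2 : σ ((C.u : K) ^ 2) = (C.u : K) ^ 2 := by
    have heq : (C.u : K) ^ 2 = W.c₆ / (W.c₄ * (-1 - 864 * t)) := by
      rw [eq_div_iff hc6', ← e4, ← e6]; ring
    rw [heq, map_div₀, map_mul, map_sub, map_neg, map_one, map_mul, map_ofNat, hc4, hc6, htσ]
  have hrσ : σ C.r = C.r := by
    rw [show C.r = ((C.u : K) ^ 2 - W.b₂) / 12 by rw [eb]; ring, map_div₀, map_sub, hu2, hb2,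
      map_ofNat]
  have hsσ : σ C.s = C.s := by
    refine fixed_of_sq_add (b := W.a₁) (c := -(W.a₂ + 3 * C.r)) hσ hW.h₁ ?_ ha1
      (by rw [map_neg, map_add, map_mul, map_ofNat, ha2, hrσ]) e2 ?_
    · rw [Valuation.map_neg]
      exact Valuation.map_add_le _ hW.h₂ (val_mul_le_of_le A (val_ofNat_le A 3) hr)
    · rw [add_comm, ← e1, hu]
  refine ⟨htσ, ?_, hrσ, hsσ, ?_⟩
  · show σ (C.u : K) = C.u
    rw [e1, map_add, map_mul, map_ofNat, ha1, hsσ]
  · show σ C.t = C.t
    rw [show C.t = -(W.a₃ + C.r * W.a₁) / 2 by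
      field_simp; linear_combination e3, map_div₀, map_neg, map_add, map_mul, map_ofNat, ha3, ha1,
      hrσ]

end Fermat.Agent.Tate
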