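import Fermat.Agent.SmallExponents.VC
import Fermat.Agent.Tate.NodeInertia
import Fermat.Agent.Tate.NormalForm

/-!
Inertia on the odd prime torsion of a Weierstrass curve with multiplicative reduction, over an
algebraically closed valued field of characteristic zero. It replaces the theory of the Tate
curve.
-/

namespace Fermat.Agent.Tate

open WeierstrassCurve
open Fermat.Agent.SmallExponents (vcX vcY vcHom vcHom_some vcHom_injective vcHom_surjective)

variable {K : Type*} [Field K] {A : ValuationSubring K}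

local notation "v" => A.valuation

/-- An integral change of variables with unit `u` preserves the points of nonsingular reduction.
-/
lemma inE0_vc_iff [DecidableEq K] {W : WeierstrassCurve K} {C : VariableChange K}
    (hu : v (C.u : K) = 1) (hr : v C.r ≤ 1) (hs : v C.s ≤ 1) (hW : IsInt A (C • W))
    (P : (C • W).toAffine.Point) :
    InE0 A (W := W.toAffine) (vcHom W C P) ↔ InE0 A (W := (C • W).toAffine) P := by
  rcases P with _ | ⟨x, y, h⟩
  · exact iff_of_true inE0_zero inE0_zero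
  rw [vcHom_some, inE0_some, inE0_some]
  have hu0 : (C.u : K) ≠ 0 := C.u.ne_zero
  have e1 : W.a₁ * vcY C x y - (3 * vcX C x ^ 2 + 2 * W.a₂ * vcX C x + W.a₄)
      = (C.u : K) ^ 4 * ((C • W).a₁ * y - (3 * x ^ 2 + 2 * (C • W).a₂ * x + (C • W).a₄))
        - C.s * (C.u : K) ^ 3 * (2 * y + (C • W).a₁ * x + (C • W).a₃) := by
    simp only [variableChange_def, vcX, vcY, Units.val_inv_eq_inv_val]
    field_simp
    ring
  have e2 : 2 * vcY C x y + W.a₁ * vcX C x + W.a₃
      = (C.u : K) ^ 3 * (2 * y + (C • W).a₁ * x + (C • W).a₃) := by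
    simp only [variableChange_def, vcX, vcY, Units.val_inv_eq_inv_val]
    field_simp
    ring
  have hX : v (vcX C x) = max (v x) (v C.r) ∨ v (vcX C x) ≤ 1 ∧ v x ≤ 1 := by
    have hux : v ((C.u : K) ^ 2 * x) = v x := by rw [map_mul, map_pow, hu, one_pow, one_mul]
    rcases le_or_gt (v x) 1 with hx | hx
    · exact Or.inr ⟨Valuation.map_add_le _ (hux.trans_le hx) hr, hx⟩
    · left
      rw [max_eq_left (hr.trans hx.le), vcX,
        Valuation.map_add_eq_of_lt_left _ (by rw [hux]; exact hr.trans_lt hx), hux]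
  have hx' : 1 < v (vcX C x) ↔ 1 < v x := by
    rcases hX with h | ⟨h1, h2⟩
    · rw [h, lt_max_iff, or_iff_left (not_lt.2 hr)]
    · exact iff_of_false (not_lt.2 h1) (not_lt.2 h2)
  rw [hx', e1, e2]
  rcases lt_or_ge 1 (v x) with hx | hx
  · exact iff_of_true (Or.inl hx) (Or.inl hx)
  have hy := val_y_le_one (W := (C • W).toAffine) hW h.1 hx
  set X' := (C • W).a₁ * y - (3 * x ^ 2 + 2 * (C • W).a₂ * x + (C • W).a₄)
  set Y' := 2 * y + (C • W).a₁ * x + (C • W).a₃ with hY'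
  have hY'le : v Y' ≤ 1 := val_polyY_le_one (W := (C • W).toAffine) hW hx hy
  have h4 : v ((C.u : K) ^ 4 * X') = v X' := by rw [map_mul, map_pow, hu, one_pow, one_mul]
  have hc : v ((C.u : K) ^ 3 * Y') = v Y' := by rw [map_mul, map_pow, hu, one_pow, one_mul]
  rw [hc]
  rcases hY'le.lt_or_eq with hlt | heq
  · have hsy : v (C.s * (C.u : K) ^ 3 * Y') < 1 := by
      rw [mul_assoc]; exact val_mul_lt_of_lt A hs (hc.trans_lt hlt)
    have hiff : v ((C.u : K) ^ 4 * X' - C.s * (C.u : K) ^ 3 * Y') = 1 ↔ v X' = 1 := by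
      constructor
      · intro h1
        rw [← h4, ← sub_add_cancel ((C.u : K) ^ 4 * X') (C.s * (C.u : K) ^ 3 * Y'),
          Valuation.map_add_eq_of_lt_left _ (by rw [h1]; exact hsy), h1]
      · intro h1
        rw [Valuation.map_sub_eq_of_lt_left _ (by rw [h4, h1]; exact hsy), h4, h1]
    rw [hiff]
  · exact iff_of_true (Or.inr (Or.inr heq)) (Or.inr (Or.inr heq))

variable [DecidableEq K] [IsAlgClosed K] [CharZero K] {W : WeierstrassCurve K}
  {F : Type} [Field F] [Algebra F K] {σ : K ≃ₐ[F] K} {p : ℕ} [Fact p.Prime]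

omit [IsAlgClosed K] [CharZero K] in
/-- Transport of a point and its conjugate to the normal form. -/
lemma exists_preimage_pair (D : NormalData A W) {x y : K} {h : W.toAffine.Nonsingular x y}
    {h' : W.toAffine.Nonsingular (σ x) (σ y)} (hu : σ (D.C.u : K) = D.C.u) (hr : σ D.C.r = D.C.r)
    (hs : σ D.C.s = D.C.s) (hw : σ D.C.t = D.C.t) :
    ∃ (x₀ y₀ : K) (h₀ : (D.C • W).toAffine.Nonsingular x₀ y₀)
      (h₀' : (D.C • W).toAffine.Nonsingular (σ x₀) (σ y₀)),
      vcHom W D.C (.some x₀ y₀ h₀) = .some x y h ∧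
        vcHom W D.C (.some (σ x₀) (σ y₀) h₀') = .some (σ x) (σ y) h' := by
  obtain ⟨P₀, hP₀⟩ := vcHom_surjective W D.C (.some x y h)
  rcases P₀ with _ | ⟨x₀, y₀, h₀⟩
  · exact absurd hP₀.symm (Affine.Point.some_ne_zero h)
  have hxy : vcX D.C x₀ = x ∧ vcY D.C x₀ y₀ = y := by
    rw [vcHom_some] at hP₀; injection hP₀ with h1 h2; exact ⟨h1, h2⟩
  have hX : vcX D.C (σ x₀) = σ x := by
    rw [← hxy.1]; simp [vcX, hu, hr]
  have hY : vcY D.C (σ x₀) (σ y₀) = σ y := by
    rw [← hxy.2]; simp [vcY, hu, hs, hw]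
  have h₀' : (D.C • W).toAffine.Nonsingular (σ x₀) (σ y₀) :=
    (Fermat.Agent.SmallExponents.vc_nonsingular_iff W D.C _ _).1 (by rw [hX, hY]; exact h')
  exact ⟨x₀, y₀, h₀, h₀', hP₀, by rw [vcHom_some]; simp only [hX, hY]⟩

/-- An element of inertia moves a point of odd prime order by a point with nonsingular reduction
(any residue characteristic). -/
theorem inE0_sub_apply (hW : IsInt A W) (hΔ0 : W.Δ ≠ 0) (hΔ : v W.Δ < 1) (hc₄ : v W.c₄ = 1)
    (hσ : σ ∈ A.inertiaSubgroupIn F) (ha₁ : σ W.a₁ = W.a₁) (ha₂ : σ W.a₂ = W.a₂)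
    (ha₃ : σ W.a₃ = W.a₃) (ha₄ : σ W.a₄ = W.a₄) (ha₆ : σ W.a₆ = W.a₆) (hp2 : p ≠ 2)
    {x y : K} {h : W.toAffine.Nonsingular x y} {h' : W.toAffine.Nonsingular (σ x) (σ y)}
    (htor : p • Affine.Point.some x y h = 0) :
    InE0 A (Affine.Point.some x y h - Affine.Point.some (σ x) (σ y) h') := by
  obtain ⟨D, hD⟩ := exists_normalData hW hΔ0 hΔ hc₄
  obtain ⟨ht, hu, hr, hs, hw⟩ := hD σ hσ ha₁ ha₂ ha₃ ha₄ ha₆
  obtain ⟨x₀, y₀, h₀, h₀', e, e'⟩ := exists_preimage_pair D (h := h) (h' := h') hu hr hs hw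
  rw [← e, ← e', ← map_sub]
  rw [inE0_vc_iff D.hu D.hr D.hs (by rw [D.hC]; exact isInt_nodeCurve D.ht)]
  have htor0 : p • Affine.Point.some x₀ y₀ h₀ = 0 :=
    vcHom_injective W D.C (by rw [map_nsmul, e, htor, map_zero])
  have hCW : (D.C • W).toAffine = nodeCurve D.t := D.hC
  clear e e'
  revert htor0 h₀ h₀'
  rw [hCW]
  intro h₀ h₀' htor0
  exact (inE0_iff_not_deep D.ht _).2
    (not_deep_sub_apply D.ht D.ht0 hp2 (mem_decomposition_of_mem_inertia hσ) ht htor0)

/-- Inertia fixes the `p`-torsion at a place of multiplicative reduction prime to `p` where the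
value of the discriminant is a `p`th power. -/
theorem fixed_of_multiplicative (hW : IsInt A W) (hΔ0 : W.Δ ≠ 0) (hΔ : v W.Δ < 1)
    (hc₄ : v W.c₄ = 1) (hσ : σ ∈ A.inertiaSubgroupIn F) (ha₁ : σ W.a₁ = W.a₁)
    (ha₂ : σ W.a₂ = W.a₂) (ha₃ : σ W.a₃ = W.a₃) (ha₄ : σ W.a₄ = W.a₄) (ha₆ : σ W.a₆ = W.a₆)
    (hp2 : p ≠ 2) (hpu : v (p : K) = 1) {x y : K} {h : W.toAffine.Nonsingular x y}
    {h' : W.toAffine.Nonsingular (σ x) (σ y)} (htor : p • Affine.Point.some x y h = 0)
    (htor' : p • Affine.Point.some (σ x) (σ y) h' = 0)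
    (hc : ¬ InE0 A (Affine.Point.some x y h) → ∃ c : K, σ c = c ∧ v c ^ p = v W.Δ) :
    σ x = x ∧ σ y = y := by
  obtain ⟨D, hD⟩ := exists_normalData hW hΔ0 hΔ hc₄
  obtain ⟨ht, hu, hr, hs, hw⟩ := hD σ hσ ha₁ ha₂ ha₃ ha₄ ha₆
  obtain ⟨x₀, y₀, h₀, h₀', e, e'⟩ := exists_preimage_pair D (h := h) (h' := h') hu hr hs hw
  have hint : IsInt A (D.C • W) := by rw [D.hC]; exact isInt_nodeCurve D.ht
  have hdeep : InE0 A (W := (D.C • W).toAffine) (Affine.Point.some x₀ y₀ h₀) ↔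
      InE0 A (Affine.Point.some x y h) := by
    rw [← e]; exact (inE0_vc_iff D.hu D.hr D.hs hint _).symm
  have htor0 : p • Affine.Point.some x₀ y₀ h₀ = 0 :=
    vcHom_injective W D.C (by rw [map_nsmul, e, htor, map_zero])
  have htor0' : p • Affine.Point.some (σ x₀) (σ y₀) h₀' = 0 :=
    vcHom_injective W D.C (by rw [map_nsmul, e', htor', map_zero])
  suffices hfix : σ x₀ = x₀ ∧ σ y₀ = y₀ by
    rw [vcHom_some] at e
    injection e with hx hy
    rw [← hx, ← hy]
    simp [vcX, vcY, hu, hr, hs, hw, hfix.1, hfix.2]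
  have hCW : (D.C • W).toAffine = nodeCurve D.t := D.hC
  clear e e'
  revert htor0 htor0' hdeep h₀ h₀'
  rw [hCW]
  intro h₀ h₀' hdeep htor0 htor0'
  refine fixed_of_nodeCurve D.ht D.ht0 hp2 hpu hσ ht htor0 htor0' fun hx => ?_
  rw [D.hΔ]
  refine hc fun hE => ?_
  rw [← hdeep, inE0_iff_not_deep D.ht, deep_some] at hE
  exact hE hx

end Fermat.Agent.Tate
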