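import Mathlib.NumberTheory.Padics.PadicVal.Basic
import Fermat.Prelude.Def_EllipticCurve_ZeroComponentAt
import Fermat.Prelude.Def_FLTPrelim_Modularity
import Fermat.Agent.Gal.Basic
import Fermat.Agent.Tate.Main

/-!
Integral models over `ℤ`: inertia at `q` on `E[p]` for good and for multiplicative reduction. It
applies the local results to curves over `ℚ`.
-/

namespace Fermat.Agent.Tate

open WeierstrassCurve
open scoped WeierstrassCurve.Affine

local notation "Qbar" => AlgebraicClosure ℚ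

variable {W : WeierstrassCurve ℤ} {A : ValuationSubring Qbar} {q : ℕ}

/-- The base change of an integral model to `ℚ̄`. -/
noncomputable abbrev qbarCurve (W : WeierstrassCurve ℤ) :
    WeierstrassCurve.Affine (AlgebraicClosure ℚ) :=
  (W.map (Int.castRingHom ℚ))⁄(AlgebraicClosure ℚ)

lemma qbarCurve_eq (W : WeierstrassCurve ℤ) :
    qbarCurve W = W.map (Int.castRingHom Qbar) :=
  (map_map W (Int.castRingHom ℚ) (algebraMap ℚ Qbar)).trans
    (congrArg W.map (RingHom.ext_int _ _))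

lemma qbar_a₁ : (qbarCurve W).a₁ = (W.a₁ : Qbar) := by simp
lemma qbar_a₂ : (qbarCurve W).a₂ = (W.a₂ : Qbar) := by simp
lemma qbar_a₃ : (qbarCurve W).a₃ = (W.a₃ : Qbar) := by simp
lemma qbar_a₄ : (qbarCurve W).a₄ = (W.a₄ : Qbar) := by simp
lemma qbar_a₆ : (qbarCurve W).a₆ = (W.a₆ : Qbar) := by simp
lemma qbar_Δ : (qbarCurve W).Δ = (W.Δ : Qbar) := by rw [qbarCurve_eq]; exact map_Δ W _
lemma qbar_c₄ : (qbarCurve W).c₄ = (W.c₄ : Qbar) := by rw [qbarCurve_eq]; exact map_c₄ W _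

lemma isInt_qbarCurve (A : ValuationSubring Qbar) (W : WeierstrassCurve ℤ) :
    IsInt A (qbarCurve W) := by
  rw [qbarCurve_eq]; exact isInt_of_map A _ (fun r => intCast_mem A r) W

lemma val_intCast_lt_one_iff (hq : q.Prime) (hA : A.LiesOverPrime q) (n : ℤ) :
    A.valuation (n : Qbar) < 1 ↔ (q : ℤ) ∣ n := by
  rw [← Fermat.Agent.Gal.intCast_mem_nonunits_iff hq hA, ValuationSubring.mem_nonunits_iff]

lemma val_intCast_eq_one_iff (hq : q.Prime) (hA : A.LiesOverPrime q) (n : ℤ) :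
    A.valuation (n : Qbar) = 1 ↔ ¬ (q : ℤ) ∣ n := by
  rw [← val_intCast_lt_one_iff hq hA, not_lt]
  exact ⟨fun h => h.ge, fun h => le_antisymm (val_intCast_le A n) h⟩

lemma val_natCast_eq_one (hq : q.Prime) (hA : A.LiesOverPrime q) {p : ℕ} (hp : p.Prime)
    (hpq : p ≠ q) : A.valuation (p : Qbar) = 1 := by
  rw [← Int.cast_natCast, val_intCast_eq_one_iff hq hA, Int.natCast_dvd_natCast,
    Nat.prime_dvd_prime_iff_eq hq hp]
  exact hpq.symm

/-- An integral point of the model reduces to a point of the reduced curve. -/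
lemma residue_equation {x y : Qbar} (h : (qbarCurve W).Equation x y) (hx : x ∈ A) (hy : y ∈ A) :
    (W.map (Int.castRingHom (IsLocalRing.ResidueField A))).toAffine.Equation
      (IsLocalRing.residue A ⟨x, hx⟩) (IsLocalRing.residue A ⟨y, hy⟩) := by
  have heq : y ^ 2 + (W.a₁ : Qbar) * x * y + (W.a₃ : Qbar) * y
      = x ^ 3 + (W.a₂ : Qbar) * x ^ 2 + (W.a₄ : Qbar) * x + (W.a₆ : Qbar) := by
    have := h
    rw [Affine.equation_iff] at this
    rwa [qbar_a₁, qbar_a₂, qbar_a₃, qbar_a₄, qbar_a₆] at this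
  have heqA : (⟨y, hy⟩ : A) ^ 2 + (W.a₁ : A) * ⟨x, hx⟩ * ⟨y, hy⟩ + (W.a₃ : A) * ⟨y, hy⟩
      = ⟨x, hx⟩ ^ 3 + (W.a₂ : A) * ⟨x, hx⟩ ^ 2 + (W.a₄ : A) * ⟨x, hx⟩ + (W.a₆ : A) := by
    apply Subtype.ext; simpa using heq
  have heqR := congrArg (IsLocalRing.residue A) heqA
  rw [Affine.equation_iff]
  simpa only [map_sub, map_add, map_mul, map_pow, map_ofNat, map_intCast, map_a₁, map_a₂, map_a₃,
    map_a₄, map_a₆, eq_intCast] using heqR

/-- The prelude's zero component consists of the points with nonsingular reduction. -/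
theorem inZeroComponentAt_iff_inE0 (W : WeierstrassCurve ℤ) (A : ValuationSubring Qbar)
    (P : ((W.map (Int.castRingHom ℚ))⁄Qbar).Point) :
    W.InZeroComponentAt A P ↔ InE0 A (W := qbarCurve W) P := by
  rcases P with _ | ⟨x, y, h⟩
  · exact iff_of_true (Or.inl rfl) inE0_zero
  rw [inE0_some]
  have hint := isInt_qbarCurve A W
  constructor
  · rintro (h0 | ⟨x', y', h', he, hc⟩)
    · exact absurd h0 (Affine.Point.some_ne_zero h)
    cases he
    rcases hc with hx | ⟨hx, hy, hns⟩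
    · exact Or.inl ((not_mem_iff A).1 hx)
    refine Or.inr ?_
    rw [Affine.nonsingular_iff'] at hns
    obtain ⟨-, hns⟩ := hns
    have hu : ∀ z : A, IsLocalRing.residue A z ≠ 0 → A.valuation (A.subtype z) = 1 := fun z hz =>
      (ValuationSubring.valuation_eq_one_iff A z).1
        ((IsLocalRing.residue_ne_zero_iff_isUnit z).1 hz)
    rcases hns with h1 | h1
    · left
      have := hu ((W.a₁ : A) * ⟨y, hy⟩
        - (3 * ⟨x, hx⟩ ^ 2 + 2 * (W.a₂ : A) * ⟨x, hx⟩ + (W.a₄ : A)))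
        (by simpa only [map_sub, map_add, map_mul, map_pow, map_ofNat, map_intCast, map_a₁, map_a₂,
            map_a₄, eq_intCast] using h1)
      rw [qbar_a₁, qbar_a₂, qbar_a₄]
      simpa only [map_sub, map_add, map_mul, map_pow, map_ofNat, map_intCast,
          ValuationSubring.subtype_apply] using this
    · right
      have := hu (2 * ⟨y, hy⟩ + (W.a₁ : A) * ⟨x, hx⟩ + (W.a₃ : A))
        (by simpa only [map_sub, map_add, map_mul, map_pow, map_ofNat, map_intCast, map_a₁, map_a₃,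
            eq_intCast] using h1)
      rw [qbar_a₁, qbar_a₃]
      simpa only [map_sub, map_add, map_mul, map_pow, map_ofNat, map_intCast,
          ValuationSubring.subtype_apply] using this
  · intro hc
    refine Or.inr ⟨x, y, h, rfl, ?_⟩
    by_cases hx : x ∈ A
    swap
    · exact Or.inl hx
    have hxv := (mem_iff A).1 hx
    have hy : y ∈ A := (mem_iff A).2 (val_y_le_one hint h.1 hxv)
    refine Or.inr ⟨hx, hy, ?_⟩
    rw [Affine.nonsingular_iff']
    refine ⟨residue_equation h.1 hx hy, ?_⟩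
    have hu : ∀ z : A, A.valuation (A.subtype z) = 1 → IsLocalRing.residue A z ≠ 0 := fun z hz =>
      (IsLocalRing.residue_ne_zero_iff_isUnit z).2
        ((ValuationSubring.valuation_eq_one_iff A z).2 hz)
    rcases hc with h1 | h1 | h1
    · exact absurd h1 (not_lt.2 hxv)
    · left
      have := hu ((W.a₁ : A) * ⟨y, hy⟩
        - (3 * ⟨x, hx⟩ ^ 2 + 2 * (W.a₂ : A) * ⟨x, hx⟩ + (W.a₄ : A)))
        (by rw [qbar_a₁, qbar_a₂, qbar_a₄] at h1
            simpa only [map_sub, map_add, map_mul, map_pow, map_ofNat, map_intCast,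
                ValuationSubring.subtype_apply] using h1)
      simpa only [map_sub, map_add, map_mul, map_pow, map_ofNat, map_intCast, map_a₁, map_a₂,
          map_a₄, eq_intCast] using this
    · right
      have := hu (2 * ⟨y, hy⟩ + (W.a₁ : A) * ⟨x, hx⟩ + (W.a₃ : A))
        (by rw [qbar_a₁, qbar_a₃] at h1
            simpa only [map_sub, map_add, map_mul, map_pow, map_ofNat, map_intCast,
                ValuationSubring.subtype_apply] using h1)
      simpa only [map_sub, map_add, map_mul, map_pow, map_ofNat, map_intCast, map_a₁, map_a₃,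
          eq_intCast] using this

/-- At a good prime every point has nonsingular reduction. -/
theorem inE0_of_good (hq : q.Prime) (hA : A.LiesOverPrime q) (hgood : ¬ (q : ℤ) ∣ W.Δ)
    (P : ((W.map (Int.castRingHom ℚ))⁄Qbar).Point) : InE0 A (W := qbarCurve W) P := by
  rw [← inZeroComponentAt_iff_inE0]
  rcases P with _ | ⟨x, y, h⟩
  · exact Or.inl rfl
  refine Or.inr ⟨x, y, h, rfl, ?_⟩
  by_cases hx : x ∈ A
  swap
  · exact Or.inl hx
  have hy : y ∈ A :=
    (mem_iff A).2 (val_y_le_one (isInt_qbarCurve A W) h.1 ((mem_iff A).1 hx))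
  refine Or.inr ⟨hx, hy, ?_⟩
  have hΔ : (W.map (Int.castRingHom (IsLocalRing.ResidueField A))).Δ ≠ 0 := by
    rw [map_Δ, eq_intCast, ← map_intCast (IsLocalRing.residue A),
      IsLocalRing.residue_ne_zero_iff_isUnit, ValuationSubring.valuation_eq_one_iff]
    simpa using (val_intCast_eq_one_iff hq hA W.Δ).2 hgood
  exact (Affine.equation_iff_nonsingular_of_Δ_ne_zero hΔ).1 (residue_equation h.1 hx hy)

variable {σ : Qbar ≃ₐ[ℚ] Qbar} {p : ℕ} [Fact p.Prime]

omit [Fact (Nat.Prime p)] in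
lemma smul_nsmul_eq_zero {P : ((W.map (Int.castRingHom ℚ))⁄Qbar).Point} (h : p • P = 0)
    (σ : Qbar ≃ₐ[ℚ] Qbar) : p • (σ • P) = 0 := by
  rw [Affine.Point.algEquiv_smul_def, ← map_nsmul, h, map_zero]

lemma nonsingular_apply {x y : Qbar} (h : (qbarCurve W).Nonsingular x y)
    (σ : Qbar ≃ₐ[ℚ] Qbar) : (qbarCurve W).Nonsingular (σ x) (σ y) :=
  (Affine.baseChange_nonsingular _ σ.toAlgHom.injective x y).2 h

lemma smul_some {x y : Qbar} (h : (qbarCurve W).Nonsingular x y) (σ : Qbar ≃ₐ[ℚ] Qbar) :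
    σ • (Affine.Point.some x y h : ((W.map (Int.castRingHom ℚ))⁄Qbar).Point)
      = Affine.Point.some (σ x) (σ y) (nonsingular_apply h σ) :=
  rfl

/-- Inertia fixes torsion of odd prime order `p ≠ q` with nonsingular reduction. -/
theorem smul_eq_of_inE0 (hq : q.Prime) (hA : A.LiesOverPrime q)
    (hσ : σ ∈ A.inertiaSubgroupIn ℚ) (hp2 : p ≠ 2) (hpq : p ≠ q)
    {P : ((W.map (Int.castRingHom ℚ))⁄Qbar).Point} (htor : p • P = 0)
    (hP : InE0 A (W := qbarCurve W) P) : σ • P = P := by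
  rcases P with _ | ⟨x, y, h⟩
  · rfl
  obtain ⟨h1, h2⟩ := fixed_of_inE0 (W := qbarCurve W) (isInt_qbarCurve A W) hσ (h := h)
    (h' := nonsingular_apply h σ) hP
    (val_natCast_eq_one hq hA Fact.out hpq) ((Fact.out : p.Prime).odd_of_ne_two hp2) htor
    (smul_nsmul_eq_zero htor σ)
  rw [smul_some]
  simp only [h1, h2]

/-- At a multiplicative place every `σ` in inertia moves `p`-torsion by a point of the zero
component (`q = p` allowed). -/
theorem inE0_sub_smul (hq : q.Prime) (hA : A.LiesOverPrime q) (hΔ0 : W.Δ ≠ 0)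
    (hΔ : (q : ℤ) ∣ W.Δ) (hc₄ : ¬ (q : ℤ) ∣ W.c₄) (hσ : σ ∈ A.inertiaSubgroupIn ℚ) (hp2 : p ≠ 2)
    {P : ((W.map (Int.castRingHom ℚ))⁄Qbar).Point} (htor : p • P = 0) :
    InE0 A (W := qbarCurve W) (P - σ • P) := by
  rcases P with _ | ⟨x, y, h⟩
  · change InE0 A (W := qbarCurve W) ((0 : ((W.map (Int.castRingHom ℚ))⁄Qbar).Point) - σ • 0)
    rw [smul_zero, sub_zero]; exact inE0_zero
  rw [Affine.Point.algEquiv_smul_def, Affine.Point.map_some]
  exact inE0_sub_apply (W := qbarCurve W) (isInt_qbarCurve A W) (by simpa [qbar_Δ] using hΔ0)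
    (by rw [qbar_Δ]; exact (val_intCast_lt_one_iff hq hA _).2 hΔ)
    (by rw [qbar_c₄]; exact (val_intCast_eq_one_iff hq hA _).2 hc₄) hσ
    (by rw [qbar_a₁, map_intCast]) (by rw [qbar_a₂, map_intCast]) (by rw [qbar_a₃, map_intCast])
    (by rw [qbar_a₄, map_intCast]) (by rw [qbar_a₆, map_intCast]) hp2 htor

/-- Inertia fixes `E[p]` at a multiplicative place `q ≠ p` where `|Δ|` is a `p`th power. -/
theorem smul_eq_of_multiplicative (hq : q.Prime) (hA : A.LiesOverPrime q) (hΔ0 : W.Δ ≠ 0)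
    (hΔ : (q : ℤ) ∣ W.Δ) (hc₄ : ¬ (q : ℤ) ∣ W.c₄) (hσ : σ ∈ A.inertiaSubgroupIn ℚ) (hp2 : p ≠ 2)
    (hpq : p ≠ q) {P : ((W.map (Int.castRingHom ℚ))⁄Qbar).Point} (htor : p • P = 0)
    (hc : ∃ c : ℤ, A.valuation (c : Qbar) ^ p = A.valuation (W.Δ : Qbar)) : σ • P = P := by
  rcases P with _ | ⟨x, y, h⟩
  · rfl
  obtain ⟨c, hc⟩ := hc
  have h' := nonsingular_apply h σ
  obtain ⟨h1, h2⟩ := fixed_of_multiplicative (W := qbarCurve W) (isInt_qbarCurve A W)
    (by simpa [qbar_Δ] using hΔ0)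
    (by rw [qbar_Δ]; exact (val_intCast_lt_one_iff hq hA _).2 hΔ)
    (by rw [qbar_c₄]; exact (val_intCast_eq_one_iff hq hA _).2 hc₄) hσ
    (by rw [qbar_a₁, map_intCast]) (by rw [qbar_a₂, map_intCast]) (by rw [qbar_a₃, map_intCast])
    (by rw [qbar_a₄, map_intCast]) (by rw [qbar_a₆, map_intCast]) hp2
    (val_natCast_eq_one hq hA Fact.out hpq) (h := h) (h' := h') htor (smul_nsmul_eq_zero htor σ)
    (fun _ => ⟨(c : Qbar), map_intCast σ c, by rw [qbar_Δ]; exact hc⟩)
  rw [smul_some]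
  simp only [h1, h2]

lemma nsmul_torsionBy {E : Type*} [AddCommGroup E] {n : ℕ}
    (x : Submodule.torsionBy ℤ E n) : n • (x : E) = 0 := by
  have h : ((n : ℤ)) • (x : E) = 0 := (Submodule.mem_torsionBy_iff _ _).1 x.2
  rwa [natCast_zsmul] at h

/-- `E[p]` is unramified at a good or suitable multiplicative prime `q ≠ p`. -/
theorem galoisRepUnramifiedAt_of_semistable (hq : q.Prime) (hΔ0 : W.Δ ≠ 0) (hp2 : p ≠ 2)
    (hpq : p ≠ q) (hmult : (q : ℤ) ∣ W.Δ → ¬ (q : ℤ) ∣ W.c₄)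
    (hc : (q : ℤ) ∣ W.Δ → ∀ A : ValuationSubring Qbar, A.LiesOverPrime q →
      ∃ c : ℤ, A.valuation (c : Qbar) ^ p = A.valuation (W.Δ : Qbar)) :
    WeierstrassCurve.Affine.Point.GaloisRepUnramifiedAt (K := Qbar) ℚ
      (W.map (Int.castRingHom ℚ)) p q := by
  intro A hA σ hσ x
  apply Subtype.ext
  show σ • (x : ((W.map (Int.castRingHom ℚ))⁄Qbar).Point) = x
  by_cases hΔ : (q : ℤ) ∣ W.Δ
  · exact smul_eq_of_multiplicative hq hA hΔ0 hΔ (hmult hΔ) hσ hp2 hpq (nsmul_torsionBy x)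
      (hc hΔ A hA)
  · exact smul_eq_of_inE0 hq hA hσ hp2 hpq (nsmul_torsionBy x) (inE0_of_good hq hA hΔ _)

end Fermat.Agent.Tate
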