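import Fermat.Prelude.Def_FLTPrelim_FreyPackage
import Fermat.Agent.Frey.FreyModel
import Fermat.Agent.Tate.Integral

/-!
The primes where the `p`-torsion of the Frey curve is unramified.
It is the local input on ramification for the Frey curve.
-/

namespace Fermat.Agent.Tate

open WeierstrassCurve

variable (P : FreyPackage)

/-- The discriminant of the integral model, as a `p`th power up to `256`. -/
lemma freyCurveInt_Δ : P.freyCurveInt.Δ * 256 = ((P.a * P.b * P.c) ^ 2) ^ P.p := by
  rw [mul_comm, Frey.freyCurveInt_Δ]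
  ring

/-- A prime dividing the discriminant of the Frey curve does not divide `c₄`. -/
lemma frey_multiplicative {q : ℕ} (hq : q.Prime) (hΔ : (q : ℤ) ∣ P.freyCurveInt.Δ) :
    ¬ (q : ℤ) ∣ P.freyCurveInt.c₄ :=
  Frey.freyCurveInt_isSemistable P q hq hΔ

/-- The `p`-torsion of the Frey curve is unramified away from `2` and `p`. -/
theorem frey_galoisRepUnramifiedAt {q : ℕ} (hq : q.Prime) (hq2 : q ≠ 2) (hqp : q ≠ P.p) :
    P.GaloisRepUnramifiedAt q := by
  have : Fact P.p.Prime := ⟨P.pp⟩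
  rw [FreyPackage.GaloisRepUnramifiedAt, Frey.freyCurve_eq_map]
  refine galoisRepUnramifiedAt_of_semistable hq (Frey.freyCurveInt_Δ_ne_zero P)
    (by have := P.hp5; omega) (Ne.symm hqp) (frey_multiplicative P hq) fun _ A hA =>
    ⟨(P.a * P.b * P.c) ^ 2, ?_⟩
  have h256 : A.valuation ((256 : ℤ) : AlgebraicClosure ℚ) = 1 := by
    rw [val_intCast_eq_one_iff hq hA]
    intro h
    have h2 : (q : ℤ) ∣ 2 ^ 8 := by simpa using h
    have := Int.natCast_dvd_natCast.1
      ((Nat.prime_iff_prime_int.1 hq).dvd_of_dvd_pow h2 : (q : ℤ) ∣ ((2 : ℕ) : ℤ))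
    exact hq2 ((Nat.prime_dvd_prime_iff_eq hq Nat.prime_two).1 this)
  rw [← map_pow, ← Int.cast_pow, ← freyCurveInt_Δ, Int.cast_mul, map_mul, h256, mul_one]

end Fermat.Agent.Tate
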