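import Fermat.Agent.Tate.Node

/-!
The component of a point of odd prime order on `y² + xy = x³ + t`: the abscissa valuation `g`
satisfies `g ^ p = |t| ^ i`, and the components are exhausted by the multiples of any such point.
This stands in for the component group of the Tate curve.
-/

namespace Fermat.Agent.Tate

open WeierstrassCurve

variable {K : Type*} [Field K] [DecidableEq K] {A : ValuationSubring K} {t : K}
  {p : ℕ} [Fact p.Prime]

local notation "v" => A.valuation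

lemma not_deep_nsmul (ht : v t < 1) {P : (nodeCurve t).Point} (hP : ¬ Deep A P) (k : ℕ) :
    ¬ Deep A (k • P) := by
  induction k with
  | zero => rw [zero_smul]; exact not_deep_zero
  | succ k ih => rw [succ_nsmul]; exact not_deep_add ht ih hP

lemma addOrderOf_eq_of_deep {P : (nodeCurve t).Point} (hP : Deep A P) (h : p • P = 0) :
    addOrderOf P = p :=
  addOrderOf_eq_prime h fun h0 => not_deep_zero (h0 ▸ hP)

lemma nsmul_eq_iff_of_deep {P : (nodeCurve t).Point} (hP : Deep A P) (h : p • P = 0)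
    (k : ℕ) : k • P = 0 ↔ p ∣ k := by
  rw [← addOrderOf_eq_of_deep hP h, addOrderOf_dvd_iff_nsmul_eq_zero]

omit [Fact p.Prime] in
/-- A point killed by `p = 2 k + 1` is `k + 1` times its double. -/
lemma mul_succ_eq_one_of_odd {k : ℕ} {P : (nodeCurve t).Point} (hk : p = 2 * k + 1)
    (h : p • P = 0) : (k + 1) • (P + P) = P := by
  rw [← two_nsmul, ← mul_smul, show (k + 1) * 2 = p + 1 by omega, succ_nsmul, h, zero_add]

lemma deep_nsmul (ht : v t < 1) {P : (nodeCurve t).Point} (hP : Deep A P) (h : p • P = 0)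
    {k : ℕ} (hk : ¬ p ∣ k) : Deep A (k • P) := by
  by_contra hd
  have hp : p.Prime := Fact.out
  obtain ⟨c, -, hc⟩ := Nat.exists_mul_mod_eq_one_of_coprime
    ((Nat.Prime.coprime_iff_not_dvd hp).2 hk).symm hp.one_lt
  have h1 : c • (k • P) = P := by
    rw [← mul_smul, mul_comm, ← Nat.mod_add_div (k * c) p, add_smul, hc, one_smul, mul_smul,
      smul_comm, h, smul_zero, add_zero]
  exact (not_deep_nsmul ht hd c) (h1.symm ▸ hP)

/-- A deep point of odd prime order is not in the middle component. -/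
lemma isPlus_or_neg_of_tor (ht : v t < 1) (ht0 : t ≠ 0) (hp2 : p ≠ 2)
    {P : (nodeCurve t).Point} (hP : Deep A P) (h : p • P = 0) :
    ∃ g, IsPlus A P g ∨ IsPlus A (-P) g := by
  obtain ⟨x, y, hns, rfl, hx⟩ := hP
  refine ⟨v x, isPlus_or_isPlus_neg hx ?_⟩
  by_contra hle
  rw [not_lt] at hle
  obtain ⟨k, hk⟩ := (Fact.out : p.Prime).odd_of_ne_two hp2
  have hd := not_deep_nsmul ht (not_deep_add_self_of_mid ht ht0 (h := hns) hx hle) (k + 1)
  rw [mul_succ_eq_one_of_odd hk h, deep_some] at hd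
  exact hd hx

/-- Among the multiples `k • P` satisfying `R` and of sign `+`, one has the largest parameter. -/
lemma exists_isPlus_max {P : (nodeCurve t).Point} (h : p • P = 0)
    (R : (nodeCurve t).Point → Prop) {k₀ : ℕ} {g₀ : A.ValueGroup} (hR : R (k₀ • P))
    (hk₀ : IsPlus A (k₀ • P) g₀) :
    ∃ (b : ℕ) (g : A.ValueGroup), R (b • P) ∧ IsPlus A (b • P) g ∧
      ∀ (k : ℕ) (g' : A.ValueGroup), R (k • P) → IsPlus A (k • P) g' → g' ≤ g := by
  classical
  have hord : ∀ k : ℕ, k • P = (k % p) • P := fun k => by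
    conv_lhs => rw [← Nat.mod_add_div k p, add_smul, mul_smul, smul_comm, h, smul_zero, add_zero]
  set S := (Finset.range p).filter (fun k => R (k • P) ∧ ∃ g, IsPlus A (k • P) g) with hS
  have hmemS : ∀ k g, R (k • P) → IsPlus A (k • P) g → k % p ∈ S := fun k g hRk hk => by
    rw [hS, Finset.mem_filter, Finset.mem_range, ← hord k]
    exact ⟨Nat.mod_lt _ (Fact.out : p.Prime).pos, hRk, g, hk⟩
  set f : ℕ → A.ValueGroup := fun k =>
    if hk : ∃ g, IsPlus A (k • P) g then hk.choose else 0 with hf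
  have hfS : ∀ k g, IsPlus A (k • P) g → f k = g := fun k g hk => by
    rw [hf]; simp only [dif_pos (show ∃ g, IsPlus A (k • P) g from ⟨g, hk⟩)]
    exact (Exists.choose_spec (p := fun g => IsPlus A (k • P) g) ⟨g, hk⟩).val_unique hk
  obtain ⟨b, hbS, hmax⟩ := Finset.exists_max_image S f ⟨_, hmemS k₀ g₀ hR hk₀⟩
  obtain ⟨-, hRb, g, hg⟩ := Finset.mem_filter.1 hbS
  refine ⟨b, g, hRb, hg, fun k g' hRk hk => ?_⟩
  rw [← hfS _ _ hg, ← hfS _ _ (show IsPlus A ((k % p) • P) g' by rwa [← hord k])]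
  exact hmax _ (hmemS k g' hRk hk)

/-- The multiples of a deep point of odd prime order `p`: there is a generator `Q` on the first
component, so that `j • Q` lies on the `j`th component for `j ≤ (p - 1) / 2`. -/
theorem exists_generator (ht : v t < 1) (ht0 : t ≠ 0) (hp2 : p ≠ 2)
    {P : (nodeCurve t).Point} (hP : Deep A P) (h : p • P = 0) :
    ∃ (a M : ℕ) (δ : A.ValueGroup), p = 2 * M + 1 ∧ δ ^ p = v t ∧
      (∀ j : ℕ, 1 ≤ j → j ≤ M → IsPlus A (j • (a • P)) (δ ^ j)) ∧
      ∀ (k : ℕ) (g : A.ValueGroup), IsPlus A (k • P) g →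
        ∃ j, 1 ≤ j ∧ j ≤ M ∧ k • P = j • (a • P) := by
  classical
  have hp : p.Prime := Fact.out
  have hp1 : 0 < p := hp.pos
  obtain ⟨k₁, g₁, hk₁⟩ : ∃ k g, IsPlus A (k • P) g := by
    obtain ⟨g, hg | hg⟩ := isPlus_or_neg_of_tor ht ht0 hp2 hP h
    · exact ⟨1, g, by rwa [one_smul]⟩
    · refine ⟨p - 1, g, ?_⟩
      rwa [eq_neg_of_add_eq_zero_left (a := (p - 1) • P) (b := P) (by
        rw [← succ_nsmul, Nat.sub_add_cancel hp.one_le, h])]
  obtain ⟨a, δ, -, hδ, hmax'⟩ := exists_isPlus_max h (fun _ => True) trivial hk₁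
  set Q := a • P with hQ
  have hQt : p • Q = 0 := by rw [hQ, smul_comm, h, smul_zero]
  have hQd : Deep A Q := hδ.deep
  have hcl : ∀ b c : ℕ, ∃ d : ℕ, b • P - c • P = d • P := fun b c => ⟨b + c * (p - 1), by
    rw [add_smul, sub_eq_add_neg]
    congr 1
    refine neg_eq_of_add_eq_zero_left ?_
    rw [← add_smul, ← Nat.mul_succ, Nat.succ_eq_add_one, Nat.sub_add_cancel hp.one_le, mul_smul,
      h, smul_zero]⟩
  have hex : ∃ m, ¬ IsPlus A ((m + 1) • Q) (δ ^ (m + 1)) :=
    ⟨p - 1, fun hpl => by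
      rw [Nat.sub_add_cancel hp.one_le, hQt] at hpl
      exact not_deep_zero hpl.deep⟩
  set M := Nat.find hex with hMdef
  have hlow : ∀ j, 1 ≤ j → j ≤ M → IsPlus A (j • Q) (δ ^ j) := fun j h1 h2 => by
    have := Nat.find_min hex (show j - 1 < M by omega)
    rwa [not_not, Nat.sub_add_cancel h1] at this
  have hM1 : 1 ≤ M := by
    rcases Nat.eq_zero_or_pos M with h0 | h0
    · have hf' := Nat.find_spec hex
      rw [← hMdef, h0, zero_add, one_smul, pow_one] at hf'
      exact absurd hδ hf'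
    · exact h0
  have hneg : ∀ i, i ≤ p → (p - i) • Q = -(i • Q) := fun i hi =>
    eq_neg_of_add_eq_zero_left (by rw [← add_smul, Nat.sub_add_cancel hi, hQt])
  have hMp : M < p := by
    by_contra hle
    rw [not_lt] at hle
    have := (hlow p hp.one_le hle).deep
    rw [hQt] at this
    exact not_deep_zero this
  have h2M : 2 * M < p := by
    by_contra hle
    rw [not_lt] at hle
    have h1 := hlow (p - M) (by omega) (by omega)
    rw [hneg M hMp.le] at h1
    exact (hlow M hM1 le_rfl).not_neg h1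
  have hδpos : 0 < δ := by
    obtain ⟨_, y, _, _, _, _, _, hy⟩ := hδ
    exact lt_of_le_of_lt zero_le hy
  have hδ1 : δ < 1 := by obtain ⟨_, _, _, _, _, h, -⟩ := hδ; exact h
  have hindex : ∀ (k : ℕ) (g : A.ValueGroup), IsPlus A (k • P) g →
      ∃ j, 1 ≤ j ∧ j ≤ M ∧ k • P = j • Q := by
    intro k₀ g₀ hk₀
    by_contra hne
    obtain ⟨b, g, hbne, hg, hbmax⟩ :=
      exists_isPlus_max h (fun X => ¬ ∃ j, 1 ≤ j ∧ j ≤ M ∧ X = j • Q) hne hk₀
    rcases (hmax' b g trivial hg).lt_or_eq with hlt | heq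
    · obtain ⟨d, hd⟩ := hcl b a
      have hsub : IsPlus A (b • P - Q) (g / δ) := isPlus_sub hg hδ hlt
      rw [hQ, hd] at hsub
      have hbig : g < g / δ := by
        rw [lt_div_iff₀ hδpos]
        refine mul_lt_of_lt_one_right ?_ hδ1
        obtain ⟨_, y, _, _, _, _, _, hy⟩ := hg
        exact lt_of_le_of_lt zero_le hy
      obtain ⟨j, hj1, hjM, hj⟩ : ∃ j, 1 ≤ j ∧ j ≤ M ∧ d • P = j • Q :=
        by_contra fun hRd => (not_le.2 hbig) (hbmax d _ hRd hsub)
      have hb : b • P = (j + 1) • Q := by rw [succ_nsmul, ← hj, ← hd, sub_add_cancel]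
      rcases hjM.lt_or_eq with hjl | rfl
      · exact hbne ⟨j + 1, by omega, hjl, hb⟩
      · refine Nat.find_spec hex ?_
        rw [← hMdef]
        have hδj := (hlow M hM1 le_rfl).val_unique (g' := g / δ) (by rw [← hj]; exact hsub)
        rw [← hb, pow_succ, hδj, div_mul_cancel₀ _ hδpos.ne']
        exact hg
    · subst heq
      refine hbne ⟨1, le_rfl, hM1, ?_⟩
      rw [one_smul]
      by_contra hbne'
      obtain ⟨d, hd⟩ := hcl b a
      have hnd := not_deep_sub_of_isPlus hg hδ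
      rw [hQ, hd] at hnd
      refine hnd (deep_nsmul ht hP h fun hdvd => hbne' ?_)
      rw [hQ, ← sub_eq_zero, hd, (nsmul_eq_iff_of_deep hP h d).2 hdvd]
  have hM1p : M + 1 < p := by omega
  have hnS : ∀ g, ¬ IsPlus A ((M + 1) • Q) g := fun g hg => by
    rw [hQ, ← mul_smul] at hg
    obtain ⟨j, hj1, hjM, hj⟩ := hindex _ g hg
    rw [mul_smul, ← hQ] at hj
    have h0 : (M + 1 - j) • Q = 0 := by
      have : (M + 1 - j) • Q + j • Q = (M + 1) • Q := by
        rw [← add_smul, Nat.sub_add_cancel (by omega)]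
      rwa [hj, add_eq_right] at this
    have := (nsmul_eq_iff_of_deep hQd hQt _).1 h0
    exact absurd (Nat.le_of_dvd (by omega) this) (by omega)
  obtain ⟨g, hg | hg⟩ := isPlus_or_neg_of_tor ht ht0 hp2
    (deep_nsmul ht hQd hQt (fun hdvd => by
      have := Nat.le_of_dvd (by omega) hdvd; omega))
    (show p • ((M + 1) • Q) = 0 by rw [smul_comm, hQt, smul_zero])
  · exact absurd hg (hnS g)
  rw [← hneg (M + 1) hM1p.le, hQ, ← mul_smul] at hg
  obtain ⟨j, hj1, hjM, hj⟩ := hindex _ g hg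
  rw [mul_smul, ← hQ, hneg (M + 1) hM1p.le, neg_eq_iff_add_eq_zero, ← add_smul] at hj
  have hdvd := (nsmul_eq_iff_of_deep hQd hQt _).1 hj
  have hp' : p = 2 * M + 1 := by
    rcases Nat.eq_or_lt_of_le (Nat.le_of_dvd (by omega) hdvd) with he | hl <;> omega
  have hδp : δ ^ p = v t := by
    have hdbl : M • Q + M • Q = -Q := eq_neg_of_add_eq_zero_left (by
      rw [← add_smul, ← succ_nsmul, show M + M + 1 = p by omega, hQt])
    rcases double_cases ht0 (hlow M hM1 le_rfl) hδ (Or.inr hdbl) with he | he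
    · exfalso
      rw [← pow_mul] at he
      exact (pow_lt_self_of_lt_one₀ hδpos hδ1 (by omega)).ne he.symm
    · rw [← pow_mul, ← pow_succ'] at he
      rwa [hp', mul_comm 2 M]
  exact ⟨a, M, δ, hp', hδp, hlow, hindex⟩

/-- The abscissa valuation of a deep point of odd prime order. -/
theorem exists_pow_val_eq (ht : v t < 1) (ht0 : t ≠ 0) (hp2 : p ≠ 2) {x y : K}
    {hns : (nodeCurve t).Nonsingular x y} (hx : v x < 1)
    (h : p • Affine.Point.some x y hns = 0) :
    ∃ i : ℕ, v x ^ p = v t ^ i ∧ v t < v x ^ 2 ∧ (v y < v x ∨ v (-y - x) < v x) := by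
  have hP : Deep A (Affine.Point.some x y hns) := deep_some.2 hx
  obtain ⟨a, M, δ, hpM, hδ, hlow, hidx⟩ := exists_generator ht ht0 hp2 hP h
  have hneg : (p - 1) • Affine.Point.some x y hns = -Affine.Point.some x y hns :=
    eq_neg_of_add_eq_zero_left (by rw [← succ_nsmul, Nat.sub_add_cancel (by omega), h])
  obtain ⟨g, hg⟩ := isPlus_or_neg_of_tor ht ht0 hp2 hP h
  have hgx : g = v x ∧ v t < v x ^ 2 := by
    rcases hg with ⟨x', y', h', he, rfl, -, htg, -⟩ | ⟨x', y', h', he, rfl, -, htg, -⟩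
    · cases he; exact ⟨rfl, htg⟩
    · rw [Affine.Point.neg_some] at he; cases he; exact ⟨rfl, htg⟩
  obtain ⟨k, hk⟩ : ∃ k : ℕ, IsPlus A (k • Affine.Point.some x y hns) g := by
    rcases hg with hg | hg
    · exact ⟨1, by rwa [one_smul]⟩
    · exact ⟨p - 1, by rwa [hneg]⟩
  obtain ⟨j, hj1, hjM, hj⟩ := hidx k g hk
  have hgj : g = δ ^ j := hk.val_unique (hj ▸ hlow j hj1 hjM)
  refine ⟨j, ?_, hgx.2, side_cases hns.1 hx hgx.2⟩
  rw [← hgx.1, hgj, ← pow_mul, mul_comm, pow_mul, hδ]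

/-- Modulo points off the node, `p`-torsion lies in the multiples of any deep `p`-torsion point. -/
theorem exists_not_deep_sub_nsmul (ht : v t < 1) (ht0 : t ≠ 0) (hp2 : p ≠ 2)
    {P Q : (nodeCurve t).Point} (hP : Deep A P) (hPt : p • P = 0) (hQt : p • Q = 0) :
    ∃ k : ℕ, ¬ Deep A (Q - k • P) := by
  by_cases hQ : Deep A Q
  swap
  · exact ⟨0, by rwa [zero_smul, sub_zero]⟩
  obtain ⟨a, M, δ, hpM, hδ, hlow, -⟩ := exists_generator ht ht0 hp2 hP hPt
  obtain ⟨a', M', δ', hpM', hδ', hlow', hidx'⟩ := exists_generator ht ht0 hp2 hQ hQt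
  have hMM : M' = M := by omega
  have hδδ : δ' = δ := pow_left_inj_val A (Fact.out : p.Prime).ne_zero (hδ'.trans hδ.symm)
  subst hMM hδδ
  have hnegQ : (p - 1) • Q = -Q :=
    eq_neg_of_add_eq_zero_left (by rw [← succ_nsmul, Nat.sub_add_cancel (by omega), hQt])
  obtain ⟨g, hg | hg⟩ := isPlus_or_neg_of_tor ht ht0 hp2 hQ hQt
  · obtain ⟨j, hj1, hjM, hj⟩ := hidx' 1 g (by rwa [one_smul])
    rw [one_smul] at hj
    refine ⟨j * a, ?_⟩
    rw [hj, mul_smul j a P]
    exact not_deep_sub_of_isPlus (hlow' j hj1 hjM) (hlow j hj1 hjM)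
  · obtain ⟨j, hj1, hjM, hj⟩ := hidx' (p - 1) g (by rwa [hnegQ])
    rw [hnegQ] at hj
    refine ⟨(p - 1) * (j * a), ?_⟩
    have hd := not_deep_sub_of_isPlus (hlow' j hj1 hjM) (hlow j hj1 hjM)
    rw [← hj, ← deep_neg_iff, neg_sub] at hd
    have hnP : (p - 1) • ((j * a) • P) = -((j * a) • P) := eq_neg_of_add_eq_zero_left (by
      rw [← succ_nsmul, Nat.sub_add_cancel (by omega), smul_comm, hPt, smul_zero])
    rwa [mul_smul (p - 1), hnP, mul_smul j a, sub_neg_eq_add, add_comm, ← sub_neg_eq_add]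

end Fermat.Agent.Tate
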