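import Fermat.Agent.Tate.Component

/-!
On `y² + xy = x³ + t` the ratio `y / (y + x)` is multiplicative modulo the maximal ideal on the
points off the node, with kernel the points reducing to the origin. It identifies the smooth part
of the reduction with the multiplicative group.
-/

namespace Fermat.Agent.Tate

open WeierstrassCurve

variable {K : Type*} [Field K] {A : ValuationSubring K} {t : K}

local notation "v" => A.valuation

/-- The parameter `y / (y + x)` of the smooth part of the reduction. -/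
noncomputable def fPar : (nodeCurve t).Point → K
  | .zero => 1
  | .some x y _ => y / (y + x)

@[simp] lemma fPar_zero : fPar (0 : (nodeCurve t).Point) = 1 := rfl

lemma fPar_some {x y : K} (h : (nodeCurve t).Nonsingular x y) :
    fPar (Affine.Point.some x y h) = y / (y + x) := rfl

/-- Off the node `|y| = |y + x| ≥ |x| ≥ 1`. -/
lemma val_y_nondeep (ht : v t < 1) {x y : K} (h : (nodeCurve t).Equation x y) (hx : 1 ≤ v x) :
    v (y + x) = v y ∧ v x ≤ v y ∧ 1 ≤ v y := by
  have hint := isInt_nodeCurve (A := A) ht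
  rcases hx.lt_or_eq with hx | hx
  · obtain ⟨-, hxy, he⟩ := val_y_of_one_lt hint h hx
    simp only [nodeCurve_a₁, nodeCurve_a₃, one_mul, add_zero] at he
    exact ⟨he, hxy.le, hx.le.trans hxy.le⟩
  · have hy := val_y_le_one hint h hx.ge
    have hyx : v (y + x) ≤ 1 := Valuation.map_add_le _ hy hx.ge
    have hp : v y * v (y + x) = 1 := by
      rw [← map_mul, nodeCurve_eq h, Valuation.map_add_eq_of_lt_left _ ?_, map_pow, ← hx, one_pow]
      rw [map_pow, ← hx, one_pow]; exact ht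
    have h1 : v y = 1 := hy.eq_of_not_lt fun hlt =>
      (mul_lt_one_of_nonneg_of_lt_one_left zero_le hlt hyx).ne hp
    rw [h1, one_mul] at hp
    exact ⟨hp.trans h1.symm, hx.ge.trans h1.ge, h1.ge⟩

lemma ne_zero_of_one_le {z : K} (h : 1 ≤ v z) : z ≠ 0 := fun h0 => by
  rw [h0, map_zero] at h; exact absurd h (not_le.2 zero_lt_one)

lemma val_fPar (ht : v t < 1) {P : (nodeCurve t).Point} (hP : ¬ Deep A P) :
    v (fPar P) = 1 := by
  rcases P with _ | ⟨x, y, h⟩
  · exact map_one _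
  rw [deep_some, not_lt] at hP
  obtain ⟨he, -, h1⟩ := val_y_nondeep ht h.1 hP
  rw [fPar_some, map_div₀, he, div_self (zero_lt_one.trans_le h1).ne']

/-- The kernel of `fPar` consists of the points reducing to the origin. -/
theorem inE1_iff_fPar (ht : v t < 1) {P : (nodeCurve t).Point} (hP : ¬ Deep A P) :
    InE1 A P ↔ v (fPar P - 1) < 1 := by
  rcases P with _ | ⟨x, y, h⟩
  · exact iff_of_true inE1_zero (by change v ((1 : K) - 1) < 1; simp)
  rw [deep_some, not_lt] at hP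
  obtain ⟨he, -, h1⟩ := val_y_nondeep ht h.1 hP
  have hne : y + x ≠ 0 := ne_zero_of_one_le (A := A) (he.symm ▸ h1)
  rw [inE1_some, fPar_some, div_sub_one hne, show y - (y + x) = -x by ring, map_div₀,
    Valuation.map_neg, he, div_lt_one₀ (zero_lt_one.trans_le h1)]
  constructor
  · exact fun hx => (val_y_of_one_lt (isInt_nodeCurve ht) h.1 hx).2.1
  · intro hlt
    rcases hP.lt_or_eq with hx | hx
    · exact hx
    · exact absurd (val_y_le_one (isInt_nodeCurve ht) h.1 hx.ge) (not_le.2 (hx ▸ hlt))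

variable [DecidableEq K]

/-- `fPar` is multiplicative modulo the maximal ideal. -/
theorem val_fPar_add (ht : v t < 1) {P Q : (nodeCurve t).Point} (hP : ¬ Deep A P)
    (hQ : ¬ Deep A Q) : v (fPar (P + Q) - fPar P * fPar Q) < 1 := by
  rcases P with _ | ⟨x₁, y₁, h₁⟩
  · change v (fPar (0 + Q) - 1 * fPar Q) < 1
    rw [zero_add, one_mul, sub_self, map_zero]; exact zero_lt_one
  rcases Q with _ | ⟨x₂, y₂, h₂⟩
  · change v (fPar (Affine.Point.some x₁ y₁ h₁ + 0) - fPar (Affine.Point.some x₁ y₁ h₁) * 1) < 1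
    rw [add_zero, mul_one, sub_self, map_zero]; exact zero_lt_one
  rw [deep_some, not_lt] at hP hQ
  obtain ⟨he₁, hxy₁, hy₁⟩ := val_y_nondeep ht h₁.1 hP
  obtain ⟨he₂, hxy₂, hy₂⟩ := val_y_nondeep ht h₂.1 hQ
  have n1 : y₁ + x₁ ≠ 0 := ne_zero_of_one_le (A := A) (he₁.symm ▸ hy₁)
  have n2 : y₂ + x₂ ≠ 0 := ne_zero_of_one_le (A := A) (he₂.symm ▸ hy₂)
  have m1 : y₁ ≠ 0 := ne_zero_of_one_le hy₁
  have m2 : y₂ ≠ 0 := ne_zero_of_one_le hy₂
  rcases add_cases h₁ h₂ with ⟨hx, hy, hs⟩ | ⟨x₃, y₃, l, m, h₃, -, -, heq, hc, hs⟩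
  · subst hx hy
    rw [hs, fPar_zero, fPar_some, fPar_some, nodeCurve_negY,
      show -y₂ - x₁ + x₁ = -y₂ by ring]
    have hone : (-y₂ - x₁) / -y₂ * (y₂ / (y₂ + x₁)) = 1 := by field_simp; ring
    rw [hone, sub_self, map_zero]; exact zero_lt_one
  have hR : ¬ Deep A (Affine.Point.some x₃ _ h₃) :=
    hs ▸ not_deep_add ht (deep_some.not.2 (not_lt.2 hP)) (deep_some.not.2 (not_lt.2 hQ))
  rw [deep_some, not_lt] at hR
  obtain ⟨he₃, hxy₃, hy₃⟩ := val_y_nondeep ht heq hR
  have n3 : y₃ + x₃ ≠ 0 := ne_zero_of_one_le (A := A) (he₃.symm ▸ hy₃)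
  have m3 : y₃ ≠ 0 := ne_zero_of_one_le hy₃
  obtain ⟨he1, he2, he3⟩ := nodeChord hc
  have hid : (y₁ + x₁) * (y₂ + x₂) * (y₃ + x₃) - y₁ * y₂ * y₃
      = -(t * (3 * l ^ 2 + 3 * l + 1)) := by
    rw [hc.eq1, hc.eq2, hc.eq3]
    linear_combination m ^ 2 * he1 + m * (2 * l + 1) * he2 + (3 * l ^ 2 + 3 * l + 1) * he3
  set Pi := v y₁ * v y₂ * v y₃ with hPi
  have hPi1 : 1 ≤ Pi := one_le_mul (one_le_mul hy₁ hy₂) hy₃
  have hL : max 1 (v l) ^ 2 ≤ Pi := by
    refine chord_slope_bound (isInt_nodeCurve ht) hc hPi1 ?_ ?_ ?_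
    · exact hxy₁.trans ((le_mul_of_one_le_right zero_le hy₂).trans
        (le_mul_of_one_le_right zero_le hy₃))
    · exact hxy₂.trans ((le_mul_of_one_le_left zero_le hy₁).trans
        (le_mul_of_one_le_right zero_le hy₃))
    · exact hxy₃.trans (le_mul_of_one_le_left zero_le (one_le_mul hy₁ hy₂))
  have hnum : v (-(t * (3 * l ^ 2 + 3 * l + 1))) < Pi := by
    rw [Valuation.map_neg, map_mul]
    have hL1 : (1 : A.ValueGroup) ≤ max 1 (v l) := le_max_left _ _
    have hb : v (3 * l ^ 2 + 3 * l + 1) ≤ max 1 (v l) ^ 2 := by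
      refine Valuation.map_add_le _ (Valuation.map_add_le _ ?_ ?_) ?_
      · refine val_mul_le_of_le A (val_ofNat_le A 3) ?_
        rw [map_pow]; exact pow_le_pow_left₀ zero_le (le_max_right _ _) 2
      · exact (val_mul_le_of_le A (val_ofNat_le A 3) le_rfl).trans
          ((le_max_right 1 (v l)).trans (le_self_pow hL1 two_ne_zero))
      · rw [map_one]; exact one_le_pow₀ hL1
    exact lt_of_le_of_lt (mul_le_mul_right (hb.trans hL) _)
      (mul_lt_of_lt_one_left (zero_lt_one.trans_le hPi1) ht)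
  rw [hs, fPar_some, fPar_some, fPar_some, nodeCurve_negY,
    show -y₃ - x₃ + x₃ = -y₃ by ring]
  rw [show (-y₃ - x₃) / -y₃ - y₁ / (y₁ + x₁) * (y₂ / (y₂ + x₂))
      = ((y₁ + x₁) * (y₂ + x₂) * (y₃ + x₃) - y₁ * y₂ * y₃)
        / (y₃ * (y₁ + x₁) * (y₂ + x₂)) by field_simp; ring,
    hid, map_div₀, map_mul, map_mul, he₁, he₂,
    div_lt_one₀ (by
      rw [mul_assoc, mul_comm]; exact zero_lt_one.trans_le (one_le_mul (one_le_mul hy₁ hy₂) hy₃))]
  calc _ < Pi := hnum
    _ = v y₃ * v y₁ * v y₂ := by rw [hPi]; ac_rfl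

/-- `fPar (k • P) ≡ fPar P ^ k`. -/
theorem val_fPar_nsmul (ht : v t < 1) {P : (nodeCurve t).Point} (hP : ¬ Deep A P) (k : ℕ) :
    v (fPar (k • P) - fPar P ^ k) < 1 := by
  induction k with
  | zero => simp
  | succ k ih =>
    rw [succ_nsmul, pow_succ, show fPar (k • P + P) - fPar P ^ k * fPar P
      = (fPar (k • P + P) - fPar (k • P) * fPar P)
        + fPar P * (fPar (k • P) - fPar P ^ k) by ring]
    exact Valuation.map_add_lt _ (val_fPar_add ht (not_deep_nsmul ht hP k) hP)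
      (val_mul_lt_of_lt A (val_fPar ht hP).le ih)

/-- Torsion points off the node of order invertible in `A` are determined by `fPar`. -/
theorem eq_of_fPar_congr (ht : v t < 1) {P Q : (nodeCurve t).Point} (hP : ¬ Deep A P)
    (hQ : ¬ Deep A Q) {n : ℕ} (hn : v (n : K) = 1) (hPt : n • P = 0) (hQt : n • Q = 0)
    (h : v (fPar P - fPar Q) < 1) : P = Q := by
  have hd : ¬ Deep A (P - Q) := by
    rw [sub_eq_add_neg]; exact not_deep_add ht hP (by rwa [deep_neg_iff])
  rw [← sub_eq_zero]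
  refine eq_zero_of_inE1_of_nsmul (isInt_nodeCurve ht) ((inE1_iff_fPar ht hd).2 ?_) hn
    (by rw [nsmul_sub, hPt, hQt, sub_zero])
  have hQ0 : v (fPar Q) = 1 := val_fPar ht hQ
  have hadd := val_fPar_add ht hd hQ
  rw [sub_add_cancel] at hadd
  have h2 : v (fPar Q * (fPar (P - Q) - 1)) < 1 := by
    rw [show fPar Q * (fPar (P - Q) - 1)
      = (fPar P - fPar Q) - (fPar P - fPar (P - Q) * fPar Q) by ring]
    exact Valuation.map_sub_lt _ h hadd
  rwa [map_mul, hQ0, one_mul] at h2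

end Fermat.Agent.Tate
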