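import Fermat.Agent.Tate.E0Line
import Fermat.Agent.Tate.Integral
import Fermat.Agent.Tate.NodeHom

/-!
A Frobenius element at a multiplicative prime `q` acts on the torsion points of order prime to
`q` with nonsingular reduction as `± q`. It gives the shape of the representation there.
-/

namespace Fermat.Agent.Tate

open WeierstrassCurve
open scoped WeierstrassCurve.Affine
open Fermat.Agent.SmallExponents (vcX vcY vcHom vcHom_some vcHom_injective vcHom_surjective)

section General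

variable {K : Type*} [Field K] {A : ValuationSubring K} {F : Type*} [Field F] [Algebra F K]
  {σ : K ≃ₐ[F] K}

local notation "v" => A.valuation

/-- An element of the decomposition group acts on the normal form up to the sign automorphism. -/
theorem NormalData.decomposition_cases [CharZero K] {W : WeierstrassCurve K} (D : NormalData A W)
    (hd : σ ∈ A.decompositionSubgroup F) (ha₁ : σ W.a₁ = W.a₁) (ha₂ : σ W.a₂ = W.a₂)
    (ha₃ : σ W.a₃ = W.a₃) (ha₄ : σ W.a₄ = W.a₄) (ha₆ : σ W.a₆ = W.a₆) :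
    σ D.t = D.t ∧ σ D.C.r = D.C.r ∧ σ D.C.t = D.C.t ∧
      ((σ (D.C.u : K) = D.C.u ∧ σ D.C.s = D.C.s) ∨
        (σ (D.C.u : K) = -D.C.u ∧ σ D.C.s = D.C.s - D.C.u)) := by
  obtain ⟨e4, e6, eb, e1, e2, e3⟩ := D.eqns
  have hb2 : σ W.b₂ = W.b₂ := by simp [b₂, map_ofNat, ha₁, ha₂]
  have hc4 : σ W.c₄ = W.c₄ := by simp [WeierstrassCurve.c₄, b₂, b₄, map_ofNat, ha₁, ha₂, ha₃, ha₄]
  have hc6 : σ W.c₆ = W.c₆ := by
    simp [WeierstrassCurve.c₆, b₂, b₄, b₆, map_ofNat, ha₁, ha₂, ha₃, ha₄, ha₆]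
  have hΔσ : σ W.Δ = W.Δ := by
    simp [WeierstrassCurve.Δ, b₂, b₄, b₆, b₈, map_ofNat, ha₁, ha₂, ha₃, ha₄, ha₆]
  have hu0 : (D.C.u : K) ≠ 0 := D.C.u.ne_zero
  have hcW : W.c₄ ≠ 0 := by rw [← e4]; exact pow_ne_zero _ hu0
  have heq : D.t * (1 + 432 * D.t) = -(W.Δ / W.c₄ ^ 3) := by
    have h := congrArg WeierstrassCurve.Δ D.hC
    rw [variableChange_Δ, nodeCurve_Δ, Units.val_inv_eq_inv_val, inv_pow] at h
    rw [← e4, ← pow_mul, div_eq_inv_mul, h]
    ring
  have htσ : σ D.t = D.t := by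
    have h := congrArg σ heq
    rw [map_mul, map_add, map_one, map_mul, map_ofNat, map_neg, map_div₀, map_pow, hΔσ, hc4,
      ← heq] at h
    have h2 : (σ D.t - D.t) * (1 + 432 * (σ D.t + D.t)) = 0 := by linear_combination h
    refine sub_eq_zero.1 ((mul_eq_zero.1 h2).resolve_right fun h0 => ?_)
    have := val_one_add_of_lt (A := A) (val_mul_lt_of_lt A (val_ofNat_le A 432)
      (Valuation.map_add_lt _ (val_apply_lt_one hd D.ht) D.ht))
    rw [h0, map_zero] at this
    exact zero_ne_one this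
  have hden : (1 : K) + 864 * D.t ≠ 0 := fun h => by
    have := val_one_add_of_lt (A := A) (val_mul_lt_of_lt A (val_ofNat_le A 864) D.ht)
    rw [h, map_zero] at this
    exact zero_ne_one this
  have hu2 : σ ((D.C.u : K) ^ 2) = (D.C.u : K) ^ 2 := by
    have h : (D.C.u : K) ^ 2 = -(W.c₆ / (W.c₄ * (1 + 864 * D.t))) := by
      rw [← e4, ← e6, eq_neg_iff_add_eq_zero]; field_simp; ring
    rw [h, map_neg, map_div₀, map_mul, map_add, map_one, map_mul, map_ofNat, hc4, hc6, htσ]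
  have hrσ : σ D.C.r = D.C.r := by
    rw [show D.C.r = ((D.C.u : K) ^ 2 - W.b₂) / 12 by rw [eb]; ring, map_div₀, map_sub, hu2, hb2,
      map_ofNat]
  refine ⟨htσ, hrσ, ?_, ?_⟩
  · rw [show D.C.t = -(W.a₃ + D.C.r * W.a₁) / 2 by
      field_simp; linear_combination e3, map_div₀, map_neg, map_add, map_mul, map_ofNat, ha₃, ha₁,
      hrσ]
  have h1 : σ (D.C.u : K) = W.a₁ + 2 * σ D.C.s := by
    have h := congrArg σ e1
    rwa [map_add, map_mul, map_ofNat, ha₁] at h
  have hd2 : (σ (D.C.u : K) - D.C.u) * (σ (D.C.u : K) + D.C.u) = 0 := by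
    have h := hu2
    rw [map_pow] at h
    linear_combination h
  rcases mul_eq_zero.1 hd2 with h | h
  · left
    refine ⟨sub_eq_zero.1 h, ?_⟩
    rw [sub_eq_zero, h1] at h
    linear_combination (h.trans e1) / 2
  · right
    refine ⟨eq_neg_of_add_eq_zero_left h, ?_⟩
    linear_combination h / 2 - h1 / 2 + e1 / 2

lemma node_nonsingular_apply {t : K} (ht : v t < 1) (ht0 : t ≠ 0) (htσ : σ t = t)
    {V : WeierstrassCurve.Affine K} (hV : V = nodeCurve t) {x y : K} (h : V.Nonsingular x y) :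
    V.Nonsingular (σ x) (σ y) := by
  subst hV
  refine (Affine.equation_iff_nonsingular_of_Δ_ne_zero ?_).1 ?_
  · intro h0
    have := val_nodeCurve_Δ (A := A) ht
    rw [h0, map_zero, eq_comm, Valuation.zero_iff] at this
    exact ht0 this
  rw [Affine.equation_iff]
  simp only [nodeCurve_a₁, nodeCurve_a₂, nodeCurve_a₃, nodeCurve_a₄, nodeCurve_a₆]
  have e := congrArg σ (nodeCurve_eq h.1)
  rw [map_mul, map_add, map_add, map_pow, htσ] at e
  linear_combination e

variable [DecidableEq K] {p : ℕ} {q : ℕ}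

lemma node_frobenius {t : K} (ht : v t < 1) (hd : σ ∈ A.decompositionSubgroup F)
    (hfr : ∀ z : K, v z ≤ 1 → v (σ z - z ^ q) < 1) (hpu : v (p : K) = 1)
    {V : WeierstrassCurve.Affine K} (hV : V = nodeCurve t) {x y : K} {h : V.Nonsingular x y}
    {h' : V.Nonsingular (σ x) (σ y)} (hP : InE0 A (Affine.Point.some x y h))
    (htor : p • Affine.Point.some x y h = 0) (htor' : p • Affine.Point.some (σ x) (σ y) h' = 0) :
    Affine.Point.some (σ x) (σ y) h' = q • Affine.Point.some x y h := by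
  subst hV
  rw [inE0_iff_not_deep ht] at hP
  have hP' : ¬ Deep A (Affine.Point.some (σ x) (σ y) h') := by
    rw [deep_some, not_lt] at hP ⊢
    have := (val_le_val_iff hd 1 x).2 (by rwa [map_one])
    rwa [map_one, map_one] at this
  refine eq_of_fPar_congr ht hP' (not_deep_nsmul ht hP q) hpu htor'
    (by rw [smul_comm, htor, smul_zero]) ?_
  have h1 : fPar (Affine.Point.some (σ x) (σ y) h') = σ (fPar (Affine.Point.some x y h)) := by
    rw [fPar_some, fPar_some, map_div₀, map_add]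
  rw [h1, show σ (fPar (Affine.Point.some x y h)) - fPar (q • Affine.Point.some x y h)
    = (σ (fPar (Affine.Point.some x y h)) - fPar (Affine.Point.some x y h) ^ q)
      - (fPar (q • Affine.Point.some x y h) - fPar (Affine.Point.some x y h) ^ q) by ring]
  exact Valuation.map_sub_lt _ (hfr _ (val_fPar ht hP).le) (val_fPar_nsmul ht hP q)

/-- An automorphism congruent to `z ↦ z ^ q` acts on the nonsingular reduction `p`-torsion of a
curve with multiplicative reduction as `± q`. -/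
theorem some_apply_eq_of_frobenius [IsAlgClosed K] [CharZero K] {W : WeierstrassCurve K}
    (hW : IsInt A W) (hΔ0 : W.Δ ≠ 0) (hΔ : v W.Δ < 1) (hc₄ : v W.c₄ = 1)
    (hd : σ ∈ A.decompositionSubgroup F)
    (hfr : ∀ z : K, v z ≤ 1 → v (σ z - z ^ q) < 1) (ha₁ : σ W.a₁ = W.a₁) (ha₂ : σ W.a₂ = W.a₂)
    (ha₃ : σ W.a₃ = W.a₃) (ha₄ : σ W.a₄ = W.a₄) (ha₆ : σ W.a₆ = W.a₆) (hpu : v (p : K) = 1)
    {x y : K} {h : W.toAffine.Nonsingular x y} {h' : W.toAffine.Nonsingular (σ x) (σ y)}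
    (hP : InE0 A (Affine.Point.some x y h)) (htor : p • Affine.Point.some x y h = 0)
    (htor' : p • Affine.Point.some (σ x) (σ y) h' = 0) :
    Affine.Point.some (σ x) (σ y) h' = q • Affine.Point.some x y h ∨
      Affine.Point.some (σ x) (σ y) h' = -(q • Affine.Point.some x y h) := by
  obtain ⟨D, -⟩ := exists_normalData hW hΔ0 hΔ hc₄
  obtain ⟨ht, hr, hw, hus⟩ := D.decomposition_cases hd ha₁ ha₂ ha₃ ha₄ ha₆
  obtain ⟨P₀, hP₀⟩ := vcHom_surjective W D.C (Affine.Point.some x y h)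
  rcases P₀ with _ | ⟨x₀, y₀, h₀⟩
  · exact absurd hP₀.symm (Affine.Point.some_ne_zero h)
  have hxy : vcX D.C x₀ = x ∧ vcY D.C x₀ y₀ = y := by
    rw [vcHom_some] at hP₀; injection hP₀ with h1 h2; exact ⟨h1, h2⟩
  have htor0 : p • Affine.Point.some x₀ y₀ h₀ = 0 :=
    vcHom_injective W D.C (by rw [map_nsmul, hP₀, htor, map_zero])
  have hP0 : InE0 A (Affine.Point.some x₀ y₀ h₀) := by rwa [← inE0_vcHom_iff D, hP₀]
  have hCW : (D.C • W).toAffine = nodeCurve D.t := D.hC
  have h₀' := node_nonsingular_apply D.ht D.ht0 ht hCW h₀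
  have hX : vcX D.C (σ x₀) = σ x := by
    rw [← hxy.1]
    simp only [vcX, map_add, map_mul, map_pow, hr]
    rcases hus with ⟨hu, -⟩ | ⟨hu, -⟩
    · rw [hu]
    · rw [hu]; ring
  have hsign : vcHom W D.C (.some (σ x₀) (σ y₀) h₀') = Affine.Point.some (σ x) (σ y) h' ∨
      vcHom W D.C (.some (σ x₀) (σ y₀) h₀') = -Affine.Point.some (σ x) (σ y) h' := by
    rcases hus with ⟨hu, hs⟩ | ⟨hu, hs⟩
    · left
      rw [vcHom_some, Affine.Point.some.injEq]
      refine ⟨hX, ?_⟩
      rw [← hxy.2]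
      simp only [vcY, map_add, map_mul, map_pow, hu, hs, hw]
    · right
      rw [vcHom_some, Affine.Point.neg_some, Affine.Point.some.injEq]
      refine ⟨hX, ?_⟩
      have hY : σ y = vcY D.C (σ x₀) ((D.C • W).toAffine.negY (σ x₀) (σ y₀)) := by
        rw [← hxy.2, hCW, nodeCurve_negY]
        simp only [vcY, map_add, map_mul, map_pow, hu, hs, hw]
        ring
      rw [hY, ← hX, Fermat.Agent.SmallExponents.vc_negY, Affine.negY_negY]
  have htor0' : p • Affine.Point.some (σ x₀) (σ y₀) h₀' = 0 := by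
    refine vcHom_injective W D.C ?_
    rw [map_nsmul, map_zero]
    rcases hsign with e | e <;> rw [e]
    · exact htor'
    · rw [neg_nsmul, htor', neg_zero]
  have key := node_frobenius (q := q) D.ht hd hfr hpu hCW hP0 htor0 htor0'
  have hmap := congrArg (vcHom W D.C) key
  rw [map_nsmul, hP₀] at hmap
  rcases hsign with e | e <;> rw [e] at hmap
  · exact Or.inl hmap
  · exact Or.inr (neg_eq_iff_eq_neg.1 hmap)

end General

variable {W : WeierstrassCurve ℤ} {A : ValuationSubring (AlgebraicClosure ℚ)} {q : ℕ}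
  {σ : AlgebraicClosure ℚ ≃ₐ[ℚ] AlgebraicClosure ℚ}

/-- The curve over `ℚ̄` at a place of multiplicative reduction. -/
theorem qbarCurve_multiplicative (hq : q.Prime) (hA : A.LiesOverPrime q) (hΔ0 : W.Δ ≠ 0)
    (hΔ : (q : ℤ) ∣ W.Δ) (hc₄ : ¬ (q : ℤ) ∣ W.c₄) :
    (qbarCurve W).Δ ≠ 0 ∧ A.valuation (qbarCurve W).Δ < 1 ∧ A.valuation (qbarCurve W).c₄ = 1 := by
  rw [qbar_Δ, qbar_c₄]
  exact ⟨Int.cast_ne_zero.2 hΔ0, (val_intCast_lt_one_iff hq hA _).2 hΔ,
    (val_intCast_eq_one_iff hq hA _).2 hc₄⟩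

/-- A Frobenius element at a multiplicative prime `q` acts as `± q` on the points with nonsingular
reduction of order prime to `q`. -/
theorem smul_eq_or_neg_of_frobenius (hq : q.Prime) (hA : A.LiesOverPrime q) (hΔ0 : W.Δ ≠ 0)
    (hΔ : (q : ℤ) ∣ W.Δ) (hc₄ : ¬ (q : ℤ) ∣ W.c₄) (hσ : A.IsFrobeniusAt σ q) {N : ℕ}
    (hqN : ¬ q ∣ N) {P : ((W.map (Int.castRingHom ℚ))⁄(AlgebraicClosure ℚ)).Point}
    (htor : N • P = 0) (hP : InE0 A (W := qbarCurve W) P) :
    σ • P = q • P ∨ σ • P = -(q • P) := by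
  rcases P with _ | ⟨x, y, h⟩
  · left
    exact (map_zero (Affine.Point.map σ.toAlgHom)).trans (smul_zero q).symm
  obtain ⟨hd, hres⟩ := Fermat.Agent.Gal.isFrobeniusAt_iff.1 hσ
  obtain ⟨h0, hv, hc⟩ := qbarCurve_multiplicative hq hA hΔ0 hΔ hc₄
  have hNv : A.valuation (N : AlgebraicClosure ℚ) = 1 := by
    rw [← Int.cast_natCast, val_intCast_eq_one_iff hq hA, Int.natCast_dvd_natCast]; exact hqN
  rw [smul_some]
  exact some_apply_eq_of_frobenius (W := qbarCurve W) (isInt_qbarCurve A W) h0 hv hc hd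
    (fun z hz => (ValuationSubring.mem_nonunits_iff _).1 (hres z ((mem_iff A).2 hz)))
    (by rw [qbar_a₁, map_intCast]) (by rw [qbar_a₂, map_intCast]) (by rw [qbar_a₃, map_intCast])
    (by rw [qbar_a₄, map_intCast]) (by rw [qbar_a₆, map_intCast])
    hNv hP htor (smul_nsmul_eq_zero htor σ)

end Fermat.Agent.Tate
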