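import Fermat.Agent.Gal.FiniteLevel

/-!
Some inertia element at `q` moves a `p`th root of `q`. It shows that inertia acts non-trivially
when `p` does not divide the valuation of `Δ`.
-/

namespace Fermat.Agent.Tate

open scoped NumberField Pointwise
open IntermediateField

local notation "Qbar" => AlgebraicClosure ℚ

/-- For `p ≠ q`, inertia at `q` moves every `p`th root of `q`. -/
theorem exists_inertia_root_moved {A : ValuationSubring Qbar} {p q : ℕ} (hq : q.Prime)
    (hA : A.LiesOverPrime q) (hp : p.Prime) (hpq : p ≠ q) {π : Qbar} (hπ : π ^ p = (q : Qbar)) :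
    ∃ σ ∈ A.inertiaSubgroupIn ℚ, σ π ≠ π := by
  by_contra hne
  push Not at hne
  have hqp : ¬ q ∣ p := fun h => hpq ((Nat.prime_dvd_prime_iff_eq hq hp).1 h).symm
  have hπ0 : π ≠ 0 := fun h => by
    rw [h, zero_pow hp.ne_zero] at hπ
    exact hq.ne_zero (by exact_mod_cast hπ.symm)
  have hroots : ∀ (τ : Gal.AbsGal), ∀ σ ∈ A.inertiaSubgroupIn ℚ, σ (τ π) = τ π := fun τ σ hσ => by
    have hζ : (τ π / π) ^ p = 1 := by
      rw [div_pow, ← map_pow, hπ, map_natCast, div_self (by exact_mod_cast hq.ne_zero)]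
    have h1 := Gal.inertia_rootOfUnity hq hA hσ hqp hζ
    rw [map_div₀, hne σ hσ, div_left_inj' hπ0] at h1
    exact h1
  have hall : ∀ B : ValuationSubring Qbar, B.LiesOverPrime q →
      ∀ σ ∈ B.inertiaSubgroupIn ℚ, ∀ x ∈ ℚ⟮π⟯, σ x = x := by
    intro B hB σ hσ x hx
    obtain ⟨τ, hτ⟩ := Gal.exists_smul_eq hq hA hB
    have hσ' : τ⁻¹ * σ * τ ∈ A.inertiaSubgroupIn ℚ := by
      have h := Gal.conj_mem_inertia hσ τ⁻¹
      rwa [inv_inv, ← hτ, inv_smul_smul] at h
    have hfix : σ π = π := by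
      have h := hroots τ⁻¹ _ hσ'
      have hid : τ (τ⁻¹ π) = π := by rw [← AlgEquiv.mul_apply, mul_inv_cancel]; rfl
      rw [AlgEquiv.mul_apply, AlgEquiv.mul_apply, hid] at h
      exact τ⁻¹.injective h
    induction hx using adjoin_induction with
    | mem x hx => rw [Set.mem_singleton_iff] at hx; rw [hx, hfix]
    | algebraMap x => exact σ.commutes x
    | add x y _ _ hx hy => rw [map_add, hx, hy]
    | inv x _ hx => rw [map_inv₀, hx]
    | mul x y _ _ hx hy => rw [map_mul, hx, hy]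
  have : FiniteDimensional ℚ ℚ⟮π⟯ := adjoin.finiteDimensional
    (Algebra.IsAlgebraic.isAlgebraic (R := ℚ) π).isIntegral
  let N := IntermediateField.normalClosure ℚ ℚ⟮π⟯ Qbar
  have : NumberField N := @NumberField.mk _ _ inferInstance inferInstance
  have : Normal ℚ N := normalClosure.normal ℚ ℚ⟮π⟯ Qbar
  have : IsGalois ℚ N := ⟨⟩
  have hdisc := Gal.not_dvd_discr_of_inertia_fixes hq N
    (Gal.inertia_fixes_normalClosure ℚ⟮π⟯ hall)
  have hq' : Prime (q : ℤ) := Nat.prime_iff_prime_int.mp hq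
  rw [NumberField.not_dvd_discr_iff_forall_mem N (𝓞 N) hq'] at hdisc
  set P := Gal.placePrime A N
  have hqP : ((q : ℤ) : 𝓞 N) ∈ P := by
    rw [Int.cast_natCast]
    refine Gal.mem_placePrime.2 ?_
    simpa [ValuationSubring.LiesOverPrime] using hA
  have hunr := hdisc P inferInstance hqP
  have hπN : π ∈ N := (ℚ⟮π⟯).le_normalClosure (mem_adjoin_simple_self ℚ π)
  have hπint : IsIntegral ℤ (⟨π, hπN⟩ : N) := by
    refine IsIntegral.of_pow hp.pos ?_
    have h : (⟨π, hπN⟩ : N) ^ p = algebraMap ℤ N q := Subtype.ext (by simpa using hπ)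
    rw [h]
    exact isIntegral_algebraMap
  set ϖ : 𝓞 N := ⟨⟨π, hπN⟩, hπint⟩ with hϖdef
  have hϖ : ϖ ^ p = (q : 𝓞 N) := by
    apply NumberField.RingOfIntegers.coe_injective
    rw [map_pow, map_natCast]
    have hv : ((algebraMap (𝓞 N) N ϖ : N) : Qbar) = π := rfl
    exact Subtype.ext (by simpa [hv] using hπ)
  have hϖP : ϖ ∈ P := by
    refine (inferInstance : P.IsPrime).mem_of_pow_mem p ?_
    rw [hϖ]
    simpa using hqP
  have hne0 : (Ideal.span {(q : ℤ)}) ≠ ⊥ := by simpa using hq.ne_zero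
  have : P.LiesOver (Ideal.span {(q : ℤ)}) :=
    (Ideal.liesOver_span_iff (inferInstance : P.IsPrime).ne_top hq').mpr hqP
  have hone : (Ideal.span {(q : ℤ)}).ramificationIdx' P = 1 := by
    rw [Ideal.ramificationIdx'_eq_ramificationIdx (Ideal.span {(q : ℤ)}) P hne0]
    exact Ideal.ramificationIdx_eq_one P ℤ
  refine (Ideal.ramificationIdx'_ne_one_iff ?_).2 ?_ hone
  · rw [Ideal.map_span, Set.image_singleton, Ideal.span_singleton_le_iff_mem]
    simpa using hqP
  · rw [Ideal.map_span, Set.image_singleton, Ideal.span_singleton_le_iff_mem]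
    have h2 : ϖ ^ p ∈ P ^ 2 :=
      Ideal.pow_le_pow_right hp.two_le (Ideal.pow_mem_pow hϖP p)
    rw [hϖ] at h2
    simpa using h2

end Fermat.Agent.Tate
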