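import Fermat.Agent.Tate.E0Line
import Fermat.Agent.Tate.Integral
import Fermat.Agent.Tate.Ramified

/-!
The canonical line `E₀[p]` at a prime `q` of multiplicative reduction, for odd `p`. Inertia
moves every point of `E[p]` outside it when `p ≠ q` does not divide `v_q(Δ)`.
-/

namespace Fermat.Agent.Tate

open WeierstrassCurve
open scoped WeierstrassCurve.Affine
open Fermat.Agent.SmallExponents (vcX vcY vcHom vcHom_some vcHom_injective vcHom_surjective)

local notation "Qbar" => AlgebraicClosure ℚ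

variable {W : WeierstrassCurve ℤ} {A : ValuationSubring (AlgebraicClosure ℚ)} {q : ℕ}
  {σ : AlgebraicClosure ℚ ≃ₐ[ℚ] AlgebraicClosure ℚ} {p : ℕ} [Fact p.Prime]

/-- The points of `E[p]` with nonsingular reduction at a multiplicative prime. -/
noncomputable def e0Torsion (W : WeierstrassCurve ℤ) (A : ValuationSubring (AlgebraicClosure ℚ))
    (p : ℕ) [Fact p.Prime] (hΔ0 : W.Δ ≠ 0) (hΔ : A.valuation (W.Δ : Qbar) < 1)
    (hc₄ : A.valuation (W.c₄ : Qbar) = 1) :
    Submodule (ZMod p)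
      (Submodule.torsionBy ℤ ((W.map (Int.castRingHom ℚ))⁄Qbar).Point (p : ℤ)) :=
  AddSubgroup.toZModSubmodule p
    { carrier := {x | InE0 A (W := qbarCurve W) x.1}
      add_mem' := fun {a b} ha hb => by
        rw [Set.mem_ofPred_eq] at ha hb ⊢
        exact inE0_add_of_multiplicative (W := qbarCurve W) (isInt_qbarCurve A W)
          (by simpa [qbar_Δ] using hΔ0) (by rwa [qbar_Δ]) (by rwa [qbar_c₄]) ha hb
      zero_mem' := inE0_zero
      neg_mem' := fun {a} ha => by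
        rw [Set.mem_ofPred_eq] at ha ⊢
        exact inE0_neg_of_multiplicative (W := qbarCurve W) (isInt_qbarCurve A W)
          (by simpa [qbar_Δ] using hΔ0) (by rwa [qbar_Δ]) (by rwa [qbar_c₄]) ha }

lemma mem_e0Torsion {hΔ0 : W.Δ ≠ 0} {hΔ : A.valuation (W.Δ : Qbar) < 1}
    {hc₄ : A.valuation (W.c₄ : Qbar) = 1}
    {x : Submodule.torsionBy ℤ ((W.map (Int.castRingHom ℚ))⁄Qbar).Point (p : ℤ)} :
    x ∈ e0Torsion W A p hΔ0 hΔ hc₄ ↔ InE0 A (W := qbarCurve W) x.1 :=
  Iff.rfl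

/-- `E₀[p]` is a line, in every residue characteristic. -/
theorem finrank_e0Torsion (hΔ0 : W.Δ ≠ 0) (hΔ : A.valuation (W.Δ : Qbar) < 1)
    (hc₄ : A.valuation (W.c₄ : Qbar) = 1) (hp2 : p ≠ 2) :
    Module.finrank (ZMod p) (e0Torsion W A p hΔ0 hΔ hc₄) = 1 := by
  have hΔK : (qbarCurve W).Δ ≠ 0 := by simpa [qbar_Δ] using hΔ0
  have hell : (W.map (Int.castRingHom ℚ)).IsElliptic := ⟨by
    rw [map_Δ, isUnit_iff_ne_zero]; simpa using hΔ0⟩
  have hpK : (p : Qbar) ≠ 0 := Nat.cast_ne_zero.2 (Fact.out : p.Prime).ne_zero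
  have h2 := EC.finrank_torsionBy (K := Qbar) (W.map (Int.castRingHom ℚ)) p hpK
  obtain ⟨P, hP, hPd⟩ := exists_torsion_not_inE0 (p := p) (W := qbarCurve W)
    (isInt_qbarCurve A W) hΔK (by rwa [qbar_Δ]) (by rwa [qbar_c₄]) hp2
  let x₀ : Submodule.torsionBy ℤ ((W.map (Int.castRingHom ℚ))⁄Qbar).Point (p : ℤ) :=
    ⟨P, by rw [Submodule.mem_torsionBy_iff, natCast_zsmul]; exact hP⟩
  set N := e0Torsion W A p hΔ0 hΔ hc₄
  have hx₀ : x₀ ∉ N := hPd
  have hx0 : x₀ ≠ 0 := fun h => hx₀ (h ▸ N.zero_mem)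
  have hsup : N ⊔ Submodule.span (ZMod p) {x₀} = ⊤ := by
    refine eq_top_iff.2 fun z _ => ?_
    obtain ⟨k, hk⟩ := exists_inE0_sub_nsmul (p := p) (W := qbarCurve W) (isInt_qbarCurve A W) hΔK
      (by rwa [qbar_Δ]) (by rwa [qbar_c₄]) hp2 (P := P) (Q := z.1) hP (nsmul_torsionBy z) hPd
    rw [← sub_add_cancel z ((k : ZMod p) • x₀)]
    refine Submodule.add_mem_sup ?_
      (Submodule.smul_mem _ _ (Submodule.mem_span_singleton_self x₀))
    rw [Nat.cast_smul_eq_nsmul]
    exact hk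
  have hfin : Module.Finite (ZMod p)
      (Submodule.torsionBy ℤ ((W.map (Int.castRingHom ℚ))⁄Qbar).Point (p : ℤ)) :=
    Module.finite_of_finrank_pos (h2 ▸ two_pos)
  have hinf : N ⊓ Submodule.span (ZMod p) {x₀} = ⊥ := by
    rw [← disjoint_iff, Submodule.disjoint_span_singleton' hx0]
    exact hx₀
  have h := Submodule.finrank_sup_add_finrank_inf_eq N (Submodule.span (ZMod p) {x₀})
  rw [hsup, hinf, finrank_top, h2, finrank_bot, finrank_span_singleton hx0] at h
  omega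

lemma inE0_smul_of_mem_decomposition (hd : σ ∈ A.decompositionSubgroup ℚ)
    {P : ((W.map (Int.castRingHom ℚ))⁄Qbar).Point} (hP : InE0 A (W := qbarCurve W) P) :
    InE0 A (W := qbarCurve W) (σ • P) := by
  rcases P with _ | ⟨x, y, h⟩
  · exact hP
  rw [smul_some, inE0_some, qbar_a₁, qbar_a₂, qbar_a₃, qbar_a₄]
  rw [inE0_some, qbar_a₁, qbar_a₂, qbar_a₃, qbar_a₄] at hP
  rcases hP with h1 | h1 | h1
  · left
    have h2 := (val_lt_val_iff hd 1 x).2 (by rwa [map_one])
    rwa [map_one, map_one] at h2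
  · refine Or.inr (Or.inl ?_)
    have h2 := val_apply_eq_one hd h1
    simpa only [map_sub, map_add, map_mul, map_pow, map_ofNat, map_intCast] using h2
  · refine Or.inr (Or.inr ?_)
    have h2 := val_apply_eq_one hd h1
    simpa only [map_add, map_mul, map_ofNat, map_intCast] using h2

omit [Fact p.Prime] in
/-- The valuation of a nonzero integer at a place over `q` is that of `q` to its `q`-adic
exponent. -/
lemma val_intCast_eq_pow (hq : q.Prime) (hA : A.LiesOverPrime q) {N : ℤ} (hΔ0 : N ≠ 0) :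
    A.valuation (N : Qbar) = A.valuation (q : Qbar) ^ padicValInt q N := by
  have : Fact q.Prime := ⟨hq⟩
  obtain ⟨m, hm⟩ := padicValInt_dvd (p := q) N
  have hnm : ¬ (q : ℤ) ∣ m := fun ⟨m', hm'⟩ => by
    have : (q : ℤ) ^ (padicValInt q N + 1) ∣ N :=
      ⟨m', by rw [pow_succ, mul_assoc, ← hm', ← hm]⟩
    rw [padicValInt_dvd_iff] at this
    rcases this with h0 | h0
    · exact hΔ0 h0
    · omega
  conv_lhs => rw [hm]
  rw [Int.cast_mul, map_mul, (val_intCast_eq_one_iff hq hA m).2 hnm, mul_one, Int.cast_pow,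
    map_pow, Int.cast_natCast]

omit [Fact p.Prime] in
/-- Inertia moving a `p`th root `π` of `q` moves every element of the same valuation. -/
lemma false_of_fixed_val_eq (hq : q.Prime) (hA : A.LiesOverPrime q) (hp : p.Prime) (hpq : p ≠ q)
    {π w : Qbar} (hπ : π ^ p = (q : Qbar)) (hπ0 : π ≠ 0)
    (hσ : σ ∈ A.inertiaSubgroupIn ℚ) (hmove : σ π ≠ π)
    (hwπ : A.valuation w = A.valuation π) (hσw : σ w = w) : False := by
  have hvπ : A.valuation π ≠ 0 := (Valuation.ne_zero_iff _).2 hπ0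
  have hu : A.valuation (w / π) = 1 := by rw [map_div₀, hwπ, div_self hvπ]
  have hlt := val_sub_lt_one_of_mem_inertia hσ ((mem_iff A).2 hu.le)
  have hσπ0 : σ π ≠ 0 := (map_ne_zero σ).2 hπ0
  rw [map_div₀, hσw, show w / σ π - w / π = (w / π) * (π / σ π - 1) by field_simp,
    map_mul, hu, one_mul] at hlt
  set z := π / σ π
  have hz : z ^ p = 1 := by
    rw [div_pow, ← map_pow σ, hπ, map_natCast, div_self (Nat.cast_ne_zero.2 hq.ne_zero)]
  have hz1 : z ≠ 1 := fun h => hmove ((div_eq_one_iff_eq hσπ0).1 h).symm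
  have hsum : ∑ j ∈ Finset.range p, z ^ j = 0 := by
    have := geom_sum_mul z p
    rw [hz, sub_self] at this
    exact (mul_eq_zero.1 this).resolve_right (sub_ne_zero.2 hz1)
  have hzle : A.valuation z ≤ 1 := by
    rw [show z = 1 + (z - 1) by ring]
    exact Valuation.map_add_le _ (map_one _).le hlt.le
  have hpow : ∀ j, A.valuation (z ^ j - 1) < 1 := fun j => by
    induction j with
    | zero => simp
    | succ j ih =>
      rw [show z ^ (j + 1) - 1 = z * (z ^ j - 1) + (z - 1) by ring]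
      exact Valuation.map_add_lt _ (val_mul_lt_of_lt A hzle ih) hlt
  have hp1 : A.valuation (p : Qbar) < 1 := by
    have : (p : Qbar) = -∑ j ∈ Finset.range p, (z ^ j - 1) := by
      rw [Finset.sum_sub_distrib, hsum, Finset.sum_const, Finset.card_range, nsmul_one]; ring
    rw [this, Valuation.map_neg]
    exact Valuation.map_sum_lt _ one_ne_zero fun j _ => hpow j
  exact hp1.ne (val_natCast_eq_one hq hA hp hpq)

/-- Inertia moves every `p`-torsion point with singular reduction if `p ∤ v_q(Δ)`. -/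
theorem exists_inertia_smul_ne (hq : q.Prime) (hA : A.LiesOverPrime q) (hΔ0 : W.Δ ≠ 0)
    (hΔ : (q : ℤ) ∣ W.Δ) (hc₄ : ¬ (q : ℤ) ∣ W.c₄) (hp2 : p ≠ 2) (hpq : p ≠ q)
    (hn : ¬ p ∣ padicValInt q W.Δ) {P : ((W.map (Int.castRingHom ℚ))⁄Qbar).Point}
    (htor : p • P = 0) (hP : ¬ InE0 A (W := qbarCurve W) P) :
    ∃ σ ∈ A.inertiaSubgroupIn ℚ, σ • P ≠ P := by
  have hp : p.Prime := Fact.out
  by_contra hne
  push Not at hne
  rcases P with _ | ⟨x, y, h⟩
  · exact hP inE0_zero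
  have hvΔ := val_intCast_eq_pow hq hA hΔ0
  obtain ⟨D, hD⟩ := exists_normalData (W := qbarCurve W) (isInt_qbarCurve A W)
    (by simpa [qbar_Δ] using hΔ0) (by rw [qbar_Δ]; exact (val_intCast_lt_one_iff hq hA _).2 hΔ)
    (by rw [qbar_c₄]; exact (val_intCast_eq_one_iff hq hA _).2 hc₄)
  obtain ⟨P₀, hP₀⟩ := vcHom_surjective (qbarCurve W) D.C (Affine.Point.some x y h)
  rcases P₀ with _ | ⟨x₀, y₀, h₀⟩
  · exact absurd hP₀.symm (Affine.Point.some_ne_zero h)
  have hfix : ∀ τ ∈ A.inertiaSubgroupIn ℚ, τ x₀ = x₀ := fun τ hτ => by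
    obtain ⟨-, hu, hr, -, -⟩ := hD τ hτ (by rw [qbar_a₁, map_intCast])
      (by rw [qbar_a₂, map_intCast]) (by rw [qbar_a₃, map_intCast]) (by rw [qbar_a₄, map_intCast])
      (by rw [qbar_a₆, map_intCast])
    have h1 := hne τ hτ
    rw [smul_some, Affine.Point.some.injEq] at h1
    have hx : vcX D.C x₀ = x := by
      rw [vcHom_some] at hP₀; injection hP₀ with h1 h2
    have h2 := h1.1
    rw [← hx] at h2
    simp only [vcX, map_add, map_mul, map_pow, hu, hr] at h2
    exact mul_left_cancel₀ (pow_ne_zero 2 D.C.u.ne_zero) (add_right_cancel h2)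
  have hint : IsInt A (D.C • qbarCurve W) := by rw [D.hC]; exact isInt_nodeCurve D.ht
  have hd : ¬ InE0 A (Affine.Point.some x₀ y₀ h₀) := by rwa [← inE0_vcHom_iff D, hP₀]
  have ht0 : p • Affine.Point.some x₀ y₀ h₀ = 0 := by
    refine vcHom_injective (qbarCurve W) D.C ?_
    rw [map_nsmul, hP₀, map_zero]
    exact htor
  have hCW : (D.C • qbarCurve W).toAffine = nodeCurve D.t := D.hC
  obtain ⟨i, hi, hi2, hx1⟩ : ∃ i : ℕ, A.valuation x₀ ^ p = A.valuation D.t ^ i ∧
      A.valuation D.t < A.valuation x₀ ^ 2 ∧ A.valuation x₀ < 1 := by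
    clear hfix hP₀
    revert h₀
    rw [hCW]
    intro h₀ hd ht0
    rw [inE0_iff_not_deep D.ht, deep_some, not_not] at hd
    obtain ⟨i, hi, hi2, -⟩ := exists_pow_val_eq D.ht D.ht0 hp2 hd ht0
    exact ⟨i, hi, hi2, hd⟩
  set T := A.valuation D.t with hT
  have hTpos : 0 < T := zero_lt_iff.2 ((Valuation.ne_zero_iff _).2 D.ht0)
  have hxpos : A.valuation x₀ ≠ 0 := fun h0 => by
    rw [h0, zero_pow two_ne_zero] at hi2; exact not_lt_zero hi2
  have hi0 : 0 < i := Nat.pos_of_ne_zero fun h0 => by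
    rw [h0, pow_zero] at hi
    exact (pow_lt_one₀ zero_le hx1 hp.ne_zero).ne hi
  have h2i : 2 * i < p := by
    by_contra hle
    rw [not_lt] at hle
    have h1 : T ^ p < (A.valuation x₀ ^ 2) ^ p := pow_lt_pow_left₀ hi2 zero_le hp.ne_zero
    rw [← pow_mul, mul_comm, pow_mul, hi, ← pow_mul, mul_comm] at h1
    exact absurd h1 (not_lt.2 (pow_le_pow_of_le_one zero_le D.ht.le hle))
  have hTq : T = A.valuation (q : Qbar) ^ padicValInt q W.Δ := by rw [hT, D.hΔ, qbar_Δ, hvΔ]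
  have hcop : Nat.Coprime (padicValInt q W.Δ * i) p := by
    refine ((Nat.Prime.coprime_iff_not_dvd hp).2 fun hdvd => ?_).symm
    rcases hp.dvd_mul.1 hdvd with h1 | h1
    · exact hn h1
    · exact absurd (Nat.le_of_dvd hi0 h1) (by omega)
  obtain ⟨b, -, hb⟩ := Nat.exists_mul_mod_eq_one_of_coprime hcop hp.one_lt
  obtain ⟨π, hπ⟩ := IsAlgClosed.exists_pow_nat_eq (q : Qbar) hp.pos
  have hπ0 : π ≠ 0 := fun h => by
    rw [h, zero_pow hp.ne_zero] at hπ
    exact hq.ne_zero (by exact_mod_cast hπ.symm)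
  obtain ⟨σ, hσ, hmove⟩ := exists_inertia_root_moved hq hA hp hpq hπ
  set c := padicValInt q W.Δ * i * b / p with hc
  set w := x₀ ^ b / (q : Qbar) ^ c with hw
  have hq0 : A.valuation (q : Qbar) ≠ 0 :=
    (Valuation.ne_zero_iff _).2 (Nat.cast_ne_zero.2 hq.ne_zero)
  have hwπ : A.valuation w = A.valuation π := by
    refine pow_left_inj_val A hp.ne_zero ?_
    rw [← map_pow _ π, hπ, hw, map_div₀, div_pow, map_pow, map_pow, ← pow_mul, mul_comm b, pow_mul,
      hi, hTq, ← pow_mul, ← pow_mul, ← pow_mul,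
      div_eq_iff (pow_ne_zero _ hq0), ← pow_succ']
    congr 1
    have := Nat.mod_add_div (padicValInt q W.Δ * i * b) p
    rw [hb, ← hc] at this
    rw [← mul_assoc, ← this]
    ring
  exact false_of_fixed_val_eq hq hA hp hpq hπ hπ0 hσ hmove hwπ
    (by rw [hw, map_div₀, map_pow, map_pow, hfix σ hσ, map_natCast])

end Fermat.Agent.Tate
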