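import Fermat.Agent.Tate.Deep
import Fermat.Agent.Tate.Main

/-!
Multiplicative reduction: the points with nonsingular reduction form a subgroup, meeting `E[p]` in
a proper subgroup with cyclic quotient. This is the canonical line of the multiplicative
reduction.
-/

namespace Fermat.Agent.Tate

open WeierstrassCurve
open Fermat.Agent.SmallExponents (vcHom vcHom_injective vcHom_surjective)

variable {K : Type*} [Field K] [DecidableEq K] {A : ValuationSubring K}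

local notation "v" => A.valuation

lemma node_facts {t : K} (ht : v t < 1) {V : WeierstrassCurve.Affine K} (hV : V = nodeCurve t) :
    (∀ P Q : V.Point, InE0 A P → InE0 A Q → InE0 A (P + Q)) ∧
    (∀ P : V.Point, InE0 A P → InE0 A (-P)) := by
  subst hV
  refine ⟨fun P Q hP hQ => ?_, fun P hP => ?_⟩
  · rw [inE0_iff_not_deep ht] at *; exact not_deep_add ht hP hQ
  · rw [inE0_iff_not_deep ht] at *; rwa [deep_neg_iff]

variable [IsAlgClosed K] {p : ℕ} [Fact p.Prime]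

lemma node_torsion_facts {t : K} (ht : v t < 1) (ht0 : t ≠ 0) (hp2 : p ≠ 2)
    {V : WeierstrassCurve.Affine K} (hV : V = nodeCurve t) :
    (∃ P : V.Point, p • P = 0 ∧ ¬ InE0 A P) ∧
    (∀ P Q : V.Point, p • P = 0 → p • Q = 0 → ¬ InE0 A P → ∃ k : ℕ, InE0 A (Q - k • P)) := by
  subst hV
  have hΔ : (nodeCurve t).Δ ≠ 0 := fun h => by
    have := val_nodeCurve_Δ (A := A) ht
    rw [h, map_zero, eq_comm, Valuation.zero_iff] at this; exact ht0 this
  refine ⟨?_, fun P Q hP hQ hPd => ?_⟩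
  · obtain ⟨P, hPd, hP⟩ := exists_deep_torsion (A := A) (p := p) ht hp2 hΔ
    exact ⟨P, hP, by rwa [inE0_iff_not_deep ht, not_not]⟩
  · rw [inE0_iff_not_deep ht, not_not] at hPd
    obtain ⟨k, hk⟩ := exists_not_deep_sub_nsmul ht ht0 hp2 hPd hP hQ
    exact ⟨k, (inE0_iff_not_deep ht _).2 hk⟩

variable [CharZero K] {W : WeierstrassCurve K}

omit [IsAlgClosed K] [CharZero K] in
lemma inE0_vcHom_iff (D : NormalData A W) (P : (D.C • W).toAffine.Point) :
    InE0 A (vcHom W D.C P) ↔ InE0 A P :=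
  inE0_vc_iff D.hu D.hr D.hs (by rw [D.hC]; exact isInt_nodeCurve D.ht) P

/-- Nonsingular reduction is closed under addition. -/
theorem inE0_add_of_multiplicative (hW : IsInt A W) (hΔ0 : W.Δ ≠ 0) (hΔ : v W.Δ < 1)
    (hc₄ : v W.c₄ = 1) {P Q : W.toAffine.Point} (hP : InE0 A P) (hQ : InE0 A Q) :
    InE0 A (P + Q) := by
  obtain ⟨D, -⟩ := exists_normalData hW hΔ0 hΔ hc₄
  obtain ⟨P, rfl⟩ := vcHom_surjective W D.C P
  obtain ⟨Q, rfl⟩ := vcHom_surjective W D.C Q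
  rw [← map_add]
  rw [inE0_vcHom_iff] at *
  exact (node_facts D.ht D.hC).1 P Q hP hQ

theorem inE0_neg_of_multiplicative (hW : IsInt A W) (hΔ0 : W.Δ ≠ 0) (hΔ : v W.Δ < 1)
    (hc₄ : v W.c₄ = 1) {P : W.toAffine.Point} (hP : InE0 A P) : InE0 A (-P) := by
  obtain ⟨D, -⟩ := exists_normalData hW hΔ0 hΔ hc₄
  obtain ⟨P, rfl⟩ := vcHom_surjective W D.C P
  rw [← map_neg]
  rw [inE0_vcHom_iff] at *
  exact (node_facts D.ht D.hC).2 P hP

/-- Some `p`-torsion point has singular reduction. -/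
theorem exists_torsion_not_inE0 (hW : IsInt A W) (hΔ0 : W.Δ ≠ 0) (hΔ : v W.Δ < 1)
    (hc₄ : v W.c₄ = 1) (hp2 : p ≠ 2) :
    ∃ P : W.toAffine.Point, p • P = 0 ∧ ¬ InE0 A P := by
  obtain ⟨D, -⟩ := exists_normalData hW hΔ0 hΔ hc₄
  obtain ⟨P, hP, hPd⟩ := (node_torsion_facts (p := p) D.ht D.ht0 hp2 D.hC).1
  exact ⟨vcHom W D.C P, by rw [← map_nsmul, hP, map_zero], by rwa [inE0_vcHom_iff]⟩

/-- `E[p]` modulo the nonsingular reduction points is cyclic. -/
theorem exists_inE0_sub_nsmul (hW : IsInt A W) (hΔ0 : W.Δ ≠ 0) (hΔ : v W.Δ < 1)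
    (hc₄ : v W.c₄ = 1) (hp2 : p ≠ 2) {P Q : W.toAffine.Point} (hP : p • P = 0) (hQ : p • Q = 0)
    (hPd : ¬ InE0 A P) : ∃ k : ℕ, InE0 A (Q - k • P) := by
  obtain ⟨D, -⟩ := exists_normalData hW hΔ0 hΔ hc₄
  obtain ⟨P, rfl⟩ := vcHom_surjective W D.C P
  obtain ⟨Q, rfl⟩ := vcHom_surjective W D.C Q
  rw [← map_nsmul] at hP hQ
  rw [← map_zero (vcHom W D.C)] at hP hQ
  rw [inE0_vcHom_iff] at hPd
  obtain ⟨k, hk⟩ := (node_torsion_facts (p := p) D.ht D.ht0 hp2 D.hC).2 P Q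
    (vcHom_injective W D.C hP) (vcHom_injective W D.C hQ) hPd
  exact ⟨k, by rwa [← map_nsmul, ← map_sub, inE0_vcHom_iff]⟩

end Fermat.Agent.Tate
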