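import Fermat.Agent.Tate.Formal

/-!
Points with nonsingular reduction: inertia fixes those of odd order invertible in the valuation
ring. This is the unramifiedness of torsion with nonsingular reduction.
-/

namespace Fermat.Agent.Tate

open WeierstrassCurve

variable {K : Type*} [Field K] {A : ValuationSubring K} {W : WeierstrassCurve.Affine K}

local notation "v" => A.valuation

variable (A) in
/-- `P` has nonsingular reduction. -/
def InE0 (P : W.Point) : Prop :=
  ∀ (x y : K) (h : W.Nonsingular x y), P = Affine.Point.some x y h →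
    1 < A.valuation x ∨
      A.valuation (W.a₁ * y - (3 * x ^ 2 + 2 * W.a₂ * x + W.a₄)) = 1 ∨
      A.valuation (2 * y + W.a₁ * x + W.a₃) = 1

lemma inE0_zero : InE0 A (0 : W.Point) :=
  fun _ _ _ h => absurd h.symm (Affine.Point.some_ne_zero _)

lemma inE0_some {x y : K} {h : W.Nonsingular x y} :
    InE0 A (Affine.Point.some x y h) ↔ (1 < v x ∨
      v (W.a₁ * y - (3 * x ^ 2 + 2 * W.a₂ * x + W.a₄)) = 1 ∨ v (2 * y + W.a₁ * x + W.a₃) = 1) :=
  ⟨fun H => H x y h rfl, fun H _ _ _ he => by cases he; exact H⟩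

lemma val_polyY_le_one (hW : IsInt A W) {x y : K} (hx : v x ≤ 1) (hy : v y ≤ 1) :
    v (2 * y + W.a₁ * x + W.a₃) ≤ 1 :=
  Valuation.map_add_le _ (Valuation.map_add_le _ (val_mul_le_of_le A (val_ofNat_le A 2) hy)
    (val_mul_le_of_le A hW.h₁ hx)) hW.h₃

lemma val_polyX_le_one (hW : IsInt A W) {x y : K} (hx : v x ≤ 1) (hy : v y ≤ 1) :
    v (W.a₁ * y - (3 * x ^ 2 + 2 * W.a₂ * x + W.a₄)) ≤ 1 := by
  refine Valuation.map_sub_le _ (val_mul_le_of_le A hW.h₁ hy) (Valuation.map_add_le _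
    (Valuation.map_add_le _ (val_mul_le_of_le A (val_ofNat_le A 3) ?_)
      (val_mul_le_of_le A ?_ hx)) hW.h₄)
  · rw [map_pow]; exact pow_le_one' hx 2
  · exact val_mul_le_of_le A (val_ofNat_le A 2) hW.h₂

/-- The abscissa of the sum is non-integral when the slope is. -/
lemma one_lt_val_of_slope (hW : IsInt A W) {x₁ x₂ x₃ y₁ y₂ y₃ l m : K}
    (hc : IsChord W x₁ x₂ x₃ y₁ y₂ y₃ l m) (h₁ : v x₁ ≤ 1) (h₂ : v x₂ ≤ 1) (hl : 1 < v l) :
    1 < v x₃ := by
  by_contra h₃
  rw [not_lt] at h₃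
  have h := chord_slope_bound hW hc le_rfl h₁ h₂ h₃
  rw [max_eq_right hl.le] at h
  exact absurd h (not_le.2 (one_lt_pow₀ hl two_ne_zero))

variable [DecidableEq K]

/-- Two points with the same reduction, which is not of order two, differ by an element of `E₁`. -/
theorem inE1_sub_of_congr (hW : IsInt A W) {x₁ x₂ y₁ y₂ : K} {h₁ : W.Nonsingular x₁ y₁}
    {h₂ : W.Nonsingular x₂ y₂} (hx₁ : v x₁ ≤ 1) (hx₂ : v x₂ ≤ 1)
    (hx : v (x₂ - x₁) < 1) (hy : v (y₂ - y₁) < 1)
    (hu : v (2 * y₁ + W.a₁ * x₁ + W.a₃) = 1) :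
    InE1 A (Affine.Point.some x₁ y₁ h₁ - Affine.Point.some x₂ y₂ h₂) := by
  rw [sub_eq_add_neg, Affine.Point.neg_some]
  rcases add_cases h₁ ((Affine.nonsingular_neg ..).2 h₂) with
    ⟨-, -, hs⟩ | ⟨x₃, y₃, l, m, h₃, hne, hl, heq, hc, hs⟩
  · rw [hs]; exact inE1_zero
  rw [hs, inE1_some]
  refine one_lt_val_of_slope hW hc hx₁ hx₂ ?_
  have hnum : v (y₁ - W.negY x₂ y₂) = 1 := by
    rw [show y₁ - W.negY x₂ y₂ = (2 * y₁ + W.a₁ * x₁ + W.a₃)
      + ((y₂ - y₁) + W.a₁ * (x₂ - x₁)) by rw [Affine.negY]; ring,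
      Valuation.map_add_eq_of_lt_left _ ?_, hu]
    rw [hu]; exact Valuation.map_add_lt _ hy (val_mul_lt_of_lt A hW.h₁ hx)
  rcases eq_or_ne x₁ x₂ with he | hne'
  · exfalso
    have h := Affine.Y_eq_of_Y_ne h₁.1 ((Affine.equation_neg ..).2 h₂.1) he
      (fun h => hne ⟨he, h⟩)
    rw [h, sub_self, map_zero] at hnum
    exact zero_ne_one hnum
  rw [hl, Affine.slope_of_X_ne hne', map_div₀, hnum,
    one_lt_div₀ (zero_lt_iff.2 ((Valuation.ne_zero_iff _).2 (sub_ne_zero.2 hne'))),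
    show x₁ - x₂ = -(x₂ - x₁) by ring, Valuation.map_neg]
  exact hx

/-- A point whose reduction is nonsingular of order two doubles into `E₁`. -/
theorem inE1_add_self_of_polyY (hW : IsInt A W) {x y : K} {h : W.Nonsingular x y} (hx : v x ≤ 1)
    (hX : v (W.a₁ * y - (3 * x ^ 2 + 2 * W.a₂ * x + W.a₄)) = 1)
    (hY : v (2 * y + W.a₁ * x + W.a₃) < 1) :
    InE1 A (Affine.Point.some x y h + Affine.Point.some x y h) := by
  rcases add_cases h h with ⟨-, -, hs⟩ | ⟨x₃, y₃, l, m, h₃, hne, hl, heq, hc, hs⟩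
  · rw [hs]; exact inE1_zero
  rw [hs, inE1_some]
  refine one_lt_val_of_slope hW hc hx hx ?_
  have hy : y ≠ W.negY x y := fun h => hne ⟨rfl, h⟩
  have hden : y - W.negY x y = 2 * y + W.a₁ * x + W.a₃ := by rw [Affine.negY]; ring
  rw [hl, Affine.slope_of_Y_ne rfl hy, map_div₀, ← Valuation.map_neg, neg_sub, hX,
    one_lt_div₀ (zero_lt_iff.2 ((Valuation.ne_zero_iff _).2 (sub_ne_zero.2 hy))), hden]
  exact hY

/-- Inertia fixes the points with nonsingular reduction of odd order invertible in `A`. -/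
theorem fixed_of_inE0 (hW : IsInt A W) {F : Type*} [Field F] [Algebra F K] {σ : K ≃ₐ[F] K}
    (hσ : σ ∈ A.inertiaSubgroupIn F) {x y : K} {h : W.Nonsingular x y}
    {h' : W.Nonsingular (σ x) (σ y)} (hP : InE0 A (Affine.Point.some x y h)) {n : ℕ}
    (hn : v (n : K) = 1) (hodd : Odd n) (htor : n • Affine.Point.some x y h = 0)
    (htor' : n • Affine.Point.some (σ x) (σ y) h' = 0) :
    σ x = x ∧ σ y = y := by
  rw [inE0_some] at hP
  rcases lt_or_ge 1 (v x) with hx | hx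
  · exact absurd (eq_zero_of_inE1_of_nsmul hW (inE1_some.2 hx) hn htor)
      (Affine.Point.some_ne_zero _)
  have hy := val_y_le_one hW h.1 hx
  have hd := mem_decomposition_of_mem_inertia hσ
  have hxd := val_sub_lt_one_of_mem_inertia hσ ((mem_iff A).2 hx)
  have hyd := val_sub_lt_one_of_mem_inertia hσ ((mem_iff A).2 hy)
  rcases (val_polyY_le_one hW hx hy).lt_or_eq with hu | hu
  · exfalso
    have hX : v (W.a₁ * y - (3 * x ^ 2 + 2 * W.a₂ * x + W.a₄)) = 1 := by
      rcases hP with h0 | h0 | h0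
      · exact absurd h0 (not_lt.2 hx)
      · exact h0
      · exact absurd h0 hu.ne
    have h2 := inE1_add_self_of_polyY hW (h := h) hx hX hu
    have h2t : n • (Affine.Point.some x y h + Affine.Point.some x y h) = 0 := by
      rw [nsmul_add, htor, add_zero]
    have h20 := eq_zero_of_inE1_of_nsmul hW h2 hn h2t
    obtain ⟨k, rfl⟩ := hodd
    rw [add_smul, mul_smul, smul_comm, two_nsmul, h20, smul_zero, zero_add, one_smul] at htor
    exact Affine.Point.some_ne_zero _ htor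
  · have hd1 := inE1_sub_of_congr hW (h₁ := h) (h₂ := h') hx (val_le_one_apply hd hx) hxd hyd hu
    have h0 := eq_zero_of_inE1_of_nsmul hW hd1 hn (by rw [nsmul_sub, htor, htor', sub_zero])
    rw [sub_eq_zero, Affine.Point.some.injEq] at h0
    exact ⟨h0.1.symm, h0.2.symm⟩

end Fermat.Agent.Tate
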