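import Mathlib.FieldTheory.IsAlgClosed.Basic
import Fermat.Agent.EC.TorsionCard
import Fermat.Agent.EC.XMul
import Fermat.Agent.Tate.Node

/-!
For odd `p` a `p`-torsion point reducing to the node exists, in every residue characteristic. So
the torsion has a point outside the subgroup of nonsingular reduction.
-/

namespace Fermat.Agent.Tate

open WeierstrassCurve Polynomial

variable {K : Type*} [Field K] {A : ValuationSubring K}

local notation "v" => A.valuation

lemma val_coeff_prod_le {s : Multiset K} (hs : ∀ r ∈ s, 1 ≤ v r) (i : ℕ) :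
    v ((s.map fun r => X - C r).prod.coeff i) ≤ (s.map fun r => v r).prod := by
  induction s using Multiset.induction_on generalizing i with
  | empty => simp [coeff_one]; split_ifs <;> simp
  | cons r s ih =>
    have hr := hs r (Multiset.mem_cons_self _ _)
    have ih' := ih fun x hx => hs x (Multiset.mem_cons_of_mem hx)
    rw [Multiset.map_cons, Multiset.prod_cons, Multiset.map_cons, Multiset.prod_cons, sub_mul,
      coeff_sub, coeff_C_mul]
    refine Valuation.map_sub_le _ ?_ (by rw [map_mul]; exact mul_le_mul' le_rfl (ih' i))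
    rcases i with _ | i
    · simp
    · rw [coeff_X_mul]
      exact (ih' i).trans (le_mul_of_one_le_left zero_le hr)

/-- An integral polynomial whose reduction is nonzero and vanishes at `0` has a root of positive
valuation. -/
lemma exists_root_lt_one [IsAlgClosed K] {f : A[X]} (hf : f.map (IsLocalRing.residue A) ≠ 0)
    (h0 : IsLocalRing.residue A (f.coeff 0) = 0) :
    ∃ r : K, (f.map A.subtype).eval r = 0 ∧ v r < 1 := by
  set g := f.map A.subtype with hg
  have hg0 : g ≠ 0 := by
    rw [hg, Ne, Polynomial.map_eq_zero_iff A.subtype_injective]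
    exact fun h => hf (by rw [h, Polynomial.map_zero])
  by_contra hne
  push Not at hne
  have hs : ∀ r ∈ g.roots, 1 ≤ v r := fun r hr => hne r (isRoot_of_mem_roots hr)
  have hprod := (IsAlgClosed.splits g).eq_prod_roots
  have hv0 : v (g.coeff 0) = v g.leadingCoeff * (g.roots.map fun r => v r).prod := by
    rw [coeff_zero_eq_eval_zero]
    conv_lhs => rw [hprod]
    rw [eval_mul, eval_C, eval_multiset_prod, map_mul, map_multiset_prod, Multiset.map_map,
      Multiset.map_map]
    congr 2
    refine Multiset.map_congr rfl fun r _ => ?_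
    simp
  have hlt : v g.leadingCoeff * (g.roots.map fun r => v r).prod < 1 := by
    rw [← hv0, hg, coeff_map]
    exact (ValuationSubring.valuation_lt_one_iff A _).1 ((IsLocalRing.residue_eq_zero_iff _).1 h0)
  refine hf (Polynomial.ext fun i => ?_)
  rw [coeff_map, coeff_zero, IsLocalRing.residue_eq_zero_iff, ValuationSubring.valuation_lt_one_iff,
    ← ValuationSubring.subtype_apply, ← coeff_map, ← hg]
  refine lt_of_le_of_lt ?_ hlt
  conv_lhs => rw [hprod]
  rw [coeff_C_mul, map_mul]
  exact mul_le_mul' le_rfl (val_coeff_prod_le hs i)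

/-- For `n ≥ 2` the multiplication polynomials of the nodal cubic vanish at the node. -/
lemma xMul_eval_zero_node {R : Type*} [CommRing R] {n : ℕ} (hn : 2 ≤ n) :
    ((EC.num (⟨1, 0, 0, 0, 0⟩ : WeierstrassCurve R) n).eval 0 = 0) ∧
      (EC.den (⟨1, 0, 0, 0, 0⟩ : WeierstrassCurve R) n).eval 0 = 0 := by
  revert hn
  induction n using EC.ladderInduction with
  | h0 => intro h; omega
  | h1 => intro h; omega
  | heven m hm ih =>
    intro _
    have hN : (EC.num (⟨1, 0, 0, 0, 0⟩ : WeierstrassCurve R) m).eval 0 = 0 := by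
      rcases Nat.eq_or_lt_of_le hm with h1 | h1
      · rw [← h1]; simp
      · exact (ih h1).1
    simp only [EC.num, EC.den, EC.xMul_two_mul, EC.dupPair] at hN ⊢
    simp [b₂, b₄, b₆, b₈, hN]
  | hodd m hm ih ih' =>
    intro _
    obtain ⟨hN', hD'⟩ := ih' (by omega)
    simp only [EC.num, EC.den, EC.xMul_two_mul_add_one, EC.diffPair] at hN' hD' ⊢
    simp [b₂, b₄, b₆, hN', hD']

/-- The denominator of multiplication by `p` on the nodal cubic is not the zero polynomial. -/
lemma den_node_ne_zero {k : Type*} [Field k] {p : ℕ} (hp : p.Prime) (hp2 : p ≠ 2) :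
    EC.den (⟨1, 0, 0, 0, 0⟩ : WeierstrassCurve k) p ≠ 0 := by
  classical
  by_cases hpk : (p : k) = 0
  swap
  · exact EC.den_ne_zero _ hpk
  intro h0
  obtain ⟨m, hm⟩ := hp.odd_of_ne_two hp2
  have h2 : (2 : k) ≠ 0 := by
    intro h2
    rw [hm] at hpk
    push_cast at hpk
    rw [h2, zero_mul, zero_add] at hpk
    exact one_ne_zero hpk
  have h4 : (4 : k) ≠ 0 := by
    rw [show (4 : k) = 2 * 2 by norm_num]; exact mul_ne_zero h2 h2
  have h8 : (8 : k) ≠ 0 := by
    rw [show (8 : k) = 2 * 4 by norm_num]; exact mul_ne_zero h2 h4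
  have h16 : (16 : k) ≠ 0 := by
    rw [show (16 : k) = 4 * 4 by norm_num]; exact mul_ne_zero h4 h4
  set V : WeierstrassCurve.Affine k := ⟨1, 0, 0, 0, 0⟩ with hV
  have hns : V.Nonsingular (-(1 / 4)) (1 / 8) := by
    rw [Affine.nonsingular_iff', Affine.equation_iff]
    simp only [hV]
    refine ⟨by field_simp; ring, Or.inl ?_⟩
    rw [show (1 : k) * (1 / 8) - (3 * (-(1 / 4)) ^ 2 + 2 * 0 * (-(1 / 4)) + 0) = -1 / 16 by
      field_simp; ring]
    exact div_ne_zero (neg_ne_zero.2 one_ne_zero) h16
  have h2P : Affine.Point.some _ _ hns + Affine.Point.some _ _ hns = 0 := by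
    refine Affine.Point.add_self_of_Y_eq ?_
    simp only [Affine.negY, hV]
    field_simp
    ring
  have hpP := (EC.nsmul_eq_zero_iff hns p).2 (by rw [h0, eval_zero])
  rw [hm, add_smul, mul_smul, one_smul, smul_comm, two_nsmul, h2P, smul_zero, zero_add] at hpP
  exact Affine.Point.some_ne_zero hns hpP

variable [IsAlgClosed K] [DecidableEq K] {t : K} {p : ℕ} [Fact p.Prime]

/-- There is a `p`-torsion point reducing to the node. -/
theorem exists_deep_torsion (ht : v t < 1) (hp2 : p ≠ 2) (hΔ : (nodeCurve t).Δ ≠ 0) :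
    ∃ P : (nodeCurve t).Point, Deep A P ∧ p • P = 0 := by
  classical
  have hp : p.Prime := Fact.out
  let W₀ : WeierstrassCurve A := ⟨1, 0, 0, 0, ⟨t, (mem_iff A).2 ht.le⟩⟩
  let k := IsLocalRing.ResidueField A
  have hmap : W₀.map A.subtype = nodeCurve t := by
    ext <;> simp [W₀, nodeCurve]
  have ht0 : IsLocalRing.residue A ⟨t, (mem_iff A).2 ht.le⟩ = 0 := by
    rw [IsLocalRing.residue_eq_zero_iff, ValuationSubring.valuation_lt_one_iff]; exact ht
  have hres : W₀.map (IsLocalRing.residue A) = (⟨1, 0, 0, 0, 0⟩ : WeierstrassCurve k) := by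
    ext <;> simp [W₀, ht0, k]
  set f := EC.den W₀ p with hf
  have hf0 : IsLocalRing.residue A (f.coeff 0) = 0 := by
    rw [← coeff_map, ← EC.den_map, hres, coeff_zero_eq_eval_zero]
    exact (xMul_eval_zero_node hp.two_le).2
  have hfne : f.map (IsLocalRing.residue A) ≠ 0 := by
    rw [← EC.den_map, hres]
    exact den_node_ne_zero hp hp2
  obtain ⟨r, hr, hr1⟩ := exists_root_lt_one hfne hf0
  rw [hf, ← EC.den_map, hmap] at hr
  have : WeierstrassCurve.IsElliptic (nodeCurve t) := ⟨isUnit_iff_ne_zero.2 hΔ⟩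
  obtain ⟨y, hns⟩ := EC.exists_nonsingular (nodeCurve t) r
  exact ⟨_, deep_some.2 hr1, (EC.nsmul_eq_zero_iff hns p).2 hr⟩

end Fermat.Agent.Tate
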