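import Mathlib.AlgebraicGeometry.EllipticCurve.Affine.Point

/-!
Exact identities for the three intersection points of a line with a Weierstrass cubic. They
control the valuations of the coordinates of a sum of points.
-/

namespace Fermat.Agent.Tate

open Polynomial WeierstrassCurve

variable {K : Type*} [Field K] [DecidableEq K] {W : WeierstrassCurve.Affine K}

lemma slope_mul_sub {x₁ x₂ y₁ y₂ : K} (h₁ : W.Equation x₁ y₁) (h₂ : W.Equation x₂ y₂)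
    (hxy : ¬(x₁ = x₂ ∧ y₁ = W.negY x₂ y₂)) :
    y₁ - y₂ = W.slope x₁ x₂ y₁ y₂ * (x₁ - x₂) := by
  by_cases hx : x₁ = x₂
  · have hy := Affine.Y_eq_of_Y_ne h₁ h₂ hx fun h => hxy ⟨hx, h⟩
    rw [hx, hy, sub_self, sub_self, mul_zero]
  · rw [Affine.slope_of_X_ne hx, div_mul_cancel₀ _ (sub_ne_zero.2 hx)]

/-- The data of a chord: slope `l`, intercept `m`, and the third abscissa `x₃`. -/
structure IsChord (W : WeierstrassCurve.Affine K) (x₁ x₂ x₃ y₁ y₂ y₃ l m : K) : Prop where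
  eq1 : y₁ = l * x₁ + m
  eq2 : y₂ = l * x₂ + m
  eq3 : y₃ = l * x₃ + m
  e1 : x₁ + x₂ + x₃ = l ^ 2 + W.a₁ * l - W.a₂
  e2 : x₁ * x₂ + x₃ * (x₁ + x₂) = W.a₄ - 2 * l * m - W.a₃ * l - W.a₁ * m
  e3 : x₁ * x₂ * x₃ = m ^ 2 + W.a₃ * m - W.a₆

/-- The line through two points meets the cubic in the chord data. -/
theorem isChord_slope {x₁ x₂ y₁ y₂ : K} (h₁ : W.Equation x₁ y₁) (h₂ : W.Equation x₂ y₂)
    (hxy : ¬(x₁ = x₂ ∧ y₁ = W.negY x₂ y₂)) :
    IsChord W x₁ x₂ (W.addX x₁ x₂ (W.slope x₁ x₂ y₁ y₂)) y₁ y₂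
      (W.negAddY x₁ x₂ y₁ (W.slope x₁ x₂ y₁ y₂)) (W.slope x₁ x₂ y₁ y₂)
      (y₁ - W.slope x₁ x₂ y₁ y₂ * x₁) := by
  have hs := slope_mul_sub h₁ h₂ hxy
  have hp := Affine.addPolynomial_slope h₁ h₂ hxy
  have h0 := congrArg (Polynomial.eval 0) hp
  have h1 := congrArg (Polynomial.eval 1) hp
  simp only [Affine.addPolynomial, Affine.linePolynomial, Affine.polynomial, Affine.addX] at h0 h1
  simp only [eval_pow, eval_mul, eval_add, eval_sub, eval_neg, eval_C, eval_X] at h0 h1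
  set l := W.slope x₁ x₂ y₁ y₂ with hl
  simp only [Affine.addX, Affine.negAddY]
  refine ⟨by ring, by linear_combination -hs, by ring, by ring, ?_, ?_⟩
  · linear_combination h1 - h0
  · linear_combination -h0

/-- A sum of two affine points is `0` or is read off from a chord. -/
theorem add_cases {x₁ x₂ y₁ y₂ : K} (h₁ : W.Nonsingular x₁ y₁) (h₂ : W.Nonsingular x₂ y₂) :
    (x₁ = x₂ ∧ y₁ = W.negY x₂ y₂ ∧ Affine.Point.some x₁ y₁ h₁ + Affine.Point.some x₂ y₂ h₂ = 0) ∨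
      ∃ (x₃ y₃ l m : K) (h₃ : W.Nonsingular x₃ (W.negY x₃ y₃)),
        ¬(x₁ = x₂ ∧ y₁ = W.negY x₂ y₂) ∧ l = W.slope x₁ x₂ y₁ y₂ ∧
        W.Equation x₃ y₃ ∧ IsChord W x₁ x₂ x₃ y₁ y₂ y₃ l m ∧
        Affine.Point.some x₁ y₁ h₁ + Affine.Point.some x₂ y₂ h₂ =
          Affine.Point.some x₃ (W.negY x₃ y₃) h₃ := by
  by_cases hxy : x₁ = x₂ ∧ y₁ = W.negY x₂ y₂
  · exact Or.inl ⟨hxy.1, hxy.2, Affine.Point.add_of_Y_eq hxy.1 hxy.2⟩
  · exact Or.inr ⟨_, _, _, _, Affine.nonsingular_add h₁ h₂ hxy, hxy, rfl,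
      Affine.equation_negAdd h₁.1 h₂.1 hxy, isChord_slope h₁.1 h₂.1 hxy,
      Affine.Point.add_some hxy⟩

end Fermat.Agent.Tate
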