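import Mathlib.RingTheory.Valuation.LocalSubring
import Mathlib.RingTheory.Valuation.RamificationGroup
import Fermat.Prelude.Def_FLTPrelim_Ramification

/-!
Elementary facts about the valuation of a valuation subring and about automorphisms preserving it.
They are used throughout the study of torsion at a place.
-/

namespace Fermat.Agent.Tate

open scoped Pointwise

variable {K : Type*} [Field K] (A : ValuationSubring K)

local notation "v" => A.valuation

lemma mem_iff {x : K} : x ∈ A ↔ v x ≤ 1 := (A.valuation_le_one_iff x).symm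

lemma not_mem_iff {x : K} : x ∉ A ↔ 1 < v x := by rw [mem_iff, not_le]

lemma val_natCast_le (n : ℕ) : v (n : K) ≤ 1 := (A.valuation_le_one_iff _).2 (natCast_mem A n)

lemma val_intCast_le (n : ℤ) : v (n : K) ≤ 1 := (A.valuation_le_one_iff _).2 (intCast_mem A n)

lemma val_ofNat_le (n : ℕ) [n.AtLeastTwo] : v (OfNat.ofNat n : K) ≤ 1 := val_natCast_le A n

lemma val_mul_le_of_le {x y : K} {g : A.ValueGroup} (hx : v x ≤ 1) (hy : v y ≤ g) :
    v (x * y) ≤ g := by
  rw [map_mul]; calc v x * v y ≤ 1 * g := mul_le_mul' hx hy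
    _ = g := one_mul g

lemma val_mul_lt_of_lt {x y : K} {g : A.ValueGroup} (hx : v x ≤ 1) (hy : v y < g) :
    v (x * y) < g :=
  lt_of_le_of_lt (val_mul_le_of_le A hx le_rfl) hy

lemma val_le_one_of_sq_add {x b c : K} (hb : v b ≤ 1) (hc : v c ≤ 1)
    (h : x ^ 2 + b * x + c = 0) : v x ≤ 1 := by
  by_contra hx
  rw [not_le] at hx
  have h2 : v x < v (x ^ 2) := by
    rw [map_pow, pow_two]
    calc v x = v x * 1 := (mul_one _).symm
      _ < v x * v x := mul_lt_mul_of_pos_left hx (zero_lt_one.trans hx)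
  have h3 : v (b * x + c) < v (x ^ 2) :=
    Valuation.map_add_lt _ (lt_of_le_of_lt (val_mul_le_of_le A hb le_rfl) h2)
      (lt_of_le_of_lt hc (hx.trans h2))
  have h4 := Valuation.map_add_eq_of_lt_right (A.valuation) h3
  rw [show b * x + c + x ^ 2 = 0 by linear_combination h, map_zero] at h4
  exact (zero_lt_iff.1 (lt_of_le_of_lt zero_le h3)) h4.symm

lemma pow_left_inj_val {a b : A.ValueGroup} {n : ℕ} (hn : n ≠ 0) (h : a ^ n = b ^ n) : a = b :=
  (pow_left_inj₀ zero_le zero_le hn).1 h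

section Inertia

variable {F : Type*} [Field F] [Algebra F K] {A} {σ : K ≃ₐ[F] K}

lemma mem_decomposition_of_mem_inertia (hσ : σ ∈ A.inertiaSubgroupIn F) :
    σ ∈ A.decompositionSubgroup F := by
  obtain ⟨g, -, rfl⟩ := hσ
  exact g.2

lemma mem_smul_iff_of_mem_decomposition (hσ : σ ∈ A.decompositionSubgroup F) {x : K} :
    σ x ∈ A ↔ x ∈ A := by
  have h : σ • A = A := hσ
  conv_lhs => rw [← h]
  exact ValuationSubring.smul_mem_pointwise_smul_iff

lemma val_le_val_iff (hσ : σ ∈ A.decompositionSubgroup F) (x y : K) :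
    v (σ x) ≤ v (σ y) ↔ v x ≤ v y := by
  rcases eq_or_ne y 0 with rfl | hy
  · simp
  · have hy' : σ y ≠ 0 := (map_ne_zero σ).2 hy
    have h1 : 0 < v (σ y) := zero_lt_iff.2 ((Valuation.ne_zero_iff _).2 hy')
    have h2 : 0 < v y := zero_lt_iff.2 ((Valuation.ne_zero_iff _).2 hy)
    have h3 : v (σ x / σ y) ≤ 1 ↔ v (x / y) ≤ 1 := by
      rw [← mem_iff, ← mem_iff, ← map_div₀ σ, mem_smul_iff_of_mem_decomposition hσ]
    rwa [map_div₀, map_div₀, div_le_one₀ h1, div_le_one₀ h2] at h3

lemma val_lt_val_iff (hσ : σ ∈ A.decompositionSubgroup F) (x y : K) :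
    v (σ x) < v (σ y) ↔ v x < v y := by
  rw [← not_le, ← not_le, val_le_val_iff hσ]

lemma val_eq_val_iff (hσ : σ ∈ A.decompositionSubgroup F) (x y : K) :
    v (σ x) = v (σ y) ↔ v x = v y := by
  rw [le_antisymm_iff, le_antisymm_iff, val_le_val_iff hσ, val_le_val_iff hσ]

lemma val_le_one_apply (hσ : σ ∈ A.decompositionSubgroup F) {x : K} (hx : v x ≤ 1) :
    v (σ x) ≤ 1 := by
  rwa [← mem_iff, mem_smul_iff_of_mem_decomposition hσ, mem_iff]

lemma val_apply_eq_one (hσ : σ ∈ A.decompositionSubgroup F) {x : K} (hx : v x = 1) :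
    v (σ x) = 1 := by
  have h := (val_eq_val_iff hσ x 1).2 (by rw [hx, map_one])
  rwa [map_one, map_one] at h

lemma val_apply_lt_one (hσ : σ ∈ A.decompositionSubgroup F) {x : K} (hx : v x < 1) :
    v (σ x) < 1 := by
  have h := (val_lt_val_iff hσ x 1).2 (by rwa [map_one])
  rwa [map_one, map_one] at h

lemma val_sub_lt_one_of_mem_inertia (hσ : σ ∈ A.inertiaSubgroupIn F) {x : K} (hx : x ∈ A) :
    v (σ x - x) < 1 := by
  obtain ⟨g, hg, rfl⟩ := hσ
  have h : MulSemiringAction.toRingAut (A.decompositionSubgroup F) (IsLocalRing.ResidueField A) g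
      = 1 := hg
  have h2 := DFunLike.congr_fun h (IsLocalRing.residue A ⟨x, hx⟩)
  change g • IsLocalRing.residue A ⟨x, hx⟩ = IsLocalRing.residue A ⟨x, hx⟩ at h2
  rw [← IsLocalRing.ResidueField.residue_smul, ← sub_eq_zero, ← map_sub,
    IsLocalRing.residue_eq_zero_iff, ValuationSubring.valuation_lt_one_iff] at h2
  exact h2

/-- A root of an integral quadratic whose conjugate root is incongruent is fixed by inertia. -/
lemma fixed_of_sq_add (hσ : σ ∈ A.inertiaSubgroupIn F) {x b c : K} (hb : v b ≤ 1) (hc : v c ≤ 1)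
    (hbσ : σ b = b) (hcσ : σ c = c) (h : x ^ 2 + b * x + c = 0) (hx : v (2 * x + b) = 1) :
    σ x = x := by
  have h' : (σ x) ^ 2 + b * σ x + c = 0 := by
    have := congrArg σ h
    simp only [map_add, map_mul, map_pow, map_zero, hbσ, hcσ] at this
    exact this
  have hd : (σ x - x) * (σ x + x + b) = 0 := by linear_combination h' - h
  rcases mul_eq_zero.1 hd with h0 | h0
  · exact sub_eq_zero.1 h0
  · have hlt := val_sub_lt_one_of_mem_inertia hσ
      ((mem_iff A).2 (val_le_one_of_sq_add A hb hc h))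
    rw [show σ x - x = -(2 * x + b) by linear_combination h0, Valuation.map_neg, hx] at hlt
    exact absurd hlt (lt_irrefl _)

end Inertia

end Fermat.Agent.Tate
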