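import Fermat.Agent.Tate.Chord
import Fermat.Agent.Tate.Val

/-!
Points reducing to the origin (`v x > 1`): a subgroup on which `x / y` is additive to first order.
Hence it has no torsion of order invertible in the valuation ring. This stands in for the formal
group.
-/

namespace Fermat.Agent.Tate

open WeierstrassCurve

variable {K : Type*} [Field K] (A : ValuationSubring K)

/-- All coefficients are integral. -/
structure IsInt (W : WeierstrassCurve K) : Prop where
  h₁ : A.valuation W.a₁ ≤ 1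
  h₂ : A.valuation W.a₂ ≤ 1
  h₃ : A.valuation W.a₃ ≤ 1
  h₄ : A.valuation W.a₄ ≤ 1
  h₆ : A.valuation W.a₆ ≤ 1

lemma isInt_of_map {R : Type*} [CommRing R] (f : R →+* K) (hf : ∀ r, f r ∈ A)
    (W : WeierstrassCurve R) : IsInt A (W.map f) := by
  constructor <;> simp only [map_a₁, map_a₂, map_a₃, map_a₄, map_a₆] <;>
    exact (mem_iff A).1 (hf _)

variable {A} {W : WeierstrassCurve.Affine K}

local notation "v" => A.valuation

lemma val_y_le_one (hW : IsInt A W) {x y : K} (h : W.Equation x y) (hx : v x ≤ 1) :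
    v y ≤ 1 := by
  rw [Affine.equation_iff] at h
  refine val_le_one_of_sq_add A (b := W.a₁ * x + W.a₃)
    (c := -(x ^ 3 + W.a₂ * x ^ 2 + W.a₄ * x + W.a₆)) ?_ ?_ (by linear_combination h)
  · exact Valuation.map_add_le _ (val_mul_le_of_le A hW.h₁ hx) hW.h₃
  · have h2 : v (x ^ 2) ≤ 1 := by rw [map_pow]; exact pow_le_one' hx 2
    have h3 : v (x ^ 3) ≤ 1 := by rw [map_pow]; exact pow_le_one' hx 3
    rw [Valuation.map_neg]
    exact Valuation.map_add_le _ (Valuation.map_add_le _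
      (Valuation.map_add_le _ h3 (val_mul_le_of_le A hW.h₂ h2))
      (val_mul_le_of_le A hW.h₄ hx)) hW.h₆

lemma val_y_of_one_lt (hW : IsInt A W) {x y : K} (h : W.Equation x y) (hx : 1 < v x) :
    v y ^ 2 = v x ^ 3 ∧ v x < v y ∧ v (y + W.a₁ * x + W.a₃) = v y := by
  rw [Affine.equation_iff] at h
  have hx2 : v x < v x ^ 2 := lt_self_pow₀ hx one_lt_two
  have hlow : v (W.a₂ * x ^ 2 + W.a₄ * x + W.a₆) < v (x ^ 3) := by
    have hb : v x ^ 2 < v (x ^ 3) := by rw [map_pow]; exact pow_lt_pow_right₀ hx (by norm_num)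
    refine lt_of_le_of_lt ?_ hb
    refine Valuation.map_add_le _ (Valuation.map_add_le _ ?_ ?_) (hW.h₆.trans (hx.le.trans hx2.le))
    · exact (val_mul_le_of_le A hW.h₂ le_rfl).trans_eq (map_pow _ _ _)
    · exact (val_mul_le_of_le A hW.h₄ le_rfl).trans hx2.le
  have hprod : v y * v (y + W.a₁ * x + W.a₃) = v x ^ 3 := by
    rw [← map_mul, show y * (y + W.a₁ * x + W.a₃)
      = x ^ 3 + (W.a₂ * x ^ 2 + W.a₄ * x + W.a₆) by linear_combination h,
      Valuation.map_add_eq_of_lt_left _ hlow, map_pow]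
  have hlin : v (W.a₁ * x + W.a₃) ≤ v x :=
    Valuation.map_add_le _ (val_mul_le_of_le A hW.h₁ le_rfl) (hW.h₃.trans hx.le)
  have hy : v x < v y := by
    by_contra hy
    rw [not_lt] at hy
    have : v (y + W.a₁ * x + W.a₃) ≤ v x := by
      rw [add_assoc]; exact Valuation.map_add_le _ hy hlin
    have h2 : v y * v (y + W.a₁ * x + W.a₃) ≤ v x * v x := mul_le_mul' hy this
    rw [hprod, ← pow_two] at h2
    exact absurd h2 (not_le.2 (pow_lt_pow_right₀ hx (by norm_num)))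
  have he : v (y + W.a₁ * x + W.a₃) = v y := by
    rw [add_assoc]; exact Valuation.map_add_eq_of_lt_left _ (lt_of_le_of_lt hlin hy)
  rw [he, ← pow_two] at hprod
  exact ⟨hprod, hy, he⟩

variable (A) in
/-- `P` reduces to the origin. -/
def InE1 (P : W.Point) : Prop :=
  ∀ (x y : K) (h : W.Nonsingular x y), P = Affine.Point.some x y h → 1 < A.valuation x

lemma inE1_zero : InE1 A (0 : W.Point) := fun _ _ _ h => absurd h.symm (Affine.Point.some_ne_zero _)

lemma inE1_some {x y : K} {h : W.Nonsingular x y} :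
    InE1 A (Affine.Point.some x y h) ↔ 1 < v x :=
  ⟨fun H => H x y h rfl, fun H _ _ _ he => by cases he; exact H⟩

lemma inE1_neg {P : W.Point} (hP : InE1 A P) : InE1 A (-P) := by
  rcases P with _ | ⟨x, y, h⟩
  · exact inE1_zero
  · rw [Affine.Point.neg_some, inE1_some]; exact inE1_some.1 hP

/-- `|l|² ≤` any bound for `1` and the three abscissae. -/
lemma chord_slope_bound (hW : IsInt A W) {x₁ x₂ x₃ y₁ y₂ y₃ l m : K}
    (hc : IsChord W x₁ x₂ x₃ y₁ y₂ y₃ l m) {g : A.ValueGroup} (h1 : 1 ≤ g)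
    (hx₁ : v x₁ ≤ g) (hx₂ : v x₂ ≤ g) (hx₃ : v x₃ ≤ g) : max 1 (v l) ^ 2 ≤ g := by
  rcases le_or_gt (v l) 1 with hl | hl
  · rw [max_eq_left hl, one_pow]; exact h1
  · rw [max_eq_right hl.le]
    have hl2 : v l < v (l ^ 2) := by rw [map_pow]; exact lt_self_pow₀ hl one_lt_two
    have he : v (l ^ 2 + W.a₁ * l - W.a₂) = v (l ^ 2) := by
      rw [add_sub_assoc]
      refine Valuation.map_add_eq_of_lt_left _ (Valuation.map_sub_lt _ ?_ ?_)
      · exact lt_of_le_of_lt (val_mul_le_of_le A hW.h₁ le_rfl) hl2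
      · exact lt_of_le_of_lt hW.h₂ (hl.trans hl2)
    rw [← map_pow, ← he, ← hc.e1]
    exact Valuation.map_add_le _ (Valuation.map_add_le _ hx₁ hx₂) hx₃

variable [DecidableEq K]

/-- The points reducing to the origin are closed under addition. -/
theorem inE1_add (hW : IsInt A W) {P Q : W.Point} (hP : InE1 A P) (hQ : InE1 A Q) :
    InE1 A (P + Q) := by
  rcases P with _ | ⟨x₁, y₁, h₁⟩
  · change InE1 A (0 + Q); rwa [zero_add]
  rcases Q with _ | ⟨x₂, y₂, h₂⟩
  · change InE1 A (_ + 0); rwa [add_zero]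
  rw [inE1_some] at hP hQ
  rcases add_cases h₁ h₂ with ⟨-, -, hs⟩ | ⟨x₃, y₃, l, m, h₃, -, -, heq, hc, hs⟩
  · rw [hs]; exact inE1_zero
  rw [hs, inE1_some]
  by_contra hx
  rw [not_lt] at hx
  have hy := val_y_le_one hW heq hx
  set L := max 1 (v l) with hL
  set g := max (v x₁) (v x₂) with hg
  have hL1 : 1 ≤ L := le_max_left _ _
  have hL2 : L ^ 2 ≤ g := chord_slope_bound hW hc (hP.le.trans (le_max_left _ _))
    (le_max_left _ _) (le_max_right _ _) (hx.trans (hP.le.trans (le_max_left _ _)))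
  have hl : v l ≤ L := le_max_right _ _
  have hLL : L ≤ L ^ 2 := le_self_pow hL1 two_ne_zero
  have hm : v m ≤ L := by
    rw [show m = y₃ - l * x₃ by linear_combination -hc.eq3]
    refine Valuation.map_sub_le _ (hy.trans hL1) ?_
    rw [mul_comm]; exact (val_mul_le_of_le A hx le_rfl).trans hl
  have hr : v (W.a₄ - 2 * l * m - W.a₃ * l - W.a₁ * m) ≤ L ^ 2 := by
    refine Valuation.map_sub_le _ (Valuation.map_sub_le _ (Valuation.map_sub_le _
      (hW.h₄.trans (hL1.trans hLL)) ?_) ((val_mul_le_of_le A hW.h₃ hl).trans hLL))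
      ((val_mul_le_of_le A hW.h₁ hm).trans hLL)
    rw [mul_assoc]
    refine val_mul_le_of_le A (val_ofNat_le A 2) ?_
    rw [map_mul, pow_two]; exact mul_le_mul' hl hm
  have h12 : g < v (x₁ * x₂) := by
    rw [map_mul, hg, max_lt_iff]
    exact ⟨lt_mul_of_one_lt_right (zero_lt_one.trans hP) hQ,
      lt_mul_of_one_lt_left (zero_lt_one.trans hQ) hP⟩
  have h3 : v (x₃ * (x₁ + x₂)) ≤ g :=
    val_mul_le_of_le A hx (Valuation.map_add _ _ _)
  have := Valuation.map_add_eq_of_lt_left (A.valuation) (h3.trans_lt h12)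
  rw [hc.e2] at this
  rw [this] at hr
  exact absurd (hr.trans hL2) (not_le.2 h12)

variable (W) in
/-- The local parameter `x / y` at the origin. -/
noncomputable def zPar : W.Point → K
  | .zero => 0
  | .some x y _ => x / y

omit [DecidableEq K] in
lemma val_zPar_sq (hW : IsInt A W) {x y : K} {h : W.Nonsingular x y} (hx : 1 < v x) :
    v (zPar W (.some x y h)) ^ 2 * v x = 1 := by
  obtain ⟨he, -, -⟩ := val_y_of_one_lt hW h.1 hx
  have h0 : v x ≠ 0 := (zero_lt_one.trans hx).ne'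
  change v (x / y) ^ 2 * v x = 1
  rw [map_div₀, div_pow, he, div_mul_eq_mul_div, ← pow_succ, div_self (pow_ne_zero 3 h0)]

omit [DecidableEq K] in
lemma val_zPar_lt_one (hW : IsInt A W) {x y : K} {h : W.Nonsingular x y} (hx : 1 < v x) :
    v (zPar W (.some x y h)) < 1 := by
  by_contra hz
  rw [not_lt] at hz
  have h1 := val_zPar_sq hW (h := h) hx
  have h2 : 1 * v x ≤ v (zPar W (.some x y h)) ^ 2 * v x :=
    mul_le_mul_left (one_le_pow₀ hz) _
  rw [h1, one_mul] at h2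
  exact absurd h2 (not_le.2 hx)

omit [DecidableEq K] in
lemma val_zPar_neg_add (hW : IsInt A W) {x y : K} {h : W.Nonsingular x y}
    {h' : W.Nonsingular x (W.negY x y)} (hx : 1 < v x) :
    v (zPar W (.some x (W.negY x y) h') + zPar W (.some x y h))
      < v (zPar W (.some x y h)) := by
  obtain ⟨-, hxy, he⟩ := val_y_of_one_lt hW h.1 hx
  have hy0 : y ≠ 0 := fun h0 => by rw [h0, map_zero] at hxy; exact not_lt_zero hxy
  have hn0 : y + W.a₁ * x + W.a₃ ≠ 0 := fun h0 => by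
    rw [h0, map_zero] at he; rw [← he] at hxy; exact not_lt_zero hxy
  have hid : x / W.negY x y + x / y
      = (x / y) * ((W.a₁ * x + W.a₃) / (y + W.a₁ * x + W.a₃)) := by
    rw [Affine.negY, show -y - W.a₁ * x - W.a₃ = -(y + W.a₁ * x + W.a₃) by ring, div_neg,
      neg_add_eq_sub, div_sub_div _ _ hy0 hn0, div_mul_div_comm]
    congr 1
    ring
  change v (x / W.negY x y + x / y) < v (x / y)
  have hz : 0 < v (x / y) := by
    rw [map_div₀]; exact div_pos (zero_lt_one.trans hx) (lt_of_le_of_lt zero_le hxy)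
  rw [hid, map_mul]
  refine mul_lt_of_lt_one_right hz ?_
  rw [map_div₀, he, div_lt_one₀ (lt_of_le_of_lt zero_le hxy)]
  exact lt_of_le_of_lt
    (Valuation.map_add_le _ (val_mul_le_of_le A hW.h₁ le_rfl) (hW.h₃.trans hx.le)) hxy

omit [DecidableEq K] in
/-- The numerator in the identity for the sum of the three parameters `x / y` on a line. -/
lemma val_chord_num_le (hW : IsInt A W) {l m : K} {L M Pi : A.ValueGroup} (hl : v l ≤ L)
    (hm : v m ≤ M) (hL1 : 1 ≤ L) (hL : L ^ 2 ≤ Pi) (hM : M ^ 2 ≤ Pi) :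
    v (W.a₃ * (l ^ 2 * m) - 3 * (W.a₆ * l ^ 2) + 2 * (W.a₄ * (l * m))
      - W.a₁ * (l * m ^ 2) - W.a₂ * m ^ 2) ≤ L * Pi := by
  have hLM : L * M ≤ Pi :=
    (pow_le_pow_iff_left₀ zero_le zero_le two_ne_zero).1 (by
      rw [mul_pow, pow_two Pi]; exact mul_le_mul' hL hM)
  have hPiL : Pi ≤ L * Pi := le_mul_of_one_le_left zero_le hL1
  refine Valuation.map_sub_le _ (Valuation.map_sub_le _ (Valuation.map_add_le _
    (Valuation.map_sub_le _ ?_ ?_) ?_) ?_) ?_
  · refine val_mul_le_of_le A hW.h₃ ?_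
    rw [map_mul, map_pow, pow_two, mul_assoc]
    exact mul_le_mul' hl ((mul_le_mul' hl hm).trans hLM)
  · refine val_mul_le_of_le A (val_ofNat_le A 3) (val_mul_le_of_le A hW.h₆ ?_)
    rw [map_pow]
    exact ((pow_le_pow_left₀ zero_le hl 2).trans hL).trans hPiL
  · refine val_mul_le_of_le A (val_ofNat_le A 2) (val_mul_le_of_le A hW.h₄ ?_)
    rw [map_mul]
    exact ((mul_le_mul' hl hm).trans hLM).trans hPiL
  · refine val_mul_le_of_le A hW.h₁ ?_
    rw [map_mul, map_pow]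
    exact mul_le_mul' hl ((pow_le_pow_left₀ zero_le hm 2).trans hM)
  · refine val_mul_le_of_le A hW.h₂ ?_
    rw [map_pow]
    exact ((pow_le_pow_left₀ zero_le hm 2).trans hM).trans hPiL

/-- `x / y` is additive to first order on the points reducing to the origin. -/
theorem val_zPar_add (hW : IsInt A W) {P Q : W.Point} (hP : InE1 A P) (hQ : InE1 A Q)
    {g : A.ValueGroup} (hg : 0 < g) (hgP : v (zPar W P) ≤ g) (hgQ : v (zPar W Q) ≤ g) :
    v (zPar W (P + Q) - zPar W P - zPar W Q) < g := by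
  rcases P with _ | ⟨x₁, y₁, h₁⟩
  · change v (zPar W (0 + Q) - 0 - zPar W Q) < g
    rw [zero_add, sub_zero, sub_self, map_zero]; exact hg
  rcases Q with _ | ⟨x₂, y₂, h₂⟩
  · change v (zPar W (_ + 0) - _ - 0) < g
    rw [add_zero, sub_zero, sub_self, map_zero]; exact hg
  rw [inE1_some] at hP hQ
  rcases add_cases h₁ h₂ with ⟨hx, hy, hs⟩ | ⟨x₃, y₃, l, m, h₃, -, -, heq, hc, hs⟩
  · subst hx hy
    rw [hs]
    have := val_zPar_neg_add hW (h := h₂) (h' := h₁) hQ
    rw [show (zPar W (0 : W.Point)) = 0 from rfl,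
      show (0 : K) - zPar W (.some x₁ _ h₁) - zPar W (.some x₁ y₂ h₂)
        = -(zPar W (.some x₁ _ h₁) + zPar W (.some x₁ y₂ h₂)) by ring, Valuation.map_neg]
    exact lt_of_lt_of_le this hgQ
  have hR : InE1 A (Affine.Point.some x₃ (W.negY x₃ y₃) h₃) :=
    hs ▸ inE1_add hW (inE1_some.2 hP) (inE1_some.2 hQ)
  rw [inE1_some] at hR
  obtain ⟨hy1, hxy1, -⟩ := val_y_of_one_lt hW h₁.1 hP
  obtain ⟨hy2, hxy2, -⟩ := val_y_of_one_lt hW h₂.1 hQ
  obtain ⟨hy3, hxy3, -⟩ := val_y_of_one_lt hW heq hR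
  have n1 : y₁ ≠ 0 := fun h0 => by rw [h0, map_zero] at hxy1; exact not_lt_zero hxy1
  have n2 : y₂ ≠ 0 := fun h0 => by rw [h0, map_zero] at hxy2; exact not_lt_zero hxy2
  have n3 : y₃ ≠ 0 := fun h0 => by rw [h0, map_zero] at hxy3; exact not_lt_zero hxy3
  set L := max 1 (v l) with hL
  set M := max 1 (v m) with hM
  set Pi := v x₁ * v x₂ * v x₃ with hPi
  set G := max (v x₁) (max (v x₂) (v x₃)) with hG
  have hL1 : 1 ≤ L := le_max_left _ _
  have hM1 : 1 ≤ M := le_max_left _ _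
  have hG1 : 1 ≤ G := hP.le.trans (le_max_left _ _)
  have hLG : L ^ 2 ≤ G := chord_slope_bound hW hc hG1 (le_max_left _ _)
    ((le_max_left _ _).trans (le_max_right _ _)) ((le_max_right _ _).trans (le_max_right _ _))
  have hPi1 : 1 ≤ Pi := one_le_mul (one_le_mul hP.le hQ.le) hR.le
  have hGPi : G ≤ Pi := by
    rw [hG, max_le_iff, max_le_iff, hPi]
    refine ⟨?_, ?_, ?_⟩
    · exact (le_mul_of_one_le_right zero_le hQ.le).trans (le_mul_of_one_le_right zero_le hR.le)
    · exact (le_mul_of_one_le_left zero_le hP.le).trans (le_mul_of_one_le_right zero_le hR.le)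
    · exact le_mul_of_one_le_left zero_le (one_le_mul hP.le hQ.le)
  have hMPi : M ^ 2 ≤ Pi := by
    rcases le_or_gt (v m) 1 with hm | hm
    · rw [hM, max_eq_left hm, one_pow]; exact hPi1
    · rw [hM, max_eq_right hm.le, hPi, ← map_mul, ← map_mul, hc.e3]
      have hm2 : v m < v (m ^ 2) := by rw [map_pow]; exact lt_self_pow₀ hm one_lt_two
      rw [add_sub_assoc, Valuation.map_add_eq_of_lt_left _ (Valuation.map_sub_lt _
        (lt_of_le_of_lt (val_mul_le_of_le A hW.h₃ le_rfl) hm2)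
        (lt_of_le_of_lt hW.h₆ (hm.trans hm2))), map_pow]
  have hnum : v (W.a₃ * (l ^ 2 * m) - 3 * (W.a₆ * l ^ 2) + 2 * (W.a₄ * (l * m))
      - W.a₁ * (l * m ^ 2) - W.a₂ * m ^ 2) ≤ L * Pi :=
    val_chord_num_le hW (le_max_right _ _) (le_max_right _ _) hL1 (hLG.trans hGPi) hMPi
  have hid : (x₁ / y₁ + x₂ / y₂ + x₃ / y₃) * (y₁ * y₂ * y₃)
      = W.a₃ * (l ^ 2 * m) - 3 * (W.a₆ * l ^ 2) + 2 * (W.a₄ * (l * m))
      - W.a₁ * (l * m ^ 2) - W.a₂ * m ^ 2 := by
    field_simp
    rw [hc.eq1, hc.eq2, hc.eq3]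
    linear_combination 3 * l ^ 2 * hc.e3 + 2 * l * m * hc.e2 + m ^ 2 * hc.e1
  set eps := v (x₁ / y₁ + x₂ / y₂ + x₃ / y₃) with heps
  have heb : eps ^ 2 * Pi ≤ G := by
    have h5 : eps * (v y₁ * v y₂ * v y₃) ≤ L * Pi := by
      rw [heps, ← map_mul, ← map_mul, ← map_mul, hid]; exact hnum
    have h6 : eps ^ 2 * Pi * Pi ^ 2 ≤ G * Pi ^ 2 := by
      refine le_trans (le_of_eq ?_) ((pow_le_pow_left₀ zero_le h5 2).trans
        ((mul_pow _ _ _).le.trans (mul_le_mul_left hLG _)))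
      rw [hPi, mul_pow eps, mul_pow (v y₁ * v y₂), mul_pow (v y₁), hy1, hy2, hy3]
      simp only [pow_succ, pow_zero, one_mul]
      ac_rfl
    exact le_of_mul_le_mul_right h6 (pow_pos (zero_lt_one.trans_le hPi1) 2)
  have hg1 : 1 ≤ g ^ 2 * v x₁ := by
    rw [← val_zPar_sq hW (h := h₁) hP]
    exact mul_le_mul_left (pow_le_pow_left₀ zero_le hgP 2) _
  have hg2 : 1 ≤ g ^ 2 * v x₂ := by
    rw [← val_zPar_sq hW (h := h₂) hQ]
    exact mul_le_mul_left (pow_le_pow_left₀ zero_le hgQ 2) _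
  have hepsg : eps < g := by
    by_contra hge
    rw [not_lt] at hge
    have hge2 : g ^ 2 * Pi ≤ G :=
      le_trans (mul_le_mul_left (pow_le_pow_left₀ zero_le hge 2) _) heb
    have hk1 : v x₁ < g ^ 2 * Pi := by
      rw [hPi, show g ^ 2 * (v x₁ * v x₂ * v x₃) = v x₁ * (g ^ 2 * v x₂ * v x₃) by ac_rfl]
      exact lt_mul_of_one_lt_right (zero_lt_one.trans hP)
        (lt_of_lt_of_le hR (le_mul_of_one_le_left zero_le hg2))
    have hk2 : v x₂ < g ^ 2 * Pi := by
      rw [hPi, show g ^ 2 * (v x₁ * v x₂ * v x₃) = v x₂ * (g ^ 2 * v x₁ * v x₃) by ac_rfl]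
      exact lt_mul_of_one_lt_right (zero_lt_one.trans hQ)
        (lt_of_lt_of_le hR (le_mul_of_one_le_left zero_le hg1))
    have hk3 : v x₃ < g ^ 2 * Pi := by
      rw [hPi, show g ^ 2 * (v x₁ * v x₂ * v x₃) = v x₃ * (g ^ 2 * v x₁ * v x₂) by ac_rfl]
      exact lt_mul_of_one_lt_right (zero_lt_one.trans hR)
        (lt_of_lt_of_le hQ (le_mul_of_one_le_left zero_le hg1))
    exact absurd hge2 (not_le.2 (max_lt hk1 (max_lt hk2 hk3)))
  rw [hs]
  have hz3 : v (x₃ / y₃) ≤ g := by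
    rw [show x₃ / y₃ = (x₁ / y₁ + x₂ / y₂ + x₃ / y₃) - x₁ / y₁ - x₂ / y₂ by ring]
    exact Valuation.map_sub_le _ (Valuation.map_sub_le _ hepsg.le hgP) hgQ
  have hn : v (x₃ / W.negY x₃ y₃ + x₃ / y₃) < g :=
    lt_of_lt_of_le (val_zPar_neg_add hW (h := ((Affine.nonsingular_neg ..).1 h₃)) (h' := h₃) hR) hz3
  change v (x₃ / W.negY x₃ y₃ - x₁ / y₁ - x₂ / y₂) < g
  rw [show x₃ / W.negY x₃ y₃ - x₁ / y₁ - x₂ / y₂ = (x₃ / W.negY x₃ y₃ + x₃ / y₃)
    - (x₁ / y₁ + x₂ / y₂ + x₃ / y₃) by ring]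
  exact Valuation.map_sub_lt _ hn hepsg

theorem inE1_nsmul (hW : IsInt A W) {P : W.Point} (hP : InE1 A P) (k : ℕ) :
    InE1 A (k • P) := by
  induction k with
  | zero => rw [zero_smul]; exact inE1_zero
  | succ k ih => rw [succ_nsmul]; exact inE1_add hW ih hP

/-- The points reducing to the origin have no torsion of order invertible in `A`. -/
theorem eq_zero_of_inE1_of_nsmul (hW : IsInt A W) {P : W.Point} (hP : InE1 A P) {n : ℕ}
    (hn : v (n : K) = 1) (h : n • P = 0) : P = 0 := by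
  rcases P with _ | ⟨x, y, hxy⟩
  · rfl
  exfalso
  have hx := inE1_some.1 hP
  set z := zPar W (.some x y hxy)
  have hz : 0 < v z := by
    refine zero_lt_iff.2 fun h0 => zero_ne_one (?_ : (0 : A.ValueGroup) = 1)
    rw [← val_zPar_sq hW (h := hxy) hx, show v (zPar W (.some x y hxy)) = 0 from h0]
    simp
  have key : ∀ k : ℕ, v (zPar W (k • Affine.Point.some x y hxy) - (k : K) * z) < v z := by
    intro k
    induction k with
    | zero => simpa [show zPar W (0 : W.Point) = 0 from rfl] using hz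
    | succ k ih =>
      have hk : v (zPar W (k • Affine.Point.some x y hxy)) ≤ v z := by
        rw [← sub_add_cancel (zPar W (k • Affine.Point.some x y hxy)) ((k : K) * z)]
        exact Valuation.map_add_le _ ih.le (val_mul_le_of_le A (val_natCast_le A k) le_rfl)
      have hadd := val_zPar_add hW (inE1_nsmul hW hP k) hP hz hk le_rfl
      have h3 := Valuation.map_add_lt (A.valuation) hadd ih
      rw [succ_nsmul]
      convert h3 using 2
      push_cast; ring
  have hk := key n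
  rw [h, show zPar W (0 : W.Point) = 0 from rfl, zero_sub, Valuation.map_neg, map_mul, hn,
    one_mul] at hk
  exact lt_irrefl _ hk

end Fermat.Agent.Tate
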